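/-
S55 / SMOOTH BRIDGE (SB), global half: definitions (sorry-free).

Smooth cohomology (helper29's `Top/Levels`, `Top/Cochains`) of open subgroups `H` of
`GQ = Gal(ℚ̄/ℚ)` for the level structure `levelsS S` versus finite-level cochains on the Galois
groups `Gal(M/E)` of finite layers `E ≤ M ⊆ ℚ̄` (`E` = fixed field of `H`), the language of the
arithmetic core (helper14's `Global/TowerDefs`).  Mirror of helper22's `LocalBridgeDefs`.

* `sbAlgebra h`   : `Algebra ↥E ↥M` for `E ≤ M` (reducible def: inclusion; same shape as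
                    `lbAlgebra`, `lgFieldAlgebra`)
* `sbRes h hn`    : restriction `↥E.fixingSubgroup →* Gal(M/E)` for `M/E` normal
* `sbMul₁ … sbMul₃` : the multiplicative cochain `ζ^c` attached to a `ZMod p`-valued cochain `c`
-/
import Fermat.Agent.S55.Bridge.Levels

set_option autoImplicit false
set_option linter.style.haveILetI false

namespace Fermat.Agent.S55

section Fields

variable {E M : IntermediateField ℚ (AlgebraicClosure ℚ)}

/-- `M` as an algebra over `E ≤ M` (inclusion).  NOT an instance: `letI := sbAlgebra h`. -/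
@[reducible] noncomputable def sbAlgebra (h : E ≤ M) : Algebra ↥E ↥M :=
  (IntermediateField.inclusion h).toRingHom.toAlgebra

theorem sb_isScalarTower_bot (h : E ≤ M) :
    letI := sbAlgebra h
    IsScalarTower ℚ ↥E ↥M :=
  letI := sbAlgebra h
  IsScalarTower.of_algebraMap_eq (fun _ => rfl)

theorem sb_isScalarTower_top (h : E ≤ M) :
    letI := sbAlgebra h
    IsScalarTower ↥E ↥M (AlgebraicClosure ℚ) :=
  letI := sbAlgebra h
  IsScalarTower.of_algebraMap_eq (fun _ => rfl)

/-- Restriction `Gal(ℚ̄/E) → Gal(M/E)` for `M/E` normal, on the subgroup `E.fixingSubgroup`. -/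
noncomputable def sbRes (h : E ≤ M)
    (hn : letI := sbAlgebra h; Normal ↥E ↥M) :
    letI := sbAlgebra h
    ↥E.fixingSubgroup →* (↥M ≃ₐ[↥E] ↥M) :=
  letI := sbAlgebra h
  haveI := sb_isScalarTower_top h
  haveI := hn
  (AlgEquiv.restrictNormalHom (F := ↥E) (K₁ := AlgebraicClosure ℚ) ↥M).comp
    (IntermediateField.fixingSubgroupEquiv E).toMonoidHom

theorem sbRes_apply (h : E ≤ M) (hn : letI := sbAlgebra h; Normal ↥E ↥M)
    (σ : ↥E.fixingSubgroup) (x : ↥M) :
    letI := sbAlgebra h
    ((sbRes h hn σ x : ↥M) : AlgebraicClosure ℚ) = (σ : GQ) (x : AlgebraicClosure ℚ) := by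
  letI := sbAlgebra h
  haveI := sb_isScalarTower_top h
  haveI := hn
  exact AlgEquiv.restrictNormal_commutes (IntermediateField.fixingSubgroupEquiv E σ) ↥M x

end Fields

section Mul

variable {p : ℕ} [NeZero p]

/-- The multiplicative `1`-cochain `ζ^x`. -/
noncomputable def sbMul₁ {G X : Type} [Monoid X] (ζ : X) (x : G → ZMod p) : G → X :=
  fun s => ζ ^ (x s).val

/-- The multiplicative `2`-cochain `ζ^c`. -/
noncomputable def sbMul₂ {G X : Type} [Monoid X] (ζ : X) (c : G × G → ZMod p) : G × G → X :=
  fun s => ζ ^ (c s).val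

/-- The multiplicative `3`-cochain `ζ^f`. -/
noncomputable def sbMul₃ {G X : Type} [Monoid X] (ζ : X) (f : G × G × G → ZMod p) :
    G × G × G → X :=
  fun s => ζ ^ (f s).val

end Mul

end Fermat.Agent.S55
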