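/-
S55 / SMOOTH BRIDGE (SB), leaf GB0: infinite Galois theory of `ℚ̄/ℚ` in the language of the levels
`levelsS S` (mirror of helper22's LB0 `LocalBridgeGalois`): open subgroups = fixing subgroups of
`S`-unramified finite subextensions, finite Galois layers, factorisation of smooth cochains.
-/
import Fermat.Agent.S55.SB.Defs
import Fermat.Agent.S55.LocalBrauerDefs

set_option autoImplicit false
set_option linter.style.haveILetI false

namespace Fermat.Agent.S55

section Galois

local instance sbgal_isAlgebraic : Algebra.IsAlgebraic ℚ (AlgebraicClosure ℚ) :=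
  AlgebraicClosure.isAlgebraic ℚ
local instance sbgal_isAlgClosure : IsAlgClosure ℚ (AlgebraicClosure ℚ) :=
  ⟨inferInstance, inferInstance⟩
local instance sbgal_normal : Normal ℚ (AlgebraicClosure ℚ) :=
  IsAlgClosure.normal ℚ (AlgebraicClosure ℚ)
local instance sbgal_isGalois : IsGalois ℚ (AlgebraicClosure ℚ) := inferInstance

variable (S : Finset Nat.Primes)

theorem sb_fixingSubgroup_le_iff (E E' : IntermediateField ℚ (AlgebraicClosure ℚ)) :
    E'.fixingSubgroup ≤ E.fixingSubgroup ↔ E ≤ E' := by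
  constructor
  · intro h
    rw [← InfiniteGalois.fixedField_fixingSubgroup E, ← InfiniteGalois.fixedField_fixingSubgroup E']
    exact IntermediateField.fixedField_le h
  · exact fun h => IntermediateField.fixingSubgroup_antitone h

/-- A subgroup containing the fixing subgroup of a finite subextension is the fixing subgroup of
its fixed field, which is contained in that subextension. -/
theorem sb_exists_field_of_le (N : Subgroup GQ) (F : IntermediateField ℚ (AlgebraicClosure ℚ))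
    (hfd : FiniteDimensional ℚ F) (hFN : F.fixingSubgroup ≤ N) :
    ∃ F' : IntermediateField ℚ (AlgebraicClosure ℚ), F' ≤ F ∧ N = F'.fixingSubgroup := by
  have hopen : IsOpen (N : Set GQ) :=
    Subgroup.isOpen_mono hFN (IntermediateField.fixingSubgroup_isOpen F)
  have hclosed : IsClosed (N : Set GQ) := OpenSubgroup.isClosed ⟨N, hopen⟩
  have h1 : (IntermediateField.fixedField N).fixingSubgroup = N :=
    InfiniteGalois.fixingSubgroup_fixedField ⟨N, hclosed⟩
  have h2 : IntermediateField.fixedField N ≤ F := by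
    have h3 := InfiniteGalois.fixedField_fixingSubgroup F
    rw [← h3]
    exact IntermediateField.fixedField_le hFN
  exact ⟨IntermediateField.fixedField N, h2, h1.symm⟩

/-- Open subgroups for `levelsS S` are exactly the fixing subgroups of the finite subextensions
unramified outside `S`. -/
theorem sb_isOpen_iff (V : Subgroup GQ) :
    (levelsS S).IsOpen V ↔ ∃ E : IntermediateField ℚ (AlgebraicClosure ℚ),
      E.IsUnramifiedOutside S ∧ V = E.fixingSubgroup := by
  constructor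
  · rintro ⟨_, ⟨F, hF, rfl⟩, hle⟩
    obtain ⟨E, hEF, rfl⟩ := sb_exists_field_of_le V F hF.1 hle
    exact ⟨E, hF.of_le hEF, rfl⟩
  · rintro ⟨E, hE, rfl⟩
    exact ⟨_, ⟨E, hE, rfl⟩, le_rfl⟩

end Galois

section Layers

local instance sbgal_isAlgebraic' : Algebra.IsAlgebraic ℚ (AlgebraicClosure ℚ) :=
  AlgebraicClosure.isAlgebraic ℚ
local instance sbgal_isAlgClosure' : IsAlgClosure ℚ (AlgebraicClosure ℚ) :=
  ⟨inferInstance, inferInstance⟩
local instance sbgal_normal' : Normal ℚ (AlgebraicClosure ℚ) :=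
  IsAlgClosure.normal ℚ (AlgebraicClosure ℚ)

variable {E M : IntermediateField ℚ (AlgebraicClosure ℚ)}

theorem sbRes_surjective (h : E ≤ M) (hn : letI := sbAlgebra h; Normal ↥E ↥M) :
    Function.Surjective (sbRes h hn) := by
  letI := sbAlgebra h
  haveI := sb_isScalarTower_top h
  haveI := hn
  haveI : Normal ↥E (AlgebraicClosure ℚ) := Normal.tower_top_of_normal ℚ ↥E (AlgebraicClosure ℚ)
  intro τ
  obtain ⟨σ, hσ⟩ := AlgEquiv.restrictNormalHom_surjective (F := ↥E) (K₁ := ↥M) (AlgebraicClosure ℚ) τ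
  exact ⟨(IntermediateField.fixingSubgroupEquiv E).symm σ, by
    simp only [sbRes, MonoidHom.coe_comp, Function.comp_apply, MulEquiv.coe_toMonoidHom,
      MulEquiv.apply_symm_apply]
    exact hσ⟩

theorem sbRes_eq_one_iff (h : E ≤ M) (hn : letI := sbAlgebra h; Normal ↥E ↥M)
    (σ : ↥E.fixingSubgroup) : sbRes h hn σ = 1 ↔ (σ : GQ) ∈ M.fixingSubgroup := by
  letI := sbAlgebra h
  rw [IntermediateField.mem_fixingSubgroup_iff]
  constructor
  · intro h1 x hx
    have h2 := sbRes_apply h hn σ ⟨x, hx⟩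
    rw [h1] at h2
    exact h2.symm
  · intro h1
    ext x
    rw [sbRes_apply h hn σ x]
    exact h1 x x.2

theorem sbRes_ker (h : E ≤ M) (hn : letI := sbAlgebra h; Normal ↥E ↥M) :
    (sbRes h hn).ker = M.fixingSubgroup.subgroupOf E.fixingSubgroup := by
  ext σ
  rw [MonoidHom.mem_ker, sbRes_eq_one_iff, Subgroup.mem_subgroupOf]

end Layers

section Layers2

local instance sbgal_isAlgebraic'' : Algebra.IsAlgebraic ℚ (AlgebraicClosure ℚ) :=
  AlgebraicClosure.isAlgebraic ℚ
local instance sbgal_isAlgClosure'' : IsAlgClosure ℚ (AlgebraicClosure ℚ) :=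
  ⟨inferInstance, inferInstance⟩
local instance sbgal_normal'' : Normal ℚ (AlgebraicClosure ℚ) :=
  IsAlgClosure.normal ℚ (AlgebraicClosure ℚ)

variable (S : Finset Nat.Primes)

/-- A subextension that is Galois over `ℚ` is Galois over every smaller subextension. -/
theorem sb_isGalois_of_isGalois {E M : IntermediateField ℚ (AlgebraicClosure ℚ)} (h : E ≤ M)
    [IsGalois ℚ ↥M] :
    letI := sbAlgebra h
    IsGalois ↥E ↥M := by
  letI := sbAlgebra h
  haveI := sb_isScalarTower_bot h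
  exact IsGalois.tower_top_of_isGalois ℚ ↥E ↥M

/-- Every finite family of `S`-unramified subextensions is contained in one which is Galois over
`ℚ`. -/
theorem sb_exists_galois_ge (F : IntermediateField ℚ (AlgebraicClosure ℚ))
    (hF : F.IsUnramifiedOutside S) :
    ∃ M : IntermediateField ℚ (AlgebraicClosure ℚ), F ≤ M ∧ M.IsUnramifiedOutside S ∧
      IsGalois ℚ ↥M := by
  have : Normal ℚ ↥(brlevNC F) := normalClosure.normal ℚ F (AlgebraicClosure ℚ)
  exact ⟨brlevNC F, brlev_le_NC F, brlev_NC_isUnramifiedOutside hF, ⟨⟩⟩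

/-- Every level of `V = E.fixingSubgroup` contains the kernel of `sbRes` for a finite layer `M/E`
with `M/ℚ` Galois and unramified outside `S`, which can be taken to contain a given `M₀`. -/
theorem sb_exists_layer (E : IntermediateField ℚ (AlgebraicClosure ℚ))
    (hE : E.IsUnramifiedOutside S)
    (U : Subgroup ↥E.fixingSubgroup) (hU : ((levelsS S).sub E.fixingSubgroup).IsLevel U)
    (M₀ : IntermediateField ℚ (AlgebraicClosure ℚ)) (hM₀ : M₀.IsUnramifiedOutside S) :
    ∃ (M : IntermediateField ℚ (AlgebraicClosure ℚ)) (h : E ≤ M),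
      M₀ ≤ M ∧ M.IsUnramifiedOutside S ∧ IsGalois ℚ ↥M ∧
      (letI := sbAlgebra h; IsGalois ↥E ↥M) ∧
      M.fixingSubgroup.subgroupOf E.fixingSubgroup ≤ U := by
  obtain ⟨_, ⟨F, hF, rfl⟩, rfl⟩ := hU
  obtain ⟨M, hle, hM, hgal⟩ := sb_exists_galois_ge S (E ⊔ F ⊔ M₀) ((hE.sup hF).sup hM₀)
  have hEM : E ≤ M := (le_sup_left.trans le_sup_left).trans hle
  have hFM : F ≤ M := (le_sup_right.trans le_sup_left).trans hle
  refine ⟨M, hEM, le_sup_right.trans hle, hM, hgal, sb_isGalois_of_isGalois hEM, ?_⟩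
  intro σ hσ
  rw [Subgroup.mem_subgroupOf] at hσ
  exact IntermediateField.fixingSubgroup_antitone hFM hσ

/-- Conversely the kernel of `sbRes` is a level (for `M` unramified outside `S`). -/
theorem sb_isLevel_ker {E M : IntermediateField ℚ (AlgebraicClosure ℚ)}
    (hM : M.IsUnramifiedOutside S) :
    ((levelsS S).sub E.fixingSubgroup).IsLevel (M.fixingSubgroup.subgroupOf E.fixingSubgroup) :=
  ⟨M.fixingSubgroup, ⟨M, hM, rfl⟩, rfl⟩

end Layers2

section Factor

/-- a function constant on the cosets of a subgroup containing the kernel of a surjection factors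
through the surjection -/
theorem sb_factor₁ {G Q X : Type*} [Group G] [Group Q] (π : G →* Q) (hπ : Function.Surjective π)
    (U : Subgroup G) (hU : π.ker ≤ U) (f : G → X) (hf : ∀ g s : G, s ∈ U → f (g * s) = f g) :
    ∃ f' : Q → X, ∀ g, f g = f' (π g) := by
  refine ⟨fun q => f (Function.surjInv hπ q), fun g => ?_⟩
  have h1 : g⁻¹ * Function.surjInv hπ (π g) ∈ U := by
    apply hU
    rw [MonoidHom.mem_ker, map_mul, map_inv, Function.surjInv_eq hπ, inv_mul_cancel]
  have h2 := hf g _ h1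
  rw [mul_inv_cancel_left] at h2
  exact h2.symm

theorem sb_factor₂ {G Q X : Type*} [Group G] [Group Q] (π : G →* Q) (hπ : Function.Surjective π)
    (U : Subgroup G) (hU : π.ker ≤ U) (f : G × G → X)
    (hf : ∀ g g' s s' : G, s ∈ U → s' ∈ U → f (g * s, g' * s') = f (g, g')) :
    ∃ f' : Q × Q → X, ∀ s, f s = f' (π s.1, π s.2) := by
  refine ⟨fun q => f (Function.surjInv hπ q.1, Function.surjInv hπ q.2), fun g => ?_⟩
  have h1 : ∀ g : G, g⁻¹ * Function.surjInv hπ (π g) ∈ U := fun g => by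
    apply hU
    rw [MonoidHom.mem_ker, map_mul, map_inv, Function.surjInv_eq hπ, inv_mul_cancel]
  have h2 := hf g.1 g.2 _ _ (h1 g.1) (h1 g.2)
  rw [mul_inv_cancel_left, mul_inv_cancel_left] at h2
  exact h2.symm

theorem sb_factor₃ {G Q X : Type*} [Group G] [Group Q] (π : G →* Q) (hπ : Function.Surjective π)
    (U : Subgroup G) (hU : π.ker ≤ U) (f : G × G × G → X)
    (hf : ∀ g g' g'' s s' s'' : G, s ∈ U → s' ∈ U → s'' ∈ U →
      f (g * s, g' * s', g'' * s'') = f (g, g', g'')) :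
    ∃ f' : Q × Q × Q → X, ∀ s, f s = f' (π s.1, π s.2.1, π s.2.2) := by
  refine ⟨fun q => f (Function.surjInv hπ q.1, Function.surjInv hπ q.2.1,
    Function.surjInv hπ q.2.2), fun g => ?_⟩
  have h1 : ∀ g : G, g⁻¹ * Function.surjInv hπ (π g) ∈ U := fun g => by
    apply hU
    rw [MonoidHom.mem_ker, map_mul, map_inv, Function.surjInv_eq hπ, inv_mul_cancel]
  have h2 := hf g.1 g.2.1 g.2.2 _ _ _ (h1 g.1) (h1 g.2.1) (h1 g.2.2)
  rw [mul_inv_cancel_left, mul_inv_cancel_left, mul_inv_cancel_left] at h2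
  exact h2.symm

variable (S : Finset Nat.Primes)

/-- Factorisation of smooth `1`-cochains through a finite Galois layer. -/
theorem sb_exists_factor₁ {X : Type*} (E : IntermediateField ℚ (AlgebraicClosure ℚ))
    (hE : E.IsUnramifiedOutside S) (f : ↥E.fixingSubgroup → X)
    (hf : IsLC₁ ((levelsS S).sub E.fixingSubgroup) f)
    (M₀ : IntermediateField ℚ (AlgebraicClosure ℚ)) (hM₀ : M₀.IsUnramifiedOutside S) :
    ∃ (M : IntermediateField ℚ (AlgebraicClosure ℚ)) (h : E ≤ M) (_ : M₀ ≤ M)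
      (_ : M.IsUnramifiedOutside S) (_ : IsGalois ℚ ↥M)
      (hg : letI := sbAlgebra h; IsGalois ↥E ↥M),
      letI := sbAlgebra h
      ∃ f' : (↥M ≃ₐ[↥E] ↥M) → X, ∀ σ, f σ = f' (sbRes h hg.to_normal σ) := by
  obtain ⟨U, hU, hfU⟩ := hf
  obtain ⟨M, h, h0, hM, hgQ, hg, hle⟩ := sb_exists_layer S E hE U hU M₀ hM₀
  refine ⟨M, h, h0, hM, hgQ, hg, ?_⟩
  letI := sbAlgebra h
  exact sb_factor₁ (sbRes h hg.to_normal) (sbRes_surjective h hg.to_normal) U
    (by rw [sbRes_ker]; exact hle) f hfU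

/-- Factorisation of smooth `2`-cochains through a finite Galois layer. -/
theorem sb_exists_factor₂ {X : Type*} (E : IntermediateField ℚ (AlgebraicClosure ℚ))
    (hE : E.IsUnramifiedOutside S) (f : ↥E.fixingSubgroup × ↥E.fixingSubgroup → X)
    (hf : IsLC₂ ((levelsS S).sub E.fixingSubgroup) f)
    (M₀ : IntermediateField ℚ (AlgebraicClosure ℚ)) (hM₀ : M₀.IsUnramifiedOutside S) :
    ∃ (M : IntermediateField ℚ (AlgebraicClosure ℚ)) (h : E ≤ M) (_ : M₀ ≤ M)
      (_ : M.IsUnramifiedOutside S) (_ : IsGalois ℚ ↥M)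
      (hg : letI := sbAlgebra h; IsGalois ↥E ↥M),
      letI := sbAlgebra h
      ∃ f' : (↥M ≃ₐ[↥E] ↥M) × (↥M ≃ₐ[↥E] ↥M) → X,
        ∀ s, f s = f' (sbRes h hg.to_normal s.1, sbRes h hg.to_normal s.2) := by
  obtain ⟨U, hU, hfU⟩ := hf
  obtain ⟨M, h, h0, hM, hgQ, hg, hle⟩ := sb_exists_layer S E hE U hU M₀ hM₀
  refine ⟨M, h, h0, hM, hgQ, hg, ?_⟩
  letI := sbAlgebra h
  exact sb_factor₂ (sbRes h hg.to_normal) (sbRes_surjective h hg.to_normal) U
    (by rw [sbRes_ker]; exact hle) f hfU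

/-- Factorisation of smooth `3`-cochains through a finite Galois layer. -/
theorem sb_exists_factor₃ {X : Type*} (E : IntermediateField ℚ (AlgebraicClosure ℚ))
    (hE : E.IsUnramifiedOutside S)
    (f : ↥E.fixingSubgroup × ↥E.fixingSubgroup × ↥E.fixingSubgroup → X)
    (hf : IsLC₃ ((levelsS S).sub E.fixingSubgroup) f)
    (M₀ : IntermediateField ℚ (AlgebraicClosure ℚ)) (hM₀ : M₀.IsUnramifiedOutside S) :
    ∃ (M : IntermediateField ℚ (AlgebraicClosure ℚ)) (h : E ≤ M) (_ : M₀ ≤ M)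
      (_ : M.IsUnramifiedOutside S) (_ : IsGalois ℚ ↥M)
      (hg : letI := sbAlgebra h; IsGalois ↥E ↥M),
      letI := sbAlgebra h
      ∃ f' : (↥M ≃ₐ[↥E] ↥M) × (↥M ≃ₐ[↥E] ↥M) × (↥M ≃ₐ[↥E] ↥M) → X,
        ∀ s, f s = f' (sbRes h hg.to_normal s.1, sbRes h hg.to_normal s.2.1,
          sbRes h hg.to_normal s.2.2) := by
  obtain ⟨U, hU, hfU⟩ := hf
  obtain ⟨M, h, h0, hM, hgQ, hg, hle⟩ := sb_exists_layer S E hE U hU M₀ hM₀
  refine ⟨M, h, h0, hM, hgQ, hg, ?_⟩
  letI := sbAlgebra h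
  exact sb_factor₃ (sbRes h hg.to_normal) (sbRes_surjective h hg.to_normal) U
    (by rw [sbRes_ker]; exact hle) f hfU

variable {E M : IntermediateField ℚ (AlgebraicClosure ℚ)}

/-- Cochains pulled back from a finite layer are smooth. -/
theorem sb_isLC₁_sbRes {X : Type*} (hM : M.IsUnramifiedOutside S) (h : E ≤ M)
    (hn : letI := sbAlgebra h; Normal ↥E ↥M)
    (f' : (letI := sbAlgebra h; ↥M ≃ₐ[↥E] ↥M) → X) :
    IsLC₁ ((levelsS S).sub E.fixingSubgroup) (fun σ => f' (sbRes h hn σ)) := by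
  refine ⟨_, sb_isLevel_ker S hM, fun g s hs => ?_⟩
  have h1 : sbRes h hn s = 1 := by
    rw [← MonoidHom.mem_ker, sbRes_ker]; exact hs
  show f' (sbRes h hn (g * s)) = f' (sbRes h hn g)
  rw [map_mul, h1, mul_one]

theorem sb_isLC₂_sbRes {X : Type*} (hM : M.IsUnramifiedOutside S) (h : E ≤ M)
    (hn : letI := sbAlgebra h; Normal ↥E ↥M)
    (f' : (letI := sbAlgebra h; (↥M ≃ₐ[↥E] ↥M) × (↥M ≃ₐ[↥E] ↥M)) → X) :
    IsLC₂ ((levelsS S).sub E.fixingSubgroup)
      (fun s => f' (sbRes h hn s.1, sbRes h hn s.2)) := by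
  refine ⟨_, sb_isLevel_ker S hM, fun g g' s s' hs hs' => ?_⟩
  have h1 : ∀ s : ↥E.fixingSubgroup, s ∈ M.fixingSubgroup.subgroupOf E.fixingSubgroup →
      sbRes h hn s = 1 := fun s hs => by
    rw [← MonoidHom.mem_ker, sbRes_ker]; exact hs
  show f' (sbRes h hn (g * s), sbRes h hn (g' * s')) = f' (sbRes h hn g, sbRes h hn g')
  rw [map_mul, map_mul, h1 s hs, h1 s' hs', mul_one, mul_one]

theorem sb_isLC₃_sbRes {X : Type*} (hM : M.IsUnramifiedOutside S) (h : E ≤ M)
    (hn : letI := sbAlgebra h; Normal ↥E ↥M)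
    (f' : (letI := sbAlgebra h; (↥M ≃ₐ[↥E] ↥M) × (↥M ≃ₐ[↥E] ↥M) × (↥M ≃ₐ[↥E] ↥M)) → X) :
    IsLC₃ ((levelsS S).sub E.fixingSubgroup)
      (fun s => f' (sbRes h hn s.1, sbRes h hn s.2.1, sbRes h hn s.2.2)) := by
  refine ⟨_, sb_isLevel_ker S hM, fun g g' g'' s s' s'' hs hs' hs'' => ?_⟩
  have h1 : ∀ s : ↥E.fixingSubgroup, s ∈ M.fixingSubgroup.subgroupOf E.fixingSubgroup →
      sbRes h hn s = 1 := fun s hs => by
    rw [← MonoidHom.mem_ker, sbRes_ker]; exact hs
  show f' (sbRes h hn (g * s), sbRes h hn (g' * s'), sbRes h hn (g'' * s'')) =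
    f' (sbRes h hn g, sbRes h hn g', sbRes h hn g'')
  rw [map_mul, map_mul, map_mul, h1 s hs, h1 s' hs', h1 s'' hs'', mul_one, mul_one, mul_one]

end Factor

section Compat

variable {E M E' M' : IntermediateField ℚ (AlgebraicClosure ℚ)}

/-- Inflation: `sbRes` for `M ≤ M'` over the same base is compatible with
`AlgEquiv.restrictNormalHom`. -/
theorem restrictNormalHom_sbRes (h : E ≤ M) (hM : M ≤ M')
    (hn : letI := sbAlgebra h; Normal ↥E ↥M)
    (hn' : letI := sbAlgebra (h.trans hM); Normal ↥E ↥M') (σ : ↥E.fixingSubgroup) :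
    letI := sbAlgebra h
    letI := sbAlgebra hM
    letI := sbAlgebra (h.trans hM)
    haveI : IsScalarTower ↥E ↥M ↥M' := IsScalarTower.of_algebraMap_eq (fun _ => rfl)
    haveI := hn
    AlgEquiv.restrictNormalHom (F := ↥E) (K₁ := ↥M') ↥M (sbRes (h.trans hM) hn' σ) =
      sbRes h hn σ := by
  letI := sbAlgebra h
  letI := sbAlgebra hM
  letI := sbAlgebra (h.trans hM)
  haveI : IsScalarTower ↥E ↥M ↥M' := IsScalarTower.of_algebraMap_eq (fun _ => rfl)
  haveI := hn
  ext x
  have h1 := AlgEquiv.restrictNormal_commutes (sbRes (h.trans hM) hn' σ) ↥M x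
  have h2 := sbRes_apply (h.trans hM) hn' σ (algebraMap ↥M ↥M' x)
  have h3 := sbRes_apply h hn σ x
  rw [← h1] at h2
  exact h2.trans h3.symm

/-- Compatibility of `sbRes` with a commutative square `E ≤ M`, `E' ≤ M'`, `E ≤ E'`, `M ≤ M'`
(inflation: `E' = E`; restriction: `M' = M`): `lfGalRes` of `LocalBrauerDefs` on the finite layers
corresponds to the inclusion `E'.fixingSubgroup ≤ E.fixingSubgroup`. -/
theorem lfGalRes_sbRes (h : E ≤ M) (h' : E' ≤ M') (hE : E ≤ E') (hM : M ≤ M')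
    (hn : letI := sbAlgebra h; Normal ↥E ↥M) (hn' : letI := sbAlgebra h'; Normal ↥E' ↥M')
    (σ : ↥E'.fixingSubgroup) :
    letI := sbAlgebra h
    letI := sbAlgebra h'
    letI := sbAlgebra hE
    letI := sbAlgebra hM
    letI := sbAlgebra (hE.trans h')
    haveI : IsScalarTower ↥E ↥M ↥M' := IsScalarTower.of_algebraMap_eq (fun _ => rfl)
    haveI : IsScalarTower ↥E ↥E' ↥M' := IsScalarTower.of_algebraMap_eq (fun _ => rfl)
    haveI := hn
    lfGalRes ↥E ↥M ↥E' ↥M' (sbRes h' hn' σ) =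
      sbRes h hn (Subgroup.inclusion (IntermediateField.fixingSubgroup_antitone hE) σ) := by
  letI := sbAlgebra h
  letI := sbAlgebra h'
  letI := sbAlgebra hE
  letI := sbAlgebra hM
  letI := sbAlgebra (hE.trans h')
  haveI : IsScalarTower ↥E ↥M ↥M' := IsScalarTower.of_algebraMap_eq (fun _ => rfl)
  haveI : IsScalarTower ↥E ↥E' ↥M' := IsScalarTower.of_algebraMap_eq (fun _ => rfl)
  haveI := hn
  ext x
  have h1 := lfGalRes_commutes ↥E ↥M ↥E' ↥M' (sbRes h' hn' σ) x
  have h2 := sbRes_apply h' hn' σ (algebraMap ↥M ↥M' x)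
  have h3 := sbRes_apply h hn (Subgroup.inclusion (IntermediateField.fixingSubgroup_antitone hE) σ) x
  rw [← h1] at h2
  exact h2.trans h3.symm

end Compat

end Fermat.Agent.S55
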