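/-
S55 / SMOOTH BRIDGE (SB), leaf GB1 (helper20): the relative frozen <-> classical
"unramified outside `S`" bridge.

* `sb_numberField`                            : finite subextensions of `ℚ̄/ℚ` are number fields
* `sb_glUnramOutside`                         : frozen ⟹ classical (relative version)
* `sb_isUnramifiedOutside_of_glUnramOutside`  : classical ⟹ frozen (relative version)

(exact statements of section GB1 of `SB/Spec.lean`, origin/helper13 1730f00).

Route: `N` := normal closure of `M` in `ℚ̄` (finite Galois over `ℚ`).  KEY LEMMA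
`sbur_ramIdx_under_eq_one_iff`: for `L/ℚ` finite Galois, `K ⊆ L` and `Q` a prime of `𝓞 L`,
`e(Q ∩ 𝓞 K | ℤ) = 1` iff the inertia group `I(Q | ℚ) ⊆ Gal(L/ℚ)` fixes `K` (count:
`|I(Q|ℚ)| = e(Q|ℤ) = e(Q ∩ 𝓞 K|ℤ) · e(Q|𝓞 K)` and `|I(Q|K)| = e(Q|𝓞 K)`).  Elements of
`I(Q | ℚ)` lift to global inertia (`S14.exists_inertia_lift`), and global inertia restricts into
`I(Q | ℚ)`.  Helper names are prefixed `sbur`.
-/
import Fermat.Agent.S55.SB.Galois
import Fermat.Agent.S55.SB.Cochain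
import Fermat.Agent.S14.PlumbInertia

set_option autoImplicit false
set_option linter.unusedSectionVars false
set_option linter.unusedVariables false
set_option linter.style.haveILetI false

namespace Fermat.Agent.S55

open scoped NumberField
open NumberField

/-! ## the abstract key lemma -/

section Abstract

variable (K L : Type*) [Field K] [NumberField K] [Field L] [NumberField L] [Algebra K L]

theorem sbur_card_inertia_rat [IsGalois ℚ L] (Q : Ideal (𝓞 L)) [Q.IsPrime] :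
    Nat.card (Ideal.inertia (L ≃ₐ[ℚ] L) Q) = Q.ramificationIdx ℤ := by
  haveI : (Q.under ℤ).IsPrime := Ideal.IsPrime.under ℤ Q
  rw [Ideal.card_inertia_eq_ramificationIdxIn (Q.under ℤ) Q,
    Ideal.ramificationIdxIn_eq_ramificationIdx (Q.under ℤ) Q (L ≃ₐ[ℚ] L)]

theorem sbur_card_inertia_rel [IsGalois K L] (Q : Ideal (𝓞 L)) [Q.IsPrime] :
    Nat.card (Ideal.inertia (L ≃ₐ[K] L) Q) = Q.ramificationIdx (𝓞 K) := by
  haveI : (Q.under (𝓞 K)).IsPrime := Ideal.IsPrime.under (𝓞 K) Q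
  rw [Ideal.card_inertia_eq_ramificationIdxIn (Q.under (𝓞 K)) Q,
    Ideal.ramificationIdxIn_eq_ramificationIdx (Q.under (𝓞 K)) Q (L ≃ₐ[K] L)]

theorem sbur_ramIdx_tower (Q : Ideal (𝓞 L)) [Q.IsPrime] :
    Q.ramificationIdx ℤ = (Q.under (𝓞 K)).ramificationIdx ℤ * Q.ramificationIdx (𝓞 K) :=
  Ideal.ramificationIdx_tower (R := ℤ) (Q.under (𝓞 K)) Q

/-- the inclusion of the relative inertia group into the absolute one -/
noncomputable def sburInertiaMap [IsGalois ℚ L] (Q : Ideal (𝓞 L)) :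
    Ideal.inertia (L ≃ₐ[K] L) Q → Ideal.inertia (L ≃ₐ[ℚ] L) Q :=
  fun σ => ⟨σ.1.restrictScalars ℚ, fun x => σ.2 x⟩

theorem sburInertiaMap_injective [IsGalois ℚ L] (Q : Ideal (𝓞 L)) :
    Function.Injective (sburInertiaMap K L Q) := by
  intro a b hab
  apply Subtype.ext
  ext x
  have h1 := congrArg (fun f : Ideal.inertia (L ≃ₐ[ℚ] L) Q => f.1 x) hab
  exact h1

/-- KEY LEMMA: for `L/ℚ` finite Galois and `K` a subfield, the prime of `K` below `Q` is unramified
over `ℤ` iff the inertia group of `Q` in `Gal(L/ℚ)` fixes `K`. -/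
theorem sbur_ramIdx_under_eq_one_iff [IsGalois ℚ L] (Q : Ideal (𝓞 L)) [Q.IsPrime] :
    (Q.under (𝓞 K)).ramificationIdx ℤ = 1 ↔
      ∀ σ ∈ Ideal.inertia (L ≃ₐ[ℚ] L) Q, ∀ x : K, σ (algebraMap K L x) = algebraMap K L x := by
  haveI : IsGalois K L := IsGalois.tower_top_of_isGalois ℚ K L
  have htower := sbur_ramIdx_tower K L Q
  have hrat := sbur_card_inertia_rat L Q
  have hrel := sbur_card_inertia_rel K L Q
  have hpos : 0 < Q.ramificationIdx (𝓞 K) := Ideal.ramificationIdx_pos Q (𝓞 K)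
  haveI : Finite (Ideal.inertia (L ≃ₐ[ℚ] L) Q) := inferInstance
  haveI : Finite (Ideal.inertia (L ≃ₐ[K] L) Q) := inferInstance
  constructor
  · intro h1 σ hσ x
    rw [h1, one_mul, ← hrat, ← hrel] at htower
    have hbij : Function.Bijective (sburInertiaMap K L Q) :=
      (Nat.bijective_iff_injective_and_card _).2 ⟨sburInertiaMap_injective K L Q, htower.symm⟩
    obtain ⟨σ', hσ'⟩ := hbij.2 ⟨σ, hσ⟩
    have h2 : σ = σ'.1.restrictScalars ℚ := by
      have := congrArg Subtype.val hσ'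
      exact this.symm
    rw [h2]
    exact σ'.1.commutes x
  · intro h
    have hle : Nat.card (Ideal.inertia (L ≃ₐ[ℚ] L) Q) ≤
        Nat.card (Ideal.inertia (L ≃ₐ[K] L) Q) := by
      refine Nat.card_le_card_of_injective
        (fun σ : Ideal.inertia (L ≃ₐ[ℚ] L) Q =>
          (⟨{ σ.1 with commutes' := fun x => h σ.1 σ.2 x }, fun x => σ.2 x⟩ :
            Ideal.inertia (L ≃ₐ[K] L) Q)) ?_
      intro a b hab
      apply Subtype.ext
      ext x
      have h1 := congrArg (fun f : Ideal.inertia (L ≃ₐ[K] L) Q => f.1 x) hab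
      exact h1
    rw [hrat, hrel, htower] at hle
    have h3 : (Q.under (𝓞 K)).ramificationIdx ℤ ≤ 1 := by
      by_contra hcon
      rw [not_le] at hcon
      have : Q.ramificationIdx (𝓞 K) * 2 ≤
          (Q.under (𝓞 K)).ramificationIdx ℤ * Q.ramificationIdx (𝓞 K) := by
        rw [mul_comm]
        exact Nat.mul_le_mul_right _ hcon
      omega
    haveI : (Q.under (𝓞 K)).IsPrime := Ideal.IsPrime.under (𝓞 K) Q
    have h4 : 0 < (Q.under (𝓞 K)).ramificationIdx ℤ := Ideal.ramificationIdx_pos _ ℤ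
    omega

/-- two rational primes in the same prime ideal are equal -/
theorem sbur_eq_of_natCast_mem {P : Ideal (𝓞 L)} [P.IsPrime] {ℓ ℓ' : ℕ} (hℓ : ℓ.Prime)
    (hℓ' : ℓ'.Prime) (h : ((ℓ : ℕ) : 𝓞 L) ∈ P) (h' : ((ℓ' : ℕ) : 𝓞 L) ∈ P) : ℓ = ℓ' := by
  by_contra hne
  have hcop : IsCoprime (ℓ : ℤ) (ℓ' : ℤ) :=
    Nat.isCoprime_iff_coprime.2 ((Nat.coprime_primes hℓ hℓ').2 hne)
  obtain ⟨a, b, hab⟩ := hcop
  have h1 : ((a : 𝓞 L)) * ((ℓ : ℕ) : 𝓞 L) + (b : 𝓞 L) * ((ℓ' : ℕ) : 𝓞 L) = 1 := by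
    have := congrArg (fun z : ℤ => (z : 𝓞 L)) hab
    push_cast at this
    exact this
  have h2 : (1 : 𝓞 L) ∈ P := by
    rw [← h1]
    exact P.add_mem (P.mul_mem_left _ h) (P.mul_mem_left _ h')
  exact (Ideal.IsPrime.ne_top inferInstance) ((Ideal.eq_top_iff_one P).2 h2)

/-- a natural number lies in `Q ∩ 𝓞 K` iff it lies in `Q` -/
theorem sbur_natCast_mem_under (Q : Ideal (𝓞 L)) (n : ℕ) :
    ((n : ℕ) : 𝓞 K) ∈ Q.under (𝓞 K) ↔ ((n : ℕ) : 𝓞 L) ∈ Q := by
  rw [Ideal.under_def, Ideal.mem_comap, map_natCast]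

end Abstract

/-! ## primes of finite subextensions of `ℚ̄` and valuation subrings of `ℚ̄` -/

section Concrete

open Fermat.Agent.S54 Fermat.Agent.S14 Fermat.Agent.S13 Fermat.Agent.S05

local instance sbur_isAlgebraic : Algebra.IsAlgebraic ℚ (AlgebraicClosure ℚ) :=
  AlgebraicClosure.isAlgebraic ℚ
local instance sbur_isAlgClosure : IsAlgClosure ℚ (AlgebraicClosure ℚ) :=
  ⟨inferInstance, inferInstance⟩
local instance sbur_normal : Normal ℚ (AlgebraicClosure ℚ) :=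
  IsAlgClosure.normal ℚ (AlgebraicClosure ℚ)

/-- finite subextensions of `ℚ̄/ℚ` are number fields -/
theorem sb_numberField {E : IntermediateField ℚ (AlgebraicClosure ℚ)}
    (hE : FiniteDimensional ℚ ↥E) : NumberField ↥E :=
  { to_charZero := inferInstance, to_finiteDimensional := hE }

variable (N : IntermediateField ℚ (AlgebraicClosure ℚ)) [NumberField N]

/-- the prime of `𝓞 N` below a valuation subring of `ℚ̄`. -/
noncomputable def sburPrimeBelow (A : ValuationSubring (AlgebraicClosure ℚ)) : Ideal (𝓞 N) :=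
  (primeBelow A).comap (plumbU_toZb N)

theorem mem_sburPrimeBelow_iff (A : ValuationSubring (AlgebraicClosure ℚ)) (x : 𝓞 N) :
    x ∈ sburPrimeBelow N A ↔ (((x : N) : AlgebraicClosure ℚ)) ∈ A.nonunits := by
  rw [sburPrimeBelow, Ideal.mem_comap, mem_primeBelow_iff, plumbU_toZb_coe]

instance sburPrimeBelow_isPrime (A : ValuationSubring (AlgebraicClosure ℚ)) :
    (sburPrimeBelow N A).IsPrime := by
  unfold sburPrimeBelow
  infer_instance

theorem natCast_mem_sburPrimeBelow (A : ValuationSubring (AlgebraicClosure ℚ)) {ℓ : ℕ}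
    (hA : A.LiesOverPrime ℓ) : ((ℓ : ℕ) : 𝓞 N) ∈ sburPrimeBelow N A := by
  rw [mem_sburPrimeBelow_iff]
  have : ((((ℓ : ℕ) : 𝓞 N) : N) : AlgebraicClosure ℚ) = (ℓ : AlgebraicClosure ℚ) := by
    simp
  rw [this]
  exact hA

theorem sburPrimeBelow_ne_bot (A : ValuationSubring (AlgebraicClosure ℚ)) {ℓ : ℕ} (hℓ : ℓ.Prime)
    (hA : A.LiesOverPrime ℓ) : sburPrimeBelow N A ≠ ⊥ := by
  intro h
  have h1 := natCast_mem_sburPrimeBelow N A hA
  rw [h, Ideal.mem_bot] at h1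
  have h2 : ((ℓ : ℕ) : 𝓞 N) ≠ 0 := by exact_mod_cast hℓ.ne_zero
  exact h2 h1

/-- restriction of inertia of `ℚ̄` lands in the inertia group of the prime below. -/
theorem sbur_restrictNormal_mem_inertia [IsGalois ℚ N] (A : ValuationSubring (AlgebraicClosure ℚ))
    (τ : AlgebraicClosure ℚ ≃ₐ[ℚ] AlgebraicClosure ℚ) (hτ : τ ∈ A.inertiaSubgroupIn ℚ) :
    τ.restrictNormal N ∈ Ideal.inertia (N ≃ₐ[ℚ] N) (sburPrimeBelow N A) := by
  have hI := isInertial_of_mem_inertiaSubgroupIn A τ hτ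
  intro x
  show (τ.restrictNormal N) • x - x ∈ sburPrimeBelow N A
  rw [mem_sburPrimeBelow_iff]
  have hx : (((x : N) : AlgebraicClosure ℚ)) ∈ A := by
    apply mem_valuationSubring_of_isIntegral
    have h1 : IsIntegral ℤ (x : N) := RingOfIntegers.isIntegral_coe x
    exact h1.map (N.val.restrictScalars ℤ)
  have h2 := hI.sub_mem _ hx
  have h3 : ((((τ.restrictNormal N) • x - x : 𝓞 N) : N) : AlgebraicClosure ℚ) =
      τ ((x : N) : AlgebraicClosure ℚ) - ((x : N) : AlgebraicClosure ℚ) := by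
    have h4 : (((τ.restrictNormal N) • x - x : 𝓞 N) : N) = (τ.restrictNormal N) (x : N) - (x : N) :=
      rfl
    rw [h4]
    have h5 : (((τ.restrictNormal N) (x : N) - (x : N) : N) : AlgebraicClosure ℚ) =
        (((τ.restrictNormal N) (x : N) : N) : AlgebraicClosure ℚ) - ((x : N) : AlgebraicClosure ℚ) :=
      rfl
    rw [h5]
    congr 1
    exact AlgEquiv.restrictNormal_commutes τ N (x : N)
  rw [h3]
  exact h2

/-- if `F ≤ N` is unramified outside `S` (frozen sense), `N/ℚ` finite Galois, then the inertia group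
of every prime of `N` not above `S` fixes `F`. -/
theorem sbur_inertia_fixes {S : Finset Nat.Primes} {F : IntermediateField ℚ (AlgebraicClosure ℚ)}
    (hFN : F ≤ N) [IsGalois ℚ N] (hF : F.IsUnramifiedOutside S) (Q : Ideal (𝓞 N)) [Q.IsPrime]
    (hQ : Q ≠ ⊥) (hS : ∀ q ∈ S, ((q : ℕ) : 𝓞 N) ∉ Q) (σ : N ≃ₐ[ℚ] N)
    (hσ : σ ∈ Ideal.inertia (N ≃ₐ[ℚ] N) Q) (x : F) :
    σ (IntermediateField.inclusion hFN x) = IntermediateField.inclusion hFN x := by
  obtain ⟨ℓ, A, τ, hℓ, hA, hmem, hτ, hres⟩ := exists_inertia_lift N Q hQ σ hσ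
  have hℓS : (⟨ℓ, hℓ⟩ : Nat.Primes) ∉ S := fun hin => hS ⟨ℓ, hℓ⟩ hin hmem
  have h1 := hF.2 ⟨ℓ, hℓ⟩ hℓS A hA hτ
  have h2 := (IntermediateField.mem_fixingSubgroup_iff _ _).mp h1 (x : AlgebraicClosure ℚ) x.2
  apply Subtype.ext
  rw [← hres]
  have h3 := AlgEquiv.restrictNormal_commutes τ N (IntermediateField.inclusion hFN x)
  exact h3.trans h2

/-- frozen ⟹ `e = 1` over `ℤ` for the primes below. -/
theorem sbur_ramIdx_eq_one_of_unram {S : Finset Nat.Primes}
    {F : IntermediateField ℚ (AlgebraicClosure ℚ)} [NumberField F]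
    (hFN : F ≤ N) [IsGalois ℚ N] (hF : F.IsUnramifiedOutside S) (Q : Ideal (𝓞 N)) [Q.IsPrime]
    (hQ : Q ≠ ⊥) (hS : ∀ q ∈ S, ((q : ℕ) : 𝓞 N) ∉ Q) :
    letI := sbAlgebra hFN
    (Q.under (𝓞 F)).ramificationIdx ℤ = 1 := by
  letI := sbAlgebra hFN
  rw [sbur_ramIdx_under_eq_one_iff]
  intro σ hσ x
  exact sbur_inertia_fixes N hFN hF Q hQ hS σ hσ x

end Concrete

/-! ## GB1 -/

section GB1

open Fermat.Agent.S54 Fermat.Agent.S14 Fermat.Agent.S13 Fermat.Agent.S05

local instance sbur_isAlgebraic' : Algebra.IsAlgebraic ℚ (AlgebraicClosure ℚ) :=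
  AlgebraicClosure.isAlgebraic ℚ
local instance sbur_isAlgClosure' : IsAlgClosure ℚ (AlgebraicClosure ℚ) :=
  ⟨inferInstance, inferInstance⟩
local instance sbur_normal' : Normal ℚ (AlgebraicClosure ℚ) :=
  IsAlgClosure.normal ℚ (AlgebraicClosure ℚ)

variable (S : Finset Nat.Primes) {E M : IntermediateField ℚ (AlgebraicClosure ℚ)}

/-- frozen ⟹ classical: if `M` is unramified outside `S` in the Prelude's sense (inertia groups
of all valuation subrings of `ℚ̄` over `q ∉ S` fix `M`), then every prime of `𝓞 M` not above `S` is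
unramified over `𝓞 E`, for every `E ≤ M`. -/
theorem sb_glUnramOutside (h : E ≤ M) (hM : M.IsUnramifiedOutside S) :
    letI := sbAlgebra h
    haveI := sb_numberField hM.1
    haveI := sb_numberField (hM.of_le h).1
    GlUnramOutside S ↥E ↥M := by
  letI := sbAlgebra h
  haveI := sb_numberField hM.1
  haveI := sb_numberField (hM.of_le h).1
  intro P _ hP hS
  haveI := hM.1
  have hMN : M ≤ brlevNC M := brlev_le_NC M
  haveI hNfd : FiniteDimensional ℚ ↥(brlevNC M) := brlev_NC_finiteDimensional M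
  haveI : NumberField ↥(brlevNC M) := sb_numberField hNfd
  haveI : Normal ℚ ↥(brlevNC M) := normalClosure.normal ℚ M (AlgebraicClosure ℚ)
  haveI : IsGalois ℚ ↥(brlevNC M) := ⟨⟩
  letI := sbAlgebra hMN
  haveI hPmax : P.IsMaximal := Ideal.IsPrime.isMaximal inferInstance hP
  obtain ⟨Q, hQmax, hQP⟩ :=
    Ideal.exists_maximal_ideal_liesOver_of_isIntegral (S := 𝓞 ↥(brlevNC M)) P
  haveI := hQmax.isPrime
  haveI := hQP
  have hPQ : P = Q.under (𝓞 ↥M) := hQP.over
  have hQ0 : Q ≠ ⊥ := Ideal.ne_bot_of_liesOver_of_ne_bot hP Q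
  have hS' : ∀ q ∈ S, ((q : ℕ) : 𝓞 ↥(brlevNC M)) ∉ Q := by
    intro q hq hmem
    refine hS q hq ?_
    rw [hPQ, sbur_natCast_mem_under]
    exact hmem
  have h1 : (Q.under (𝓞 ↥M)).ramificationIdx ℤ = 1 :=
    sbur_ramIdx_eq_one_of_unram (brlevNC M) hMN hM Q hQ0 hS'
  rw [← hPQ] at h1
  have h2 := sbur_ramIdx_tower ↥E ↥M P
  rw [h1] at h2
  have h3 : P.ramificationIdx (𝓞 ↥E) = 1 := Nat.dvd_one.1 (Dvd.intro_left _ h2.symm)
  exact Ideal.ramificationIdx_eq_one_iff.1 h3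

/-- classical ⟹ frozen: if `E` is unramified outside `S` (frozen sense) and `M/E` is finite with
every prime of `𝓞 M` not above `S` unramified over `𝓞 E`, then `M` is unramified outside `S`
(frozen sense). -/
theorem sb_isUnramifiedOutside_of_glUnramOutside (h : E ≤ M) (hE : E.IsUnramifiedOutside S)
    (hfd : FiniteDimensional ℚ ↥M)
    (hur : letI := sbAlgebra h
      haveI := sb_numberField hfd
      haveI := sb_numberField hE.1
      GlUnramOutside S ↥E ↥M) :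
    M.IsUnramifiedOutside S := by
  letI := sbAlgebra h
  haveI := sb_numberField hfd
  haveI := sb_numberField hE.1
  refine ⟨hfd, fun q hq A hA τ hτ => ?_⟩
  have hMN : M ≤ brlevNC M := brlev_le_NC M
  haveI hNfd : FiniteDimensional ℚ ↥(brlevNC M) := brlev_NC_finiteDimensional M
  haveI : NumberField ↥(brlevNC M) := sb_numberField hNfd
  haveI : Normal ℚ ↥(brlevNC M) := normalClosure.normal ℚ M (AlgebraicClosure ℚ)
  haveI : IsGalois ℚ ↥(brlevNC M) := ⟨⟩
  letI := sbAlgebra hMN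
  letI := sbAlgebra (h.trans hMN)
  haveI : IsScalarTower ↥E ↥M ↥(brlevNC M) := IsScalarTower.of_algebraMap_eq (fun _ => rfl)
  have hQ0 := sburPrimeBelow_ne_bot (brlevNC M) A q.2 hA
  have hqQ := natCast_mem_sburPrimeBelow (brlevNC M) A hA
  have hS' : ∀ q' ∈ S, ((q' : ℕ) : 𝓞 ↥(brlevNC M)) ∉ sburPrimeBelow (brlevNC M) A := by
    intro q' hq' hmem
    have h1 : (q' : ℕ) = (q : ℕ) := sbur_eq_of_natCast_mem ↥(brlevNC M) q'.2 q.2 hmem hqQ
    have h2 : q' = q := Subtype.ext h1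
    exact hq (h2 ▸ hq')
  have h1 : ((sburPrimeBelow (brlevNC M) A).under (𝓞 ↥E)).ramificationIdx ℤ = 1 :=
    sbur_ramIdx_eq_one_of_unram (brlevNC M) (h.trans hMN) hE _ hQ0 hS'
  have hPE : ((sburPrimeBelow (brlevNC M) A).under (𝓞 ↥M)).under (𝓞 ↥E) =
      (sburPrimeBelow (brlevNC M) A).under (𝓞 ↥E) := Ideal.under_under _
  haveI : ((sburPrimeBelow (brlevNC M) A).under (𝓞 ↥M)).IsPrime := Ideal.IsPrime.under (𝓞 ↥M) _
  have hqP : ((q : ℕ) : 𝓞 ↥M) ∈ (sburPrimeBelow (brlevNC M) A).under (𝓞 ↥M) := by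
    rw [sbur_natCast_mem_under]
    exact hqQ
  have hP0 : (sburPrimeBelow (brlevNC M) A).under (𝓞 ↥M) ≠ ⊥ := by
    intro h0
    rw [h0, Ideal.mem_bot] at hqP
    have h2 : ((q : ℕ) : 𝓞 ↥M) ≠ 0 := by exact_mod_cast q.2.ne_zero
    exact h2 hqP
  have hSP : ∀ q' ∈ S, ((q' : ℕ) : 𝓞 ↥M) ∉ (sburPrimeBelow (brlevNC M) A).under (𝓞 ↥M) := by
    intro q' hq'
    rw [sbur_natCast_mem_under]
    exact hS' q' hq'
  have h2 : ((sburPrimeBelow (brlevNC M) A).under (𝓞 ↥M)).ramificationIdx (𝓞 ↥E) = 1 := by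
    haveI := hur _ hP0 hSP
    exact Ideal.ramificationIdx_eq_one _ (𝓞 ↥E)
  have h3 := sbur_ramIdx_tower ↥E ↥M ((sburPrimeBelow (brlevNC M) A).under (𝓞 ↥M))
  rw [hPE, h1, h2] at h3
  have h4 := (sbur_ramIdx_under_eq_one_iff ↥M ↥(brlevNC M) (sburPrimeBelow (brlevNC M) A)).1 h3
    (τ.restrictNormal ↥(brlevNC M)) (sbur_restrictNormal_mem_inertia (brlevNC M) A τ hτ)
  rw [IntermediateField.mem_fixingSubgroup_iff]
  intro x hx
  have h5 := h4 ⟨x, hx⟩
  have h6 := AlgEquiv.restrictNormal_commutes τ ↥(brlevNC M)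
    (algebraMap ↥M ↥(brlevNC M) ⟨x, hx⟩)
  rw [h5] at h6
  exact h6.symm

end GB1

end Fermat.Agent.S55
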