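/-
S55 / SMOOTH BRIDGE (SB), global half, leaf GB2 (`SB/Embed.lean`): transport of an abstract
`S`-field `F'` into the algebraic closure of the rationals, with its cochains.
Section GB2 of `SB/Spec.lean` with every hole filled (definitions verbatim).
Helper lemmas are prefixed `sbem_`.
-/
import Fermat.Agent.S55.SB.Defs
import Fermat.Agent.S55.Global.TowerDefs

set_option autoImplicit false
set_option linter.style.haveILetI false

namespace Fermat.Agent.S55

open scoped NumberField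
open NumberField

section GB2

/-- `GlUnramOutside` is invariant under isomorphisms of the top field. -/
theorem glUnramOutside_congr (S : Finset Nat.Primes) {K F F' : Type} [Field K] [NumberField K]
    [Field F] [NumberField F] [Field F'] [NumberField F'] [Algebra K F] [Algebra K F']
    (φ : F ≃ₐ[K] F') (h : GlUnramOutside S K F) : GlUnramOutside S K F' := by
  intro P' hP' hne hS
  let e : 𝓞 F ≃ₐ[𝓞 K] 𝓞 F' := RingOfIntegers.mapAlgEquiv φ
  let P : Ideal (𝓞 F) := P'.comap e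
  haveI hPprime : P.IsPrime := Ideal.comap_isPrime _ _
  have hne' : P ≠ ⊥ := by
    intro hP
    apply hne
    have h1 : P.map e = P' := Ideal.map_comap_of_surjective e e.surjective P'
    rw [← h1, hP, Ideal.map_bot]
  have hS' : ∀ q ∈ S, (((q : Nat.Primes) : ℕ) : 𝓞 F) ∉ P := by
    intro q hq hmem
    apply hS q hq
    have h1 : e (((q : Nat.Primes) : ℕ) : 𝓞 F) ∈ P' := hmem
    simpa using h1
  have hu : Algebra.IsUnramifiedAt (𝓞 K) P := h P hne' hS'
  exact Algebra.FormallyUnramified.of_equiv (Localization.localAlgEquiv P P' e rfl)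

/-- A number field `F'` which is an algebra over a finite subextension `M` of `ℚ̄/ℚ` is
`M`-isomorphic to a finite subextension `M' ≥ M` of `ℚ̄`. -/
theorem sb_exists_embed (M : IntermediateField ℚ (AlgebraicClosure ℚ)) (F' : Type) [Field F']
    [NumberField F'] [Algebra ↥M F'] :
    ∃ (M' : IntermediateField ℚ (AlgebraicClosure ℚ)) (hM : M ≤ M'),
      FiniteDimensional ℚ ↥M' ∧
      (letI := sbAlgebra hM
       Nonempty (F' ≃ₐ[↥M] ↥M')) := by
  haveI hst : IsScalarTower ℚ ↥M F' :=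
    IsScalarTower.of_algebraMap_eq' (Subsingleton.elim _ _)
  haveI halg : Algebra.IsAlgebraic ↥M F' := Algebra.IsAlgebraic.tower_top (K := ℚ) ↥M
  let f : F' →ₐ[↥M] AlgebraicClosure ℚ := IsAlgClosed.lift
  let g : F' →ₐ[ℚ] AlgebraicClosure ℚ := (f : F' →+* AlgebraicClosure ℚ).toRatAlgHom
  have hg : ∀ x, g x = f x := fun _ => rfl
  have hM : M ≤ g.fieldRange := by
    intro m hm
    refine ⟨algebraMap ↥M F' ⟨m, hm⟩, ?_⟩
    show g _ = m
    rw [hg, f.commutes]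
    rfl
  refine ⟨g.fieldRange, hM, ?_, ?_⟩
  · exact (AlgEquiv.ofInjectiveField g).toLinearEquiv.finiteDimensional
  · letI := sbAlgebra hM
    refine ⟨AlgEquiv.ofRingEquiv (f := (AlgEquiv.ofInjectiveField g).toRingEquiv) ?_⟩
    intro m
    apply Subtype.ext
    show g _ = _
    rw [hg, f.commutes]
    rfl

section Transport

variable {K F' F'' : Type} [Field K] [Field F'] [Field F''] [Algebra K F'] [Algebra K F'']

/-- transport of `n`-cochains along an isomorphism `φ : F' ≃ₐ[K] F''` -/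
noncomputable def sbTr₁ (φ : F' ≃ₐ[K] F'') (x : (F' ≃ₐ[K] F') → F'ˣ) : (F'' ≃ₐ[K] F'') → F''ˣ :=
  fun σ => Units.map (φ : F' →* F'') (x ((AlgEquiv.autCongr φ).symm σ))

noncomputable def sbTr₂ (φ : F' ≃ₐ[K] F'') (c : (F' ≃ₐ[K] F') × (F' ≃ₐ[K] F') → F'ˣ) :
    (F'' ≃ₐ[K] F'') × (F'' ≃ₐ[K] F'') → F''ˣ :=
  fun s => Units.map (φ : F' →* F'')
    (c ((AlgEquiv.autCongr φ).symm s.1, (AlgEquiv.autCongr φ).symm s.2))

noncomputable def sbTr₃ (φ : F' ≃ₐ[K] F'')
    (f : (F' ≃ₐ[K] F') × (F' ≃ₐ[K] F') × (F' ≃ₐ[K] F') → F'ˣ) :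
    (F'' ≃ₐ[K] F'') × (F'' ≃ₐ[K] F'') × (F'' ≃ₐ[K] F'') → F''ˣ :=
  fun s => Units.map (φ : F' →* F'')
    (f ((AlgEquiv.autCongr φ).symm s.1, (AlgEquiv.autCongr φ).symm s.2.1,
      (AlgEquiv.autCongr φ).symm s.2.2))

theorem sbem_autCongr_symm_apply (φ : F' ≃ₐ[K] F'') (σ : F'' ≃ₐ[K] F'') (y : F') :
    (AlgEquiv.autCongr φ).symm σ y = φ.symm (σ (φ y)) := rfl

theorem sbem_map_smul (φ : F' ≃ₐ[K] F'') (σ : F'' ≃ₐ[K] F'') (u : F'ˣ) :
    Units.map (φ : F' →* F'') (((AlgEquiv.autCongr φ).symm σ) • u) =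
      σ • Units.map (φ : F' →* F'') u := by
  apply Units.ext
  show φ ((AlgEquiv.autCongr φ).symm σ (u : F')) = σ (φ (u : F'))
  rw [sbem_autCongr_symm_apply, AlgEquiv.apply_symm_apply]

theorem sbTr₁_glD0 (φ : F' ≃ₐ[K] F'') (u : F'ˣ) :
    sbTr₁ φ (glD0 u) = glD0 (Units.map (φ : F' →* F'') u) := by
  funext σ
  simp only [sbTr₁, glD0, map_div, sbem_map_smul]

theorem sbTr₂_glD1 (φ : F' ≃ₐ[K] F'') (x : (F' ≃ₐ[K] F') → F'ˣ) :
    sbTr₂ φ (glD1 x) = glD1 (sbTr₁ φ x) := by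
  funext s
  simp only [sbTr₂, sbTr₁, glD1, map_div, map_mul, sbem_map_smul]

theorem sbTr₃_glD2 (φ : F' ≃ₐ[K] F'') (c : (F' ≃ₐ[K] F') × (F' ≃ₐ[K] F') → F'ˣ) :
    sbTr₃ φ (glD2 c) = glD2 (sbTr₂ φ c) := by
  funext s
  simp only [sbTr₃, sbTr₂, glD2, map_div, map_mul, sbem_map_smul]

theorem sbTr₂_glMuValued (p : ℕ) (φ : F' ≃ₐ[K] F'')
    (c : (F' ≃ₐ[K] F') × (F' ≃ₐ[K] F') → F'ˣ) (hc : GlMuValued p c) :
    GlMuValued p (sbTr₂ φ c) := by
  intro s
  simp only [sbTr₂]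
  rw [← map_pow, hc, map_one]

theorem sbTr₁_glMuValued (p : ℕ) (φ : F' ≃ₐ[K] F'')
    (x : (F' ≃ₐ[K] F') → F'ˣ) (hx : GlMuValued p x) :
    GlMuValued p (sbTr₁ φ x) := by
  intro s
  simp only [sbTr₁]
  rw [← map_pow, hx, map_one]

variable {F : Type} [Field F] [Algebra K F] [Algebra F F'] [Algebra F F'']
  [IsScalarTower K F F'] [IsScalarTower K F F''] [Normal K F]

theorem sbem_restrictNormalHom_autCongr (φ : F' ≃ₐ[F] F'') (σ : F'' ≃ₐ[K] F'') :
    AlgEquiv.restrictNormalHom F ((AlgEquiv.autCongr (φ.restrictScalars K)).symm σ) =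
      AlgEquiv.restrictNormalHom F σ := by
  apply AlgEquiv.ext
  intro y
  apply (algebraMap F F').injective
  have h2 : ∀ (τ : F' ≃ₐ[K] F'),
      algebraMap F F' (AlgEquiv.restrictNormalHom F τ y) = τ (algebraMap F F' y) :=
    fun τ => AlgEquiv.restrictNormal_commutes τ F y
  have h3 : ∀ (τ : F'' ≃ₐ[K] F''),
      algebraMap F F'' (AlgEquiv.restrictNormalHom F τ y) = τ (algebraMap F F'' y) :=
    fun τ => AlgEquiv.restrictNormal_commutes τ F y
  rw [h2, sbem_autCongr_symm_apply]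
  have h1 : (φ.restrictScalars K) (algebraMap F F' y) = algebraMap F F'' y := φ.commutes y
  rw [h1, ← h3]
  exact φ.symm.commutes _

omit [Normal K F] in
theorem sbem_map_algebraMap (φ : F' ≃ₐ[F] F'') (v : Fˣ) :
    Units.map ((φ.restrictScalars K : F' ≃ₐ[K] F'') : F' →* F'')
      (Units.map (algebraMap F F' : F →* F') v) = Units.map (algebraMap F F'' : F →* F'') v := by
  apply Units.ext
  exact φ.commutes _

/-- transport along an `F`-isomorphism commutes with inflation from `F` -/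
theorem sbTr₁_glInfl₁ (φ : F' ≃ₐ[F] F'') (x : (F ≃ₐ[K] F) → Fˣ) :
    sbTr₁ (φ.restrictScalars K) (glInfl₁ K F F' x) = glInfl₁ K F F'' x := by
  funext σ
  simp only [sbTr₁, glInfl₁, pullCochain₁, sbem_restrictNormalHom_autCongr, sbem_map_algebraMap]

theorem sbTr₂_glInfl₂ (φ : F' ≃ₐ[F] F'') (c : (F ≃ₐ[K] F) × (F ≃ₐ[K] F) → Fˣ) :
    sbTr₂ (φ.restrictScalars K) (glInfl₂ K F F' c) = glInfl₂ K F F'' c := by
  funext s
  simp only [sbTr₂, glInfl₂, pullCochain₂, sbem_restrictNormalHom_autCongr, sbem_map_algebraMap]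

theorem sbTr₃_glInfl₃ (φ : F' ≃ₐ[F] F'')
    (f : (F ≃ₐ[K] F) × (F ≃ₐ[K] F) × (F ≃ₐ[K] F) → Fˣ) :
    sbTr₃ (φ.restrictScalars K) (glInfl₃ K F F' f) = glInfl₃ K F F'' f := by
  funext s
  simp only [sbTr₃, glInfl₃, pullCochain₃, sbem_restrictNormalHom_autCongr, sbem_map_algebraMap]

end Transport

end GB2

end Fermat.Agent.S55
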