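/-
S55 / SMOOTH BRIDGE (SB): roots of unity.  `H ≤ ker (cycloChar p)` means that the fixed field of
`H` contains the `p`-th roots of unity.
-/
import Fermat.Agent.S55.SB.Galois
import Fermat.Agent.S14.PlumbAction

set_option autoImplicit false

namespace Fermat.Agent.S55

open ExtCitation

section Root

local instance sbroot_isAlgebraic : Algebra.IsAlgebraic ℚ (AlgebraicClosure ℚ) :=
  AlgebraicClosure.isAlgebraic ℚ
local instance sbroot_isAlgClosure : IsAlgClosure ℚ (AlgebraicClosure ℚ) :=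
  ⟨inferInstance, inferInstance⟩
local instance sbroot_normal : Normal ℚ (AlgebraicClosure ℚ) :=
  IsAlgClosure.normal ℚ (AlgebraicClosure ℚ)
local instance sbroot_isGalois : IsGalois ℚ (AlgebraicClosure ℚ) := inferInstance

variable {p : ℕ} [Fact p.Prime]

/-- `σ ζ = ζ ^ χ(σ)` for a `p`-th root of unity `ζ`. -/
theorem sb_cycloChar_spec (σ : GQ) {ζ : AlgebraicClosure ℚ} (hζ : ζ ^ p = 1) :
    σ ζ = ζ ^ ((cycloChar p σ : (ZMod p)ˣ) : ZMod p).val := by
  rw [val_cycloChar]
  exact Fermat.Agent.S14.plumb_cycloExp_spec p σ hζ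

theorem sb_fix_of_mem_ker {σ : GQ} (hσ : σ ∈ (cycloChar p).ker) {ζ : AlgebraicClosure ℚ}
    (hζ : ζ ^ p = 1) : σ ζ = ζ := by
  rw [sb_cycloChar_spec σ hζ, MonoidHom.mem_ker.1 hσ, Units.val_one,
    ZMod.val_one'' (Fact.out : p.Prime).ne_one, pow_one]

/-- the `p`-th roots of unity lie in the fixed field of a subgroup of `ker χ` -/
theorem sb_root_mem {E : IntermediateField ℚ (AlgebraicClosure ℚ)}
    (hχ : E.fixingSubgroup ≤ (cycloChar p).ker) {ζ : AlgebraicClosure ℚ} (hζ : ζ ^ p = 1) :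
    ζ ∈ E := by
  rw [← InfiniteGalois.fixedField_fixingSubgroup E, IntermediateField.mem_fixedField_iff]
  intro σ hσ
  exact sb_fix_of_mem_ker (hχ hσ) hζ

end Root

end Fermat.Agent.S55
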