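/-
S55 / SMOOTH BRIDGE (SB): the dictionary between additive `ZMod p`-valued cochains (trivial action,
helper29's `dd1, dd2, dd3`) and multiplicative `μ_p`-valued cochains `ζ^c` (helper14's
`glD1, glD2, IsMulCocycle₃`), for a group `G` acting on a commutative group `X` and `ζ ∈ X` of
order `p` fixed by `G`.
-/
import Fermat.Agent.S55.SB.Defs
import Fermat.Agent.S55.Global.TowerDefs

set_option autoImplicit false

namespace Fermat.Agent.S55

section Pow

variable {p : ℕ} [Fact p.Prime] {X : Type} [CommGroup X] {ζ : X}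

theorem sb_pow_val_add (hζ : ζ ^ p = 1) (a b : ZMod p) :
    ζ ^ (a + b).val = ζ ^ a.val * ζ ^ b.val := by
  rw [← pow_add, ZMod.val_add, ← Nat.mod_add_div (a.val + b.val) p, pow_add (ζ) (_ % p), pow_mul,
    hζ, one_pow, mul_one, Nat.mod_add_div]

theorem sb_pow_val_zero : ζ ^ (0 : ZMod p).val = 1 := by
  rw [ZMod.val_zero, pow_zero]

theorem sb_pow_val_neg (hζ : ζ ^ p = 1) (a : ZMod p) : ζ ^ (-a).val = (ζ ^ a.val)⁻¹ := by
  rw [eq_inv_iff_mul_eq_one, ← sb_pow_val_add hζ, neg_add_cancel, sb_pow_val_zero]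

theorem sb_pow_val_sub (hζ : ζ ^ p = 1) (a b : ZMod p) :
    ζ ^ (a - b).val = ζ ^ a.val / ζ ^ b.val := by
  rw [sub_eq_add_neg, sb_pow_val_add hζ, sb_pow_val_neg hζ, div_eq_mul_inv]

theorem sb_pow_val_eq_one_iff (hζ : ζ ^ p = 1) (h1 : ζ ≠ 1) (a : ZMod p) :
    ζ ^ a.val = 1 ↔ a = 0 := by
  constructor
  · intro h
    have hord : orderOf ζ = p := orderOf_eq_prime hζ h1
    have h2 := orderOf_dvd_of_pow_eq_one h
    rw [hord] at h2
    have h3 : a.val = 0 := Nat.eq_zero_of_dvd_of_lt h2 (ZMod.val_lt a)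
    exact (ZMod.val_eq_zero a).1 h3
  · rintro rfl
    exact sb_pow_val_zero

theorem sb_pow_val_injective (hζ : ζ ^ p = 1) (h1 : ζ ≠ 1) (a b : ZMod p)
    (h : ζ ^ a.val = ζ ^ b.val) : a = b := by
  have h2 : ζ ^ (a - b).val = 1 := by rw [sb_pow_val_sub hζ, h, div_self']
  exact sub_eq_zero.1 ((sb_pow_val_eq_one_iff hζ h1 _).1 h2)

end Pow

section Dict

variable {p : ℕ} [Fact p.Prime] {G : Type} [Group G] {X : Type} [CommGroup X]
  [MulDistribMulAction G X] {ζ : X}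

theorem sb_smul_pow (hfix : ∀ g : G, g • ζ = ζ) (g : G) (n : ℕ) : g • ζ ^ n = ζ ^ n := by
  rw [smul_pow', hfix]

/-- `d¹(ζ^x) = ζ^(d¹ x)`. -/
theorem glD1_sbMul₁ (hζ : ζ ^ p = 1) (hfix : ∀ g : G, g • ζ = ζ) (x : G → ZMod p) :
    glD1 (sbMul₁ ζ x) = sbMul₂ ζ (dd1 (1 : Representation (ZMod p) G (ZMod p)) x) := by
  funext ⟨g, h⟩
  simp only [glD1, sbMul₁, sbMul₂, dd1_apply, sb_smul_pow hfix, MonoidHom.one_apply, Module.End.one_apply]
  rw [sb_pow_val_add hζ, sb_pow_val_sub hζ]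

/-- `d²(ζ^c) = ζ^(d² c)`. -/
theorem glD2_sbMul₂ (hζ : ζ ^ p = 1) (hfix : ∀ g : G, g • ζ = ζ) (c : G × G → ZMod p) :
    glD2 (sbMul₂ ζ c) = sbMul₃ ζ (dd2 (1 : Representation (ZMod p) G (ZMod p)) c) := by
  funext ⟨g, h, j⟩
  simp only [glD2, sbMul₂, sbMul₃, dd2_apply, sb_smul_pow hfix, MonoidHom.one_apply, Module.End.one_apply]
  rw [sb_pow_val_sub hζ, sb_pow_val_add hζ, sb_pow_val_sub hζ]

/-- `ζ^f` is a multiplicative `3`-cocycle iff `f` is an additive one. -/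
theorem isMulCocycle₃_sbMul₃_iff (hζ : ζ ^ p = 1) (h1 : ζ ≠ 1) (hfix : ∀ g : G, g • ζ = ζ)
    (f : G × G × G → ZMod p) :
    IsMulCocycle₃ (sbMul₃ ζ f) ↔ dd3 (1 : Representation (ZMod p) G (ZMod p)) f = 0 := by
  have key : ∀ g h j l : G,
      (g • sbMul₃ ζ f (h, j, l) * sbMul₃ ζ f (g, h * j, l) * sbMul₃ ζ f (g, h, j) =
        sbMul₃ ζ f (g * h, j, l) * sbMul₃ ζ f (g, h, j * l)) ↔
      dd3 (1 : Representation (ZMod p) G (ZMod p)) f (g, h, j, l) = 0 := by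
    intro g h j l
    simp only [sbMul₃, sb_smul_pow hfix, dd3_apply, MonoidHom.one_apply, Module.End.one_apply]
    rw [← sb_pow_val_add hζ, ← sb_pow_val_add hζ, ← sb_pow_val_add hζ]
    constructor
    · intro h2
      have h3 := sb_pow_val_injective hζ h1 _ _ h2
      linear_combination h3
    · intro h2
      congr 2
      linear_combination h2
  constructor
  · intro hc
    funext ⟨g, h, j, l⟩
    exact (key g h j l).1 (hc g h j l)
  · intro hc g h j l
    exact (key g h j l).2 (by rw [hc]; rfl)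

/-- `ζ^c` is a multiplicative `2`-cocycle iff `c` is an additive one. -/
theorem isMulCocycle₂_sbMul₂_iff (hζ : ζ ^ p = 1) (h1 : ζ ≠ 1) (hfix : ∀ g : G, g • ζ = ζ)
    (c : G × G → ZMod p) :
    groupCohomology.IsMulCocycle₂ (sbMul₂ ζ c) ↔
      dd2 (1 : Representation (ZMod p) G (ZMod p)) c = 0 := by
  have key : ∀ g h j : G,
      (sbMul₂ ζ c (g * h, j) * sbMul₂ ζ c (g, h) = g • sbMul₂ ζ c (h, j) * sbMul₂ ζ c (g, h * j)) ↔
      dd2 (1 : Representation (ZMod p) G (ZMod p)) c (g, h, j) = 0 := by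
    intro g h j
    simp only [sbMul₂, sb_smul_pow hfix, dd2_apply, MonoidHom.one_apply, Module.End.one_apply]
    rw [← sb_pow_val_add hζ, ← sb_pow_val_add hζ]
    constructor
    · intro h2
      have h3 := sb_pow_val_injective hζ h1 _ _ h2
      linear_combination -h3
    · intro h2
      congr 2
      linear_combination -h2
  constructor
  · intro hc
    funext ⟨g, h, j⟩
    exact (key g h j).1 (hc g h j)
  · intro hc g h j
    exact (key g h j).2 (by rw [hc]; rfl)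

end Dict

section Roots

variable {p : ℕ} [Fact p.Prime] {M : Type} [Field M] {ζ : Mˣ}

theorem sb_primitiveRoot_pow_eq_one (hζ : IsPrimitiveRoot ζ p) : ζ ^ p = 1 := hζ.pow_eq_one

theorem sb_primitiveRoot_ne_one (hζ : IsPrimitiveRoot ζ p) : ζ ≠ 1 :=
  hζ.ne_one (Fact.out : p.Prime).one_lt

/-- every `p`-th root of unity is a power of `ζ` -/
theorem sb_exists_pow_val_eq (hζ : IsPrimitiveRoot ζ p) (ξ : Mˣ) (hξ : ξ ^ p = 1) :
    ∃ c : ZMod p, ξ = ζ ^ c.val := by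
  have hζ' : IsPrimitiveRoot (ζ : M) p := IsPrimitiveRoot.coe_units_iff.2 hζ
  have hξ' : (ξ : M) ^ p = 1 := by rw [← Units.val_pow_eq_pow_val, hξ, Units.val_one]
  obtain ⟨i, hi, h⟩ := hζ'.eq_pow_of_pow_eq_one hξ'
  refine ⟨(i : ZMod p), ?_⟩
  rw [ZMod.val_natCast_of_lt hi]
  apply Units.ext
  rw [Units.val_pow_eq_pow_val, h]

/-- every `μ_p`-valued cochain is `ζ^c` -/
theorem sb_exists_eq_sbMul {A : Type} (hζ : IsPrimitiveRoot ζ p) (e : A → Mˣ)
    (he : GlMuValued p e) : ∃ c : A → ZMod p, ∀ a, e a = ζ ^ (c a).val := by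
  choose c hc using fun a => sb_exists_pow_val_eq hζ (e a) (he a)
  exact ⟨c, hc⟩

theorem sb_glMuValued_pow {A : Type} (hζ : IsPrimitiveRoot ζ p) (c : A → ZMod p) :
    GlMuValued p (fun a => ζ ^ (c a).val) := by
  intro a
  rw [← pow_mul, mul_comm, pow_mul, hζ.pow_eq_one, one_pow]

end Roots

end Fermat.Agent.S55
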