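/-
S55 / SMOOTH BRIDGE (SB), global half: former SPEC of the leaves, now a PURE SHIM (no sorry):
* GB1 `SB/Unram.lean` (helper20) : relative frozen <-> classical "unramified outside `S`" bridge
* GB2 `SB/Embed.lean` (helper26) : transport of abstract `S`-fields into `ℚ̄` (imports this file)
Definitions: `SB/Defs.lean`; GB0 (`SB/Galois.lean`, Galois layers) and `SB/Cochain.lean`.
-/
import Fermat.Agent.S55.SB.Galois
import Fermat.Agent.S55.SB.Cochain
import Fermat.Agent.S55.SB.Unram
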