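/-
S55 / SMOOTH BRIDGE (SB), assembly (AS-c1): `H³(H, 𝔽_p) = 0` for the smooth cohomology of an open
subgroup `H ≤ ker (cycloChar p)` of `GQ` with the levels `levelsS S`, from the finite-level statement
U4 (`gl_h3_mu_vanish` of helper14's `Global/CoreFinSpec.lean`, taken as a hypothesis `hU4` here).

Pattern of all assembled outputs:
`H = E.fixingSubgroup` (`sb_isOpen_iff`), `ζ ∈ E` (`sb_root_mem`), factor the smooth cochain through a
finite Galois layer `M/E` (`sb_exists_factor₃`), `ζ^f'` is a multiplicative cocycle (`SB/Cochain`),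
`M/E` is an `S`-field (`sb_glUnramOutside`, GB1), apply the finite-level statement, transport the
abstract answer `F'` back into `ℚ̄` (`sb_exists_embed`, `sbTr`, GB2 + GB1), read off the additive
cochain (`sb_exists_eq_sbMul`) and pull it back to `H` (`sb_isLC₂_sbRes`).
-/
import Fermat.Agent.S55.SB.Spec
import Fermat.Agent.S55.SB.Embed
import Fermat.Agent.S55.SB.Root

set_option autoImplicit false
set_option linter.style.haveILetI false

namespace Fermat.Agent.S55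

open scoped NumberField
open NumberField ExtCitation

section Abstract

variable {p : ℕ} [Fact p.Prime] {K F : Type} [Field K] [Field F] [Algebra K F]

/-- Galois automorphisms fix the units coming from the base field. -/
theorem sb_smul_map_algebraMap (ζ : Kˣ) (g : F ≃ₐ[K] F) :
    g • Units.map (algebraMap K F : K →* F) ζ = Units.map (algebraMap K F : K →* F) ζ := by
  apply Units.ext
  rw [AlgEquiv.smul_units_def]
  exact g.commutes (ζ : K)

theorem sb_isPrimitiveRoot_map {ζ : Kˣ} (hζ : IsPrimitiveRoot ζ p) :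
    IsPrimitiveRoot (Units.map (algebraMap K F : K →* F) ζ) p := by
  apply IsPrimitiveRoot.coe_units_iff.1
  have h1 : IsPrimitiveRoot ((ζ : Kˣ) : K) p := IsPrimitiveRoot.coe_units_iff.2 hζ
  exact h1.map_of_injective (algebraMap K F).injective

/-- `ζ^f'` is a multiplicative `3`-cocycle if `f'` is an additive one (trivial action). -/
theorem sb_isMulCocycle₃_of_dd3 {ζ : Kˣ} (hζ : IsPrimitiveRoot ζ p)
    (f' : (F ≃ₐ[K] F) × (F ≃ₐ[K] F) × (F ≃ₐ[K] F) → ZMod p)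
    (hf' : dd3 (1 : Representation (ZMod p) (F ≃ₐ[K] F) (ZMod p)) f' = 0) :
    IsMulCocycle₃ (sbMul₃ (Units.map (algebraMap K F : K →* F) ζ) f') := by
  have hζ' := sb_isPrimitiveRoot_map (F := F) hζ
  exact (isMulCocycle₃_sbMul₃_iff (sb_primitiveRoot_pow_eq_one hζ') (sb_primitiveRoot_ne_one hζ')
    (sb_smul_map_algebraMap ζ) f').2 hf'

theorem sb_glMuValued_sbMul₃ {ζ : Kˣ} (hζ : IsPrimitiveRoot ζ p)
    (f' : (F ≃ₐ[K] F) × (F ≃ₐ[K] F) × (F ≃ₐ[K] F) → ZMod p) :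
    GlMuValued p (sbMul₃ (Units.map (algebraMap K F : K →* F) ζ) f') :=
  sb_glMuValued_pow (sb_isPrimitiveRoot_map (F := F) hζ) f'

variable {F' : Type} [Field F'] [Algebra F F'] [Algebra K F'] [IsScalarTower K F F'] [Normal K F]

/-- the finite-level output of U4 in additive form -/
theorem sb_h3_abstract {ζ : Kˣ} (hζ : IsPrimitiveRoot ζ p)
    (f' : (F ≃ₐ[K] F) × (F ≃ₐ[K] F) × (F ≃ₐ[K] F) → ZMod p)
    (e : (F' ≃ₐ[K] F') × (F' ≃ₐ[K] F') → F'ˣ) (hμ : GlMuValued p e)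
    (he : glD2 e = glInfl₃ K F F' (sbMul₃ (Units.map (algebraMap K F : K →* F) ζ) f')) :
    ∃ c : (F' ≃ₐ[K] F') × (F' ≃ₐ[K] F') → ZMod p,
      dd2 (1 : Representation (ZMod p) (F' ≃ₐ[K] F') (ZMod p)) c =
        fun s => f' (AlgEquiv.restrictNormalHom F s.1, AlgEquiv.restrictNormalHom F s.2.1,
          AlgEquiv.restrictNormalHom F s.2.2) := by
  have hζ' : IsPrimitiveRoot (Units.map (algebraMap K F' : K →* F') ζ) p :=
    sb_isPrimitiveRoot_map (F := F') hζ
  obtain ⟨c, hc⟩ := sb_exists_eq_sbMul hζ' e hμ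
  refine ⟨c, ?_⟩
  have he' : e = sbMul₂ (Units.map (algebraMap K F' : K →* F') ζ) c := funext hc
  rw [he', glD2_sbMul₂ (sb_primitiveRoot_pow_eq_one hζ') (sb_smul_map_algebraMap ζ)] at he
  funext s
  have h1 := congrFun he s
  apply sb_pow_val_injective (sb_primitiveRoot_pow_eq_one hζ') (sb_primitiveRoot_ne_one hζ')
  rw [show (Units.map (algebraMap K F' : K →* F') ζ) ^
      (dd2 (1 : Representation (ZMod p) (F' ≃ₐ[K] F') (ZMod p)) c s).val =
      sbMul₃ (Units.map (algebraMap K F' : K →* F') ζ)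
        (dd2 (1 : Representation (ZMod p) (F' ≃ₐ[K] F') (ZMod p)) c) s from rfl, h1]
  simp only [glInfl₃, pullCochain₃, sbMul₃, map_pow]
  congr 1
  apply Units.ext
  simp only [Units.coe_map, MonoidHom.coe_coe]
  exact (IsScalarTower.algebraMap_apply K F F' (ζ : K)).symm

end Abstract

section Concrete

variable {p : ℕ} [Fact p.Prime]

/-- The statement U4 (`gl_h3_mu_vanish` of `Global/CoreFinSpec.lean`) as a proposition. -/
def SbU4 (p : ℕ) [Fact p.Prime] (S : Finset Nat.Primes) : Prop :=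
  ∀ (K F : Type) [Field K] [NumberField K] [Field F] [NumberField F] [Algebra K F] [IsGalois K F],
    (∃ ζ : K, IsPrimitiveRoot ζ p) → GlUnramOutside S K F →
    ∀ f : (F ≃ₐ[K] F) × (F ≃ₐ[K] F) × (F ≃ₐ[K] F) → Fˣ, IsMulCocycle₃ f → GlMuValued p f →
    ∃ (F' : Type) (_ : Field F') (_ : NumberField F') (_ : Algebra K F') (_ : Algebra F F')
      (_ : IsScalarTower K F F') (_ : IsGalois K F'),
      GlUnramOutside S K F' ∧
      ∃ e : (F' ≃ₐ[K] F') × (F' ≃ₐ[K] F') → F'ˣ, GlMuValued p e ∧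
        glD2 e = glInfl₃ K F F' f

/-- (AS-c1), layer form: a `3`-cocycle `f'` on a finite Galois layer `M/E` (with `ζ_p ∈ E`, `M`
unramified outside `S`) becomes a coboundary on a bigger layer `M'/E`. -/
theorem sb_c1_layer (S : Finset Nat.Primes) (hU4 : SbU4 p S)
    {E M : IntermediateField ℚ (AlgebraicClosure ℚ)} (h : E ≤ M)
    (hM : M.IsUnramifiedOutside S) (hg : letI := sbAlgebra h; IsGalois ↥E ↥M)
    {ζ : AlgebraicClosure ℚ} (hζ : IsPrimitiveRoot ζ p) (hζE : ζ ∈ E)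
    (f' : (letI := sbAlgebra h; (↥M ≃ₐ[↥E] ↥M) × (↥M ≃ₐ[↥E] ↥M) × (↥M ≃ₐ[↥E] ↥M)) → ZMod p)
    (hf' : letI := sbAlgebra h
      dd3 (1 : Representation (ZMod p) (↥M ≃ₐ[↥E] ↥M) (ZMod p)) f' = 0) :
    ∃ (M' : IntermediateField ℚ (AlgebraicClosure ℚ)) (hMM' : M ≤ M')
      (_ : M'.IsUnramifiedOutside S)
      (_ : letI := sbAlgebra (h.trans hMM'); IsGalois ↥E ↥M'),
      letI := sbAlgebra h
      letI := sbAlgebra hMM'
      letI := sbAlgebra (h.trans hMM')
      haveI : IsScalarTower ↥E ↥M ↥M' := IsScalarTower.of_algebraMap_eq (fun _ => rfl)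
      haveI := hg
      ∃ c : (↥M' ≃ₐ[↥E] ↥M') × (↥M' ≃ₐ[↥E] ↥M') → ZMod p,
        dd2 (1 : Representation (ZMod p) (↥M' ≃ₐ[↥E] ↥M') (ZMod p)) c =
          fun s => f' (AlgEquiv.restrictNormalHom ↥M s.1, AlgEquiv.restrictNormalHom ↥M s.2.1,
            AlgEquiv.restrictNormalHom ↥M s.2.2) := by
  letI := sbAlgebra h
  haveI := hg
  haveI hnfM : NumberField ↥M := sb_numberField hM.1
  haveI hnfE : NumberField ↥E := sb_numberField (hM.of_le h).1
  have h0 : ζ ≠ 0 := hζ.ne_zero (Fact.out : p.Prime).ne_zero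
  -- the root of unity as a unit of `E`
  let ζE : (↥E)ˣ := Units.mk0 ⟨ζ, hζE⟩ (fun h' => h0 (congrArg Subtype.val h'))
  have hζE' : IsPrimitiveRoot ζE p := by
    apply IsPrimitiveRoot.coe_units_iff.1
    exact IsPrimitiveRoot.of_map_of_injective (f := E.val) (by exact hζ) E.val.injective
  -- apply U4
  obtain ⟨F', iF', inF', iEF', iMF', itow, igal, hur', e, heμ, he⟩ :=
    hU4 ↥E ↥M ⟨(ζE : ↥E), IsPrimitiveRoot.coe_units_iff.2 hζE'⟩ (sb_glUnramOutside S h hM)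
      (sbMul₃ (Units.map (algebraMap ↥E ↥M : ↥E →* ↥M) ζE) f')
      (sb_isMulCocycle₃_of_dd3 hζE' f' hf') (sb_glMuValued_sbMul₃ hζE' f')
  -- additive form over the abstract field
  obtain ⟨c, hc⟩ := sb_h3_abstract hζE' f' e heμ he
  -- embed the abstract field
  obtain ⟨M', hMM', hfd', ⟨φ⟩⟩ := sb_exists_embed M F'
  letI := sbAlgebra hMM'
  letI := sbAlgebra (h.trans hMM')
  haveI htow' : IsScalarTower ↥E ↥M ↥M' := IsScalarTower.of_algebraMap_eq (fun _ => rfl)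
  haveI hnfM' : NumberField ↥M' := sb_numberField hfd'
  have hgal' : IsGalois ↥E ↥M' := IsGalois.of_algEquiv (φ.restrictScalars ↥E)
  have hur'' : GlUnramOutside S ↥E ↥M' := glUnramOutside_congr S (φ.restrictScalars ↥E) hur'
  have hM' : M'.IsUnramifiedOutside S :=
    sb_isUnramifiedOutside_of_glUnramOutside S (h.trans hMM') (hM.of_le h) hfd' hur''
  refine ⟨M', hMM', hM', hgal', ?_⟩
  refine ⟨fun s => c ((AlgEquiv.autCongr (φ.restrictScalars ↥E)).symm s.1,
    (AlgEquiv.autCongr (φ.restrictScalars ↥E)).symm s.2), ?_⟩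
  funext s
  obtain ⟨g₁, g₂, g₃⟩ := s
  have h1 := congrFun hc ((AlgEquiv.autCongr (φ.restrictScalars ↥E)).symm g₁,
    (AlgEquiv.autCongr (φ.restrictScalars ↥E)).symm g₂,
    (AlgEquiv.autCongr (φ.restrictScalars ↥E)).symm g₃)
  simp only [dd2_apply, MonoidHom.one_apply, Module.End.one_apply] at h1 ⊢
  rw [sbem_restrictNormalHom_autCongr, sbem_restrictNormalHom_autCongr,
    sbem_restrictNormalHom_autCongr] at h1
  rw [← h1, map_mul, map_mul]

/-- **(AS-c1)** `H³(H, 𝔽_p) = 0` for the smooth cohomology of every open subgroup `H ≤ ker χ` of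
`GQ` (levels `levelsS S`), from U4. -/
theorem sb_c1 (S : Finset Nat.Primes) (hU4 : SbU4 p S) (H : Subgroup GQ)
    (hH : (levelsS S).IsOpen H) (hχ : H ≤ (cycloChar p).ker)
    (f : ↥H × ↥H × ↥H → ZMod p)
    (hf : f ∈ smZ3 ((levelsS S).sub H) (1 : Representation (ZMod p) ↥H (ZMod p))) :
    f ∈ smB3 ((levelsS S).sub H) (1 : Representation (ZMod p) ↥H (ZMod p)) := by
  obtain ⟨E, hE, rfl⟩ := (sb_isOpen_iff S H).1 hH
  obtain ⟨ζ, hζ⟩ := Fermat.Agent.S14.plumb_exists_primitiveRoot p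
  have hζE : ζ ∈ E := sb_root_mem hχ hζ.pow_eq_one
  obtain ⟨hf0, hfLC⟩ := (mem_smZ3 _ _ f).1 hf
  obtain ⟨M, h, -, hM, -, hg, f', hff'⟩ :=
    sb_exists_factor₃ S E hE f hfLC ⊥ (IntermediateField.isUnramifiedOutside_bot S)
  letI := sbAlgebra h
  have hf' : dd3 (1 : Representation (ZMod p) (↥M ≃ₐ[↥E] ↥M) (ZMod p)) f' = 0 := by
    funext ⟨a₁, a₂, a₃, a₄⟩
    obtain ⟨g₁, rfl⟩ := sbRes_surjective h hg.to_normal a₁
    obtain ⟨g₂, rfl⟩ := sbRes_surjective h hg.to_normal a₂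
    obtain ⟨g₃, rfl⟩ := sbRes_surjective h hg.to_normal a₃
    obtain ⟨g₄, rfl⟩ := sbRes_surjective h hg.to_normal a₄
    have h1 := congrFun hf0 (g₁, g₂, g₃, g₄)
    simp only [dd3_apply, MonoidHom.one_apply, Module.End.one_apply, Pi.zero_apply] at h1 ⊢
    rw [← map_mul, ← map_mul, ← map_mul, ← hff' (g₂, g₃, g₄), ← hff' (g₁ * g₂, g₃, g₄),
      ← hff' (g₁, g₂ * g₃, g₄), ← hff' (g₁, g₂, g₃ * g₄), ← hff' (g₁, g₂, g₃)]
    exact h1
  obtain ⟨M', hMM', hM', hg', c, hc⟩ := sb_c1_layer S hU4 h hM hg hζ hζE f' hf'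
  rw [mem_smB3]
  refine ⟨fun s => c (sbRes (h.trans hMM') hg'.to_normal s.1,
    sbRes (h.trans hMM') hg'.to_normal s.2),
    sb_isLC₂_sbRes S hM' (h.trans hMM') hg'.to_normal c, ?_⟩
  funext ⟨g₁, g₂, g₃⟩
  have h1 := congrFun hc (sbRes (h.trans hMM') hg'.to_normal g₁,
    sbRes (h.trans hMM') hg'.to_normal g₂, sbRes (h.trans hMM') hg'.to_normal g₃)
  simp only [dd2_apply, MonoidHom.one_apply, Module.End.one_apply, map_mul] at h1 ⊢
  rw [h1, hff' (g₁, g₂, g₃)]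
  have h2 := restrictNormalHom_sbRes h hMM' hg.to_normal hg'.to_normal
  rw [h2 g₁, h2 g₂, h2 g₃]

end Concrete

end Fermat.Agent.S55
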