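/-
S55 / SMOOTH BRIDGE (SB), global Kummer bridge: definitions (sorry-free).
`sbRoot p a` : a chosen `p`-th root of `a` in `ℚ̄`; `sbKumFun ζ V a` : the Kummer function
`σ ↦ x`, `σ α = ζ^x α` on a subgroup `V` of `GQ` (same shape as `lbRoot`, `lbKumFun`).
-/
import Fermat.Agent.S55.Bridge.Levels

set_option autoImplicit false

namespace Fermat.Agent.S55

section Defs

variable {p : ℕ} [NeZero p]

/-- A chosen `p`-th root of `a` in `ℚ̄`. -/
noncomputable def sbRoot (p : ℕ) [NeZero p] (a : AlgebraicClosure ℚ) : AlgebraicClosure ℚ :=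
  Classical.choose (IsAlgClosed.exists_pow_nat_eq a (Nat.pos_of_ne_zero (NeZero.ne p)))

theorem sbRoot_pow (a : AlgebraicClosure ℚ) : sbRoot p a ^ p = a :=
  Classical.choose_spec (IsAlgClosed.exists_pow_nat_eq a (Nat.pos_of_ne_zero (NeZero.ne p)))

/-- The Kummer cocycle of `a`: `σ ↦ j` with `σ α = ζ^j α`, `α = sbRoot p a` (junk `0` if there is
no such `j`). -/
noncomputable def sbKumFun (ζ : AlgebraicClosure ℚ) (V : Subgroup GQ) (a : AlgebraicClosure ℚ) :
    ↥V → ZMod p :=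
  fun σ => ((sInf {j : ℕ | (σ : GQ) (sbRoot p a) = ζ ^ j * sbRoot p a} : ℕ) : ZMod p)

end Defs

end Fermat.Agent.S55
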