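/-
S55 / SMOOTH BRIDGE (SB), leaf SB-KG1 (row 335): Kummer theory of the smooth `H¹(H, 𝔽_p)` of an open
subgroup `H = E.fixingSubgroup ≤ ker (cycloChar p)` of `GQ` (levels `levelsS S`, `p ∈ S`).
Exact statements of section KG1 of `SB/KummerGlobalSpec.lean`.  Global mirror of helper2's
`LocalBridgeKummer.lean`.  Helper lemmas are prefixed `sbk_`.
-/
import Fermat.Agent.S55.SB.KummerGlobalDefs
import Fermat.Agent.S55.SB.AsC1
import Fermat.Agent.S55.GK.KummerSField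
import Fermat.Agent.S55.Kummer

set_option autoImplicit false
set_option linter.style.haveILetI false
set_option linter.unusedSectionVars false
set_option linter.unusedVariables false

namespace Fermat.Agent.S55

open scoped NumberField
open NumberField IsDedekindDomain ExtCitation

local instance sbk_isAlgebraic : Algebra.IsAlgebraic ℚ (AlgebraicClosure ℚ) :=
  AlgebraicClosure.isAlgebraic ℚ
local instance sbk_isAlgClosure : IsAlgClosure ℚ (AlgebraicClosure ℚ) :=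
  ⟨inferInstance, inferInstance⟩
local instance sbk_normal : Normal ℚ (AlgebraicClosure ℚ) :=
  IsAlgClosure.normal ℚ (AlgebraicClosure ℚ)
local instance sbk_isGalois : IsGalois ℚ (AlgebraicClosure ℚ) := inferInstance

/-! ### Auxiliary lemmas -/

section Aux

variable {p : ℕ} [Fact p.Prime] {ζ : AlgebraicClosure ℚ}

theorem sbk_pow_val_add (hζ : IsPrimitiveRoot ζ p) (x y : ZMod p) :
    ζ ^ (x + y).val = ζ ^ x.val * ζ ^ y.val := by
  rw [ZMod.val_add, ← pow_eq_pow_mod _ hζ.pow_eq_one, pow_add]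

theorem sbk_pow_val_inj (hζ : IsPrimitiveRoot ζ p) {x y : ZMod p}
    (h : ζ ^ x.val = ζ ^ y.val) : x = y :=
  ZMod.val_injective p (hζ.pow_inj (ZMod.val_lt x) (ZMod.val_lt y) h)

theorem sbk_pow_val_mul_inj (hζ : IsPrimitiveRoot ζ p) {α : AlgebraicClosure ℚ} (hα : α ≠ 0)
    {x y : ZMod p} (h : ζ ^ x.val * α = ζ ^ y.val * α) : x = y :=
  sbk_pow_val_inj hζ (mul_right_cancel₀ hα h)

variable (E : IntermediateField ℚ (AlgebraicClosure ℚ))

theorem sbk_fix_of_mem {x : AlgebraicClosure ℚ} (hx : x ∈ E) (σ : ↥E.fixingSubgroup) :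
    (σ : GQ) x = x :=
  (IntermediateField.mem_fixingSubgroup_iff E (σ : GQ)).mp σ.2 x hx

theorem sbk_units_ne_zero (a : (↥E)ˣ) : (((a : (↥E)ˣ) : ↥E) : AlgebraicClosure ℚ) ≠ 0 := by
  intro h
  apply a.ne_zero
  exact Subtype.ext h

theorem sbk_root_ne_zero (a : (↥E)ˣ) {α : AlgebraicClosure ℚ}
    (hα : α ^ p = (((a : (↥E)ˣ) : ↥E) : AlgebraicClosure ℚ)) : α ≠ 0 := by
  rintro rfl
  rw [zero_pow (Fact.out : p.Prime).ne_zero] at hα
  exact sbk_units_ne_zero E a hα.symm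

/-- Existence of the Kummer exponent. -/
theorem sbk_exists_exp (hζ : IsPrimitiveRoot ζ p) (hζE : ζ ∈ E) (a : (↥E)ˣ)
    {α : AlgebraicClosure ℚ}
    (hα : α ^ p = (((a : (↥E)ˣ) : ↥E) : AlgebraicClosure ℚ)) (σ : ↥E.fixingSubgroup) :
    ∃ j < p, (σ : GQ) α = ζ ^ j * α := by
  have hα0 := sbk_root_ne_zero E a hα
  have h1 : ((σ : GQ) α / α) ^ p = 1 := by
    rw [div_pow, ← map_pow, hα, sbk_fix_of_mem E (a : ↥E).2 σ, div_self (sbk_units_ne_zero E a)]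
  obtain ⟨j, hj, hj'⟩ := hζ.eq_pow_of_pow_eq_one h1
  exact ⟨j, hj, by rw [hj', div_mul_cancel₀ _ hα0]⟩

/-- The defining property of `sbKumFun` for the chosen root. -/
theorem sbk_spec_root (hζ : IsPrimitiveRoot ζ p) (hζE : ζ ∈ E) (a : (↥E)ˣ)
    (σ : ↥E.fixingSubgroup) :
    (σ : GQ) (sbRoot p ((((a : (↥E)ˣ) : ↥E) : AlgebraicClosure ℚ))) =
      ζ ^ (sbKumFun (p := p) ζ E.fixingSubgroup
          (((a : (↥E)ˣ) : ↥E) : AlgebraicClosure ℚ) σ).val *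
        sbRoot p ((((a : (↥E)ˣ) : ↥E) : AlgebraicClosure ℚ)) := by
  obtain ⟨j, hj, hj'⟩ := sbk_exists_exp E hζ hζE a (sbRoot_pow (p := p) _) σ
  have hmem : j ∈ {j : ℕ | (σ : GQ) (sbRoot p ((((a : (↥E)ˣ) : ↥E) : AlgebraicClosure ℚ))) =
      ζ ^ j * sbRoot p ((((a : (↥E)ˣ) : ↥E) : AlgebraicClosure ℚ))} := hj'
  have hinf := Nat.sInf_mem ⟨j, hmem⟩
  have hle : sInf {j : ℕ | (σ : GQ) (sbRoot p ((((a : (↥E)ˣ) : ↥E) : AlgebraicClosure ℚ))) =
      ζ ^ j * sbRoot p ((((a : (↥E)ˣ) : ↥E) : AlgebraicClosure ℚ))} ≤ j := Nat.sInf_le hmem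
  unfold sbKumFun
  rw [ZMod.val_natCast_of_lt (lt_of_le_of_lt hle hj)]
  exact hinf

end Aux

/-! ### The statements of section KG1 -/

section KG1

variable {p : ℕ} [Fact p.Prime] {ζ : AlgebraicClosure ℚ} (hζ : IsPrimitiveRoot ζ p)
  (E : IntermediateField ℚ (AlgebraicClosure ℚ)) (hζE : ζ ∈ E)

include hζ hζE

/-- Defining property (for ANY `p`-th root `α` of `a`). -/
theorem sbKumFun_spec (a : (↥E)ˣ) (α : AlgebraicClosure ℚ)
    (hα : α ^ p = (((a : (↥E)ˣ) : ↥E) : AlgebraicClosure ℚ)) (σ : ↥E.fixingSubgroup) :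
    (σ : GQ) α =
      ζ ^ (sbKumFun (p := p) ζ E.fixingSubgroup
        (((a : (↥E)ˣ) : ↥E) : AlgebraicClosure ℚ) σ).val * α := by
  set α₀ := sbRoot p ((((a : (↥E)ˣ) : ↥E) : AlgebraicClosure ℚ)) with hα₀
  have hα₀p : α₀ ^ p = (((a : (↥E)ˣ) : ↥E) : AlgebraicClosure ℚ) := sbRoot_pow (p := p) _
  have hα₀0 := sbk_root_ne_zero E a hα₀p
  have h1 : (α / α₀) ^ p = 1 := by
    rw [div_pow, hα, hα₀p, div_self (sbk_units_ne_zero E a)]
  obtain ⟨i, -, hi⟩ := hζ.eq_pow_of_pow_eq_one h1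
  have hαeq : α = ζ ^ i * α₀ := by rw [hi, div_mul_cancel₀ _ hα₀0]
  have hspec := sbk_spec_root E hζ hζE a σ
  rw [← hα₀] at hspec
  rw [hαeq, map_mul, map_pow, sbk_fix_of_mem E hζE σ, hspec]
  ring

/-- `sbKumFun a σ` is the unique `x` with `σ α = ζ^x α`. -/
theorem sbk_kumFun_eq_iff (a : (↥E)ˣ) (α : AlgebraicClosure ℚ)
    (hα : α ^ p = (((a : (↥E)ˣ) : ↥E) : AlgebraicClosure ℚ)) (σ : ↥E.fixingSubgroup)
    (x : ZMod p) :
    sbKumFun (p := p) ζ E.fixingSubgroup (((a : (↥E)ˣ) : ↥E) : AlgebraicClosure ℚ) σ = x ↔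
      (σ : GQ) α = ζ ^ x.val * α := by
  have hspec := sbKumFun_spec hζ E hζE a α hα σ
  constructor
  · rintro rfl
    exact hspec
  · intro h
    rw [hspec] at h
    exact sbk_pow_val_mul_inj hζ (sbk_root_ne_zero E a hα) h

theorem sbKumFun_mul_apply (a : (↥E)ˣ) (σ τ : ↥E.fixingSubgroup) :
    sbKumFun (p := p) ζ E.fixingSubgroup (((a : (↥E)ˣ) : ↥E) : AlgebraicClosure ℚ) (σ * τ) =
      sbKumFun ζ E.fixingSubgroup (((a : (↥E)ˣ) : ↥E) : AlgebraicClosure ℚ) σ +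
        sbKumFun ζ E.fixingSubgroup (((a : (↥E)ˣ) : ↥E) : AlgebraicClosure ℚ) τ := by
  set α₀ := sbRoot p ((((a : (↥E)ˣ) : ↥E) : AlgebraicClosure ℚ)) with hα₀
  have hα₀p : α₀ ^ p = (((a : (↥E)ˣ) : ↥E) : AlgebraicClosure ℚ) := sbRoot_pow (p := p) _
  rw [sbk_kumFun_eq_iff hζ E hζE a α₀ hα₀p]
  have h1 : ((σ * τ : ↥E.fixingSubgroup) : GQ) α₀ = (σ : GQ) ((τ : GQ) α₀) := rfl
  rw [h1, sbKumFun_spec hζ E hζE a α₀ hα₀p τ, map_mul, map_pow, sbk_fix_of_mem E hζE σ,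
    sbKumFun_spec hζ E hζE a α₀ hα₀p σ, sbk_pow_val_add hζ]
  ring

theorem sbKumFun_mul (a b : (↥E)ˣ) :
    sbKumFun (p := p) ζ E.fixingSubgroup
        ((((a * b : (↥E)ˣ) : (↥E)ˣ) : ↥E) : AlgebraicClosure ℚ) =
      sbKumFun ζ E.fixingSubgroup (((a : (↥E)ˣ) : ↥E) : AlgebraicClosure ℚ) +
        sbKumFun ζ E.fixingSubgroup (((b : (↥E)ˣ) : ↥E) : AlgebraicClosure ℚ) := by
  funext σ
  set α₀ := sbRoot p ((((a : (↥E)ˣ) : ↥E) : AlgebraicClosure ℚ)) with hα₀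
  have hα₀p : α₀ ^ p = (((a : (↥E)ˣ) : ↥E) : AlgebraicClosure ℚ) := sbRoot_pow (p := p) _
  set β₀ := sbRoot p ((((b : (↥E)ˣ) : ↥E) : AlgebraicClosure ℚ)) with hβ₀
  have hβ₀p : β₀ ^ p = (((b : (↥E)ˣ) : ↥E) : AlgebraicClosure ℚ) := sbRoot_pow (p := p) _
  have hab : (α₀ * β₀) ^ p = ((((a * b : (↥E)ˣ) : (↥E)ˣ) : ↥E) : AlgebraicClosure ℚ) := by
    rw [mul_pow, hα₀p, hβ₀p]
    rfl
  rw [sbk_kumFun_eq_iff hζ E hζE (a * b) (α₀ * β₀) hab, Pi.add_apply, map_mul,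
    sbKumFun_spec hζ E hζE a α₀ hα₀p σ, sbKumFun_spec hζ E hζE b β₀ hβ₀p σ, sbk_pow_val_add hζ]
  ring

theorem sbKumFun_eq_zero_iff (a : (↥E)ˣ) :
    sbKumFun (p := p) ζ E.fixingSubgroup (((a : (↥E)ˣ) : ↥E) : AlgebraicClosure ℚ) = 0 ↔
      ∃ c : (↥E)ˣ, c ^ p = a := by
  constructor
  · intro h
    set α₀ := sbRoot p ((((a : (↥E)ˣ) : ↥E) : AlgebraicClosure ℚ)) with hα₀
    have hα₀p : α₀ ^ p = (((a : (↥E)ˣ) : ↥E) : AlgebraicClosure ℚ) := sbRoot_pow (p := p) _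
    have hα₀0 := sbk_root_ne_zero E a hα₀p
    -- `α₀` is fixed by `H`, hence lies in `E`
    have hfix : α₀ ∈ IntermediateField.fixedField E.fixingSubgroup := by
      rw [IntermediateField.mem_fixedField_iff]
      intro σ hσ
      have h1 := sbKumFun_spec hζ E hζE a α₀ hα₀p ⟨σ, hσ⟩
      rw [h] at h1
      simpa using h1
    rw [InfiniteGalois.fixedField_fixingSubgroup] at hfix
    refine ⟨Units.mk0 ⟨α₀, hfix⟩ ?_, ?_⟩
    · intro h0
      exact hα₀0 (congrArg Subtype.val h0)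
    · apply Units.ext
      apply Subtype.ext
      rw [Units.val_pow_eq_pow_val, Units.val_mk0]
      exact hα₀p
  · rintro ⟨c, rfl⟩
    funext σ
    have hc : (((c : (↥E)ˣ) : ↥E) : AlgebraicClosure ℚ) ^ p =
        ((((c ^ p : (↥E)ˣ) : (↥E)ˣ) : ↥E) : AlgebraicClosure ℚ) := by
      rw [Units.val_pow_eq_pow_val]
      rfl
    rw [sbk_kumFun_eq_iff hζ E hζE (c ^ p) _ hc, Pi.zero_apply, ZMod.val_zero, pow_zero, one_mul]
    exact sbk_fix_of_mem E (c : ↥E).2 σ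

variable (S : Finset Nat.Primes)

theorem sbk_dd1_kumFun (a : (↥E)ˣ) :
    dd1 (1 : Representation (ZMod p) ↥E.fixingSubgroup (ZMod p))
      (sbKumFun ζ E.fixingSubgroup (((a : (↥E)ˣ) : ↥E) : AlgebraicClosure ℚ)) = 0 := by
  ext ⟨σ, τ⟩
  rw [dd1_apply, sbKumFun_mul_apply hζ E hζE a σ τ]
  simp

/-- `a ∈ V_T` ⟹ the Kummer function is level-constant for `levelsS S`. -/
theorem sbk_isLC_of_mem_gkV (hpS : ∃ q ∈ S, ((q : Nat.Primes) : ℕ) = p)
    (hE : E.IsUnramifiedOutside S) (a : (↥E)ˣ)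
    (ha : haveI := sb_numberField hE.1
      a ∈ gkV ↥E (gkT S ↥E : Set (HeightOneSpectrum (𝓞 ↥E))) p) :
    IsLC₁ ((levelsS S).sub E.fixingSubgroup)
      (sbKumFun (p := p) ζ E.fixingSubgroup (((a : (↥E)ˣ) : ↥E) : AlgebraicClosure ℚ)) := by
  haveI := sb_numberField hE.1
  obtain ⟨F', iF, iNF, iAlg, iGal, hur, β, hβ⟩ := gk_exists_sfield_of_mem_gkV S ↥E hpS a ha
  obtain ⟨M', hEM', hfd', ⟨φ⟩⟩ := sb_exists_embed E F'
  letI := sbAlgebra hEM'
  haveI : NumberField ↥M' := sb_numberField hfd'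
  have hur' : GlUnramOutside S ↥E ↥M' := glUnramOutside_congr S φ hur
  have hM' : M'.IsUnramifiedOutside S :=
    sb_isUnramifiedOutside_of_glUnramOutside S hEM' hE hfd' hur'
  refine ⟨_, sb_isLevel_ker S hM', fun g s hs => ?_⟩
  have hβ' : (((φ β : ↥M') : AlgebraicClosure ℚ)) ^ p =
      (((a : (↥E)ˣ) : ↥E) : AlgebraicClosure ℚ) := by
    have h1 : (φ β) ^ p = algebraMap ↥E ↥M' ((a : (↥E)ˣ) : ↥E) := by
      rw [← map_pow, hβ, φ.commutes]
    have h2 := congrArg (fun x : ↥M' => (x : AlgebraicClosure ℚ)) h1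
    simp only [SubmonoidClass.coe_pow] at h2
    rw [h2]
    rfl
  rw [sbk_kumFun_eq_iff hζ E hζE a _ hβ']
  have hs' : (s : GQ) ((φ β : ↥M') : AlgebraicClosure ℚ) = ((φ β : ↥M') : AlgebraicClosure ℚ) := by
    have h2 : (s : GQ) ∈ M'.fixingSubgroup := hs
    rw [IntermediateField.mem_fixingSubgroup_iff] at h2
    exact h2 _ (φ β).2
  have h1 : ((g * s : ↥E.fixingSubgroup) : GQ) ((φ β : ↥M') : AlgebraicClosure ℚ) =
      (g : GQ) ((s : GQ) ((φ β : ↥M') : AlgebraicClosure ℚ)) := rfl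
  rw [h1, hs']
  exact sbKumFun_spec hζ E hζE a _ hβ' g

/-- the Kummer function is level-constant for `levelsS S` ⟹ `a ∈ V_T`. -/
theorem sbk_mem_gkV_of_isLC (hE : E.IsUnramifiedOutside S) (a : (↥E)ˣ)
    (hLC : IsLC₁ ((levelsS S).sub E.fixingSubgroup)
      (sbKumFun (p := p) ζ E.fixingSubgroup (((a : (↥E)ˣ) : ↥E) : AlgebraicClosure ℚ))) :
    haveI := sb_numberField hE.1
    a ∈ gkV ↥E (gkT S ↥E : Set (HeightOneSpectrum (𝓞 ↥E))) p := by
  haveI := sb_numberField hE.1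
  obtain ⟨U, ⟨U', ⟨F, hF, rfl⟩, rfl⟩, hU⟩ := hLC
  set α₀ := sbRoot p ((((a : (↥E)ˣ) : ↥E) : AlgebraicClosure ℚ)) with hα₀
  have hα₀p : α₀ ^ p = (((a : (↥E)ˣ) : ↥E) : AlgebraicClosure ℚ) := sbRoot_pow (p := p) _
  have hM : (E ⊔ F).IsUnramifiedOutside S := hE.sup hF
  have hEM : E ≤ E ⊔ F := le_sup_left
  -- `α₀ ∈ E ⊔ F`
  have hmem : α₀ ∈ E ⊔ F := by
    rw [← InfiniteGalois.fixedField_fixingSubgroup (E ⊔ F), IntermediateField.mem_fixedField_iff]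
    intro σ hσ
    rw [IntermediateField.fixingSubgroup_sup] at hσ
    have hs : (⟨σ, hσ.1⟩ : ↥E.fixingSubgroup) ∈
        (F.fixingSubgroup).comap E.fixingSubgroup.subtype := hσ.2
    have h0 := hU 1 ⟨σ, hσ.1⟩ hs
    rw [one_mul] at h0
    have h1 : sbKumFun (p := p) ζ E.fixingSubgroup
        (((a : (↥E)ˣ) : ↥E) : AlgebraicClosure ℚ) 1 = 0 := by
      have h2 := sbKumFun_mul_apply hζ E hζE a 1 1
      rw [mul_one] at h2
      linear_combination -h2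
    rw [h1] at h0
    have h3 := sbKumFun_spec hζ E hζE a α₀ hα₀p ⟨σ, hσ.1⟩
    rw [h0] at h3
    simpa using h3
  letI := sbAlgebra hEM
  haveI : NumberField ↥(E ⊔ F) := sb_numberField hM.1
  have hur : GlUnramOutside S ↥E ↥(E ⊔ F) := sb_glUnramOutside S hEM hM
  refine gk_mem_gkV_of_pow_eq S ↥E ↥(E ⊔ F) hur a ⟨α₀, hmem⟩ ?_
  apply Subtype.ext
  rw [SubmonoidClass.coe_pow]
  exact hα₀p

/-- The Kummer function of `a ∈ Eˣ` is a homomorphism; it is SMOOTH for `levelsS S` iff `a ∈ V_T`,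
`T` = the places of `E` above `S` (`p ∈ S`). -/
theorem sbKumFun_mem_smZ1_iff (hpS : ∃ q ∈ S, ((q : Nat.Primes) : ℕ) = p)
    (hE : E.IsUnramifiedOutside S) (a : (↥E)ˣ) :
    haveI := sb_numberField hE.1
    sbKumFun ζ E.fixingSubgroup (((a : (↥E)ˣ) : ↥E) : AlgebraicClosure ℚ) ∈
        smZ1 ((levelsS S).sub E.fixingSubgroup)
          (1 : Representation (ZMod p) ↥E.fixingSubgroup (ZMod p)) ↔
      a ∈ gkV ↥E (gkT S ↥E : Set (HeightOneSpectrum (𝓞 ↥E))) p := by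
  haveI := sb_numberField hE.1
  rw [mem_smZ1]
  constructor
  · rintro ⟨-, hLC⟩
    exact sbk_mem_gkV_of_isLC hζ E hζE S hE a hLC
  · intro ha
    exact ⟨sbk_dd1_kumFun hζ E hζE a, sbk_isLC_of_mem_gkV hζ E hζE S hpS hE a ha⟩

/-- Smooth `1`-cocycles for the trivial action are homomorphisms. -/
theorem sbk_smZ1_mul_apply (f : ↥E.fixingSubgroup → ZMod p)
    (hf : f ∈ smZ1 ((levelsS S).sub E.fixingSubgroup)
      (1 : Representation (ZMod p) ↥E.fixingSubgroup (ZMod p))) (σ τ : ↥E.fixingSubgroup) :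
    f (σ * τ) = f σ + f τ := by
  have h1 := congrFun ((mem_smZ1 _ _ f).mp hf).1 (σ, τ)
  rw [dd1_apply] at h1
  have h2 : f τ - f (σ * τ) + f σ = 0 := by simpa using h1
  linear_combination -h2

theorem sbk_smZ1_one (f : ↥E.fixingSubgroup → ZMod p)
    (hf : f ∈ smZ1 ((levelsS S).sub E.fixingSubgroup)
      (1 : Representation (ZMod p) ↥E.fixingSubgroup (ZMod p))) : f 1 = 0 := by
  have h := sbk_smZ1_mul_apply hζ E hζE S f hf 1 1
  rw [mul_one] at h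
  linear_combination -h

/-- Kummer surjectivity: every smooth homomorphism `H → ZMod p` is the Kummer function of some
`a ∈ V_T`. -/
theorem sbKumFun_surjective (hpS : ∃ q ∈ S, ((q : Nat.Primes) : ℕ) = p)
    (hE : E.IsUnramifiedOutside S) (f : ↥E.fixingSubgroup → ZMod p)
    (hf : f ∈ smZ1 ((levelsS S).sub E.fixingSubgroup)
      (1 : Representation (ZMod p) ↥E.fixingSubgroup (ZMod p))) :
    haveI := sb_numberField hE.1
    ∃ a : (↥E)ˣ, a ∈ gkV ↥E (gkT S ↥E : Set (HeightOneSpectrum (𝓞 ↥E))) p ∧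
      f = sbKumFun ζ E.fixingSubgroup (((a : (↥E)ˣ) : ↥E) : AlgebraicClosure ℚ) := by
  classical
  haveI := sb_numberField hE.1
  have hp0 : p ≠ 0 := (Fact.out : p.Prime).ne_zero
  have hζ0 : ζ ≠ 0 := hζ.ne_zero hp0
  set ζu : (AlgebraicClosure ℚ)ˣ := Units.mk0 ζ hζ0 with hζu
  have hζup : ζu ^ p = 1 := by
    apply Units.ext
    rw [Units.val_pow_eq_pow_val, Units.val_mk0, hζ.pow_eq_one, Units.val_one]
  set e := IntermediateField.fixingSubgroupEquiv E with he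
  have hmul := sbk_smZ1_mul_apply hζ E hζE S f hf
  have hone := sbk_smZ1_one hζ E hζE S f hf
  -- the character
  let χ : (AlgebraicClosure ℚ ≃ₐ[↥E] AlgebraicClosure ℚ) →* rootsOfUnity p (AlgebraicClosure ℚ) :=
    { toFun := fun σ' => ⟨ζu ^ (f (e.symm σ')).val, by
        rw [mem_rootsOfUnity, ← pow_mul, mul_comm, pow_mul, hζup, one_pow]⟩
      map_one' := by
        apply Subtype.ext
        simp only [map_one, hone, ZMod.val_zero, pow_zero]
        rfl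
      map_mul' := by
        intro σ' τ'
        apply Subtype.ext
        apply Units.ext
        simp only [map_mul, hmul, Subgroup.coe_mul, Units.val_mul, Units.val_pow_eq_pow_val, hζu,
          Units.val_mk0]
        exact sbk_pow_val_add hζ _ _ }
  have hχ_apply : ∀ σ : ↥E.fixingSubgroup,
      (((χ (e σ) : rootsOfUnity p (AlgebraicClosure ℚ)) : (AlgebraicClosure ℚ)ˣ) :
        AlgebraicClosure ℚ) = ζ ^ (f σ).val := by
    intro σ
    show ((ζu ^ (f (e.symm (e σ))).val : (AlgebraicClosure ℚ)ˣ) : AlgebraicClosure ℚ) = _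
    rw [MulEquiv.symm_apply_apply, Units.val_pow_eq_pow_val, hζu, Units.val_mk0]
  -- roots of unity lie in `E`
  have hζE' : IsPrimitiveRoot (⟨ζ, hζE⟩ : ↥E) p :=
    (IsPrimitiveRoot.coe_submonoidClass_iff (N := E) (ζ := (⟨ζ, hζE⟩ : ↥E))).mp hζ
  have hz : KumRootsIn ↥E (AlgebraicClosure ℚ) p := KumRootsIn.of_isPrimitiveRoot hζE'
  -- `χ` is trivial on the fixing subgroup of a finite subextension
  obtain ⟨U, ⟨U', ⟨E', hE', rfl⟩, rfl⟩, hUf⟩ := ((mem_smZ1 _ _ f).mp hf).2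
  haveI := hE.1
  haveI := hE'.1
  have hfdF : FiniteDimensional ℚ ↥(E ⊔ E') := IntermediateField.finiteDimensional_sup E E'
  set E'' : IntermediateField ↥E (AlgebraicClosure ℚ) :=
    IntermediateField.extendScalars (le_sup_left : E ≤ E ⊔ E') with hE''
  have hfd1 : FiniteDimensional ℚ ↥E'' := hfdF
  have hfd2 : FiniteDimensional ↥E ↥E'' := FiniteDimensional.right ℚ ↥E ↥E''
  have hker : E''.fixingSubgroup ≤ χ.ker := by
    intro σ' hσ'
    rw [IntermediateField.mem_fixingSubgroup_iff] at hσ'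
    rw [MonoidHom.mem_ker]
    have hs : e.symm σ' ∈ (E'.fixingSubgroup).comap E.fixingSubgroup.subtype := by
      rw [Subgroup.mem_comap, IntermediateField.mem_fixingSubgroup_iff]
      intro x hx
      exact hσ' x ((le_sup_right : E' ≤ E ⊔ E') hx)
    have h0 : f (e.symm σ') = 0 := by
      have := hUf 1 (e.symm σ') hs
      rw [one_mul] at this
      rw [this, hone]
    apply Subtype.ext
    show ζu ^ (f (e.symm σ')).val = 1
    rw [h0, ZMod.val_zero, pow_zero]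
  obtain ⟨β, hβ, hχ⟩ := exists_kumChar_eq hz χ E'' hker
  obtain ⟨b, hb⟩ := hβ
  have hb0 : b ≠ 0 := by
    rintro rfl
    rw [map_zero] at hb
    exact pow_ne_zero p β.ne_zero hb.symm
  have hfeq : f = sbKumFun ζ E.fixingSubgroup
      ((((Units.mk0 b hb0 : (↥E)ˣ) : (↥E)ˣ) : ↥E) : AlgebraicClosure ℚ) := by
    funext σ
    symm
    have hβp : (β : AlgebraicClosure ℚ) ^ p =
        ((((Units.mk0 b hb0 : (↥E)ˣ) : (↥E)ˣ) : ↥E) : AlgebraicClosure ℚ) := by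
      rw [Units.val_mk0, ← hb]
      rfl
    rw [sbk_kumFun_eq_iff hζ E hζE (Units.mk0 b hb0) (β : AlgebraicClosure ℚ) hβp]
    have h1 := kumChar_spec hz β ⟨b, hb⟩ (e σ)
    rw [← hχ, hχ_apply] at h1
    exact h1
  refine ⟨Units.mk0 b hb0, ?_, hfeq⟩
  rw [← sbKumFun_mem_smZ1_iff hζ E hζE S hpS hE, ← hfeq]
  exact hf

end KG1

end Fermat.Agent.S55
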