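/-
S55 / SMOOTH BRIDGE (SB), leaf SB-KG2 (row 336) `SB/Sha2Layer.lean`: `sb_sha2_layer` VERBATIM from
`SB/KummerGlobalSpec.lean` section KG2 (the `[b2]`-inequality = U5d `gk_sha2_dependent` in additive
layer form).  Pattern of `SB/AsC1.lean` (`sb_c1_layer`).  Helper names are prefixed `sbs2_`.
-/
import Fermat.Agent.S55.SB.AsC1
import Fermat.Agent.S55.GK.Spec
import Fermat.Agent.S55.GK.SpecU5

set_option autoImplicit false
set_option linter.style.haveILetI false
set_option linter.unusedSectionVars false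
set_option linter.unusedVariables false

namespace Fermat.Agent.S55

open scoped NumberField
open NumberField IsDedekindDomain ExtCitation

section Pow

variable {p : ℕ} [Fact p.Prime] {X : Type} [CommGroup X] {ζ : X}

theorem sbs2_pow_val_mul (hζ : ζ ^ p = 1) (a b : ZMod p) :
    ζ ^ (a * b).val = (ζ ^ b.val) ^ a.val := by
  rw [← pow_mul, ZMod.val_mul, mul_comm b.val a.val]
  conv_rhs => rw [← Nat.mod_add_div (a.val * b.val) p]
  rw [pow_add, pow_mul ζ p, hζ, one_pow, mul_one]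

theorem sbs2_pow_val_sum (hζ : ζ ^ p = 1) {ι : Type} (s : Finset ι) (a : ι → ZMod p) :
    ζ ^ (∑ i ∈ s, a i).val = ∏ i ∈ s, ζ ^ (a i).val := by
  classical
  induction s using Finset.induction_on with
  | empty => simp
  | insert j s hj ih => rw [Finset.sum_insert hj, Finset.prod_insert hj, sb_pow_val_add hζ, ih]

/-- a product of powers of the `ζ^(c i)` is `ζ^(∑ n i * c i)` -/
theorem sbs2_prod_pow (hζ : ζ ^ p = 1) {G : Type} {m : ℕ} (c : Fin m → G × G → ZMod p)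
    (n : Fin m → ZMod p) :
    ∏ i, sbMul₂ ζ (c i) ^ (n i).val = sbMul₂ ζ (fun s => ∑ i, n i * c i s) := by
  funext s
  simp only [Finset.prod_apply, Pi.pow_apply, sbMul₂]
  rw [sbs2_pow_val_sum hζ]
  refine Finset.prod_congr rfl (fun i _ => ?_)
  rw [sbs2_pow_val_mul hζ]

end Pow

section Abstract

variable {p : ℕ} [Fact p.Prime] {K F : Type} [Field K] [Field F] [Algebra K F]
  {F' : Type} [Field F'] [Algebra F F'] [Algebra K F'] [IsScalarTower K F F'] [Normal K F]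

/-- the finite-level output of U5d in additive form -/
theorem sbs2_abstract {ζ : Kˣ} (hζ : IsPrimitiveRoot ζ p)
    (c' : (F ≃ₐ[K] F) × (F ≃ₐ[K] F) → ZMod p)
    (ε : (F' ≃ₐ[K] F') → F'ˣ) (hμ : GlMuValued p ε)
    (hε : glInfl₂ K F F' (sbMul₂ (Units.map (algebraMap K F : K →* F) ζ) c') = glD1 ε) :
    ∃ e : (F' ≃ₐ[K] F') → ZMod p,
      dd1 (1 : Representation (ZMod p) (F' ≃ₐ[K] F') (ZMod p)) e =
        fun s => c' (AlgEquiv.restrictNormalHom F s.1, AlgEquiv.restrictNormalHom F s.2) := by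
  have hζ' : IsPrimitiveRoot (Units.map (algebraMap K F' : K →* F') ζ) p :=
    sb_isPrimitiveRoot_map (F := F') hζ
  obtain ⟨e, he⟩ := sb_exists_eq_sbMul hζ' ε hμ
  refine ⟨e, ?_⟩
  have he' : ε = sbMul₁ (Units.map (algebraMap K F' : K →* F') ζ) e := funext he
  rw [he', glD1_sbMul₁ (sb_primitiveRoot_pow_eq_one hζ') (sb_smul_map_algebraMap ζ)] at hε
  funext s
  have h1 := congrFun hε s
  apply sb_pow_val_injective (sb_primitiveRoot_pow_eq_one hζ') (sb_primitiveRoot_ne_one hζ')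
  rw [show (Units.map (algebraMap K F' : K →* F') ζ) ^
      (dd1 (1 : Representation (ZMod p) (F' ≃ₐ[K] F') (ZMod p)) e s).val =
      sbMul₂ (Units.map (algebraMap K F' : K →* F') ζ)
        (dd1 (1 : Representation (ZMod p) (F' ≃ₐ[K] F') (ZMod p)) e) s from rfl, ← h1]
  simp only [glInfl₂, pullCochain₂, sbMul₂, map_pow]
  congr 1
  apply Units.ext
  simp only [Units.coe_map, MonoidHom.coe_coe]
  exact (IsScalarTower.algebraMap_apply K F F' (ζ : K)).symm

omit [Normal K F] in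
/-- `ζ^c'` is a multiplicative `2`-cocycle if `c'` is an additive one (trivial action). -/
theorem sbs2_isMulCocycle₂_of_dd2 {ζ : Kˣ} (hζ : IsPrimitiveRoot ζ p)
    (c' : (F ≃ₐ[K] F) × (F ≃ₐ[K] F) → ZMod p)
    (hc' : dd2 (1 : Representation (ZMod p) (F ≃ₐ[K] F) (ZMod p)) c' = 0) :
    groupCohomology.IsMulCocycle₂ (sbMul₂ (Units.map (algebraMap K F : K →* F) ζ) c') := by
  have hζ' := sb_isPrimitiveRoot_map (F := F) hζ
  exact (isMulCocycle₂_sbMul₂_iff (sb_primitiveRoot_pow_eq_one hζ') (sb_primitiveRoot_ne_one hζ')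
    (sb_smul_map_algebraMap ζ) c').2 hc'

omit [Normal K F] in
theorem sbs2_glMuValued_sbMul₂ {ζ : Kˣ} (hζ : IsPrimitiveRoot ζ p)
    (c' : (F ≃ₐ[K] F) × (F ≃ₐ[K] F) → ZMod p) :
    GlMuValued p (sbMul₂ (Units.map (algebraMap K F : K →* F) ζ) c') :=
  sb_glMuValued_pow (sb_isPrimitiveRoot_map (F := F) hζ) c'

end Abstract

section KG2

variable {p : ℕ} [Fact p.Prime] (S : Finset Nat.Primes)

/-- Layer form: `m` additive `2`-cocycles `c i` on a finite Galois layer `M/E` (`ζ_p ∈ E`, `M`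
unramified outside `S`), whose multiplicative forms `ζ^(c i)` are locally trivial everywhere,
with `p^m > |Cl_T(E)/p|`: a non-trivial combination `∑ n_i c_i` becomes the coboundary of an
additive `1`-cochain on a bigger layer `M'/E`. -/
theorem sb_sha2_layer (hp2 : p ≠ 2) (hpS : ∃ q ∈ S, ((q : Nat.Primes) : ℕ) = p)
    {E M : IntermediateField ℚ (AlgebraicClosure ℚ)} (h : E ≤ M)
    (hM : M.IsUnramifiedOutside S) (hg : letI := sbAlgebra h; IsGalois ↥E ↥M)
    {ζ : AlgebraicClosure ℚ} (hζ : IsPrimitiveRoot ζ p) (hζE : ζ ∈ E) {m : ℕ}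
    (c : Fin m → (letI := sbAlgebra h; (↥M ≃ₐ[↥E] ↥M) × (↥M ≃ₐ[↥E] ↥M)) → ZMod p)
    (hc : letI := sbAlgebra h
      ∀ i, dd2 (1 : Representation (ZMod p) (↥M ≃ₐ[↥E] ↥M) (ZMod p)) (c i) = 0)
    (hloc : letI := sbAlgebra h
      haveI := sb_numberField hM.1
      haveI := sb_numberField (hM.of_le h).1
      ∀ i, ∀ (q : ℕ) [Fact q.Prime] (j : ↥M →+* PadicAlgCl q),
        geInv (K := ↥E) q j (sbMul₂ (Units.mk0 (⟨ζ, h hζE⟩ : ↥M)
          (fun h0 => hζ.ne_zero (Fact.out : p.Prime).ne_zero (congrArg Subtype.val h0)))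
          (c i)) = 0)
    (hm : haveI := sb_numberField (hM.of_le h).1
      (gkClSub ↥E (gkT S ↥E : Set (HeightOneSpectrum (𝓞 ↥E))) p).index < p ^ m) :
    ∃ n : Fin m → ZMod p, n ≠ 0 ∧
    ∃ (M' : IntermediateField ℚ (AlgebraicClosure ℚ)) (hMM' : M ≤ M')
      (_ : M'.IsUnramifiedOutside S)
      (_ : letI := sbAlgebra (h.trans hMM'); IsGalois ↥E ↥M'),
      letI := sbAlgebra h
      letI := sbAlgebra hMM'
      letI := sbAlgebra (h.trans hMM')
      haveI : IsScalarTower ↥E ↥M ↥M' := IsScalarTower.of_algebraMap_eq (fun _ => rfl)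
      haveI := hg
      ∃ e : (↥M' ≃ₐ[↥E] ↥M') → ZMod p,
        dd1 (1 : Representation (ZMod p) (↥M' ≃ₐ[↥E] ↥M') (ZMod p)) e =
          fun s => ∑ i, n i * c i (AlgEquiv.restrictNormalHom ↥M s.1,
            AlgEquiv.restrictNormalHom ↥M s.2) := by
  letI := sbAlgebra h
  haveI := hg
  haveI hnfM : NumberField ↥M := sb_numberField hM.1
  haveI hnfE : NumberField ↥E := sb_numberField (hM.of_le h).1
  have h0 : ζ ≠ 0 := hζ.ne_zero (Fact.out : p.Prime).ne_zero
  -- the root of unity as a unit of `E`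
  let ζE : (↥E)ˣ := Units.mk0 ⟨ζ, hζE⟩ (fun h' => h0 (congrArg Subtype.val h'))
  have hζE' : IsPrimitiveRoot ζE p := by
    apply IsPrimitiveRoot.coe_units_iff.1
    exact IsPrimitiveRoot.of_map_of_injective (f := E.val) (by exact hζ) E.val.injective
  have hζM' := sb_isPrimitiveRoot_map (F := ↥M) hζE'
  have hroot : (Units.mk0 (⟨ζ, h hζE⟩ : ↥M)
      (fun h0' => h0 (congrArg Subtype.val h0')) : (↥M)ˣ) =
      Units.map (algebraMap ↥E ↥M : ↥E →* ↥M) ζE := Units.ext rfl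
  have hloc' : ∀ i, ∀ (q : ℕ) [Fact q.Prime] (j : ↥M →+* PadicAlgCl q),
      geInv (K := ↥E) q j (sbMul₂ (Units.map (algebraMap ↥E ↥M : ↥E →* ↥M) ζE) (c i)) = 0 := by
    intro i q _ j
    rw [← hroot]
    exact hloc i q j
  -- apply U5d
  obtain ⟨n, hn, F', iF', inF', iEF', iMF', itow, igal, hur', ε, hεμ, hε⟩ :=
    gk_sha2_dependent p S ↥E ↥M hp2 hpS ⟨(ζE : ↥E), IsPrimitiveRoot.coe_units_iff.2 hζE'⟩
      (sb_glUnramOutside S h hM) _ (fun i => sbs2_isMulCocycle₂_of_dd2 hζE' (c i) (hc i))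
      (fun i => sbs2_glMuValued_sbMul₂ hζE' (c i)) hloc' hm
  refine ⟨n, hn, ?_⟩
  rw [sbs2_prod_pow (sb_primitiveRoot_pow_eq_one hζM')] at hε
  -- additive form over the abstract field
  obtain ⟨e, he⟩ := sbs2_abstract hζE' (fun s => ∑ i, n i * c i s) ε hεμ hε
  -- embed the abstract field
  obtain ⟨M', hMM', hfd', ⟨φ⟩⟩ := sb_exists_embed M F'
  letI := sbAlgebra hMM'
  letI := sbAlgebra (h.trans hMM')
  haveI htow' : IsScalarTower ↥E ↥M ↥M' := IsScalarTower.of_algebraMap_eq (fun _ => rfl)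
  haveI hnfM' : NumberField ↥M' := sb_numberField hfd'
  have hgal' : IsGalois ↥E ↥M' := IsGalois.of_algEquiv (φ.restrictScalars ↥E)
  have hur'' : GlUnramOutside S ↥E ↥M' := glUnramOutside_congr S (φ.restrictScalars ↥E) hur'
  have hM' : M'.IsUnramifiedOutside S :=
    sb_isUnramifiedOutside_of_glUnramOutside S (h.trans hMM') (hM.of_le h) hfd' hur''
  refine ⟨M', hMM', hM', hgal', ?_⟩
  refine ⟨fun s => e ((AlgEquiv.autCongr (φ.restrictScalars ↥E)).symm s), ?_⟩
  funext s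
  obtain ⟨g₁, g₂⟩ := s
  have h1 := congrFun he ((AlgEquiv.autCongr (φ.restrictScalars ↥E)).symm g₁,
    (AlgEquiv.autCongr (φ.restrictScalars ↥E)).symm g₂)
  simp only [dd1_apply, MonoidHom.one_apply, Module.End.one_apply] at h1 ⊢
  rw [sbem_restrictNormalHom_autCongr, sbem_restrictNormalHom_autCongr] at h1
  rw [← h1, map_mul]

end KG2

end Fermat.Agent.S55
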