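/-
S55 / SMOOTH BRIDGE (SB), GLOBAL KUMMER BRIDGE (helper9): PURE SHIM over the real leaves
(formerly the spec; statements unchanged, see git history origin/helper9 37e4d5b / b543fc6).
The Kummer description of the smooth `H¹(H, 𝔽_p)` of an open subgroup
`H = E.fixingSubgroup ≤ ker (cycloChar p)` of `GQ` (levels `levelsS S`, `p ∈ S`) in terms of
`V_T(E) = gkV E (gkT S E) p`, and the finite-layer form of the `[b2]`-inequality.  Global mirror of
helper2's `LocalBridgeKummer.lean` (LB3).  Input for the fields `b1`, `b2f`, `b2f2`, `b2`.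

* `SB/KummerGlobalDefs.lean` : `sbRoot p a`, `sbKumFun ζ V a` (same shape as `lbRoot`, `lbKumFun`);
* `SB/KummerGlobal.lean` (row 335, helper9; REAL, axioms std): `sbKumFun_spec`,
  `sbKumFun_mul_apply`, `sbKumFun_mul`, `sbKumFun_eq_zero_iff`, `sbKumFun_mem_smZ1_iff` (smooth for
  `levelsS S` ⟺ `a ∈ V_T`), `sbKumFun_surjective`; ALL take `(hζ) (E) (hζE)` first;
* `SB/Sha2Layer.lean` (row 336, helper5; REAL modulo `gk_sha2_dependent`): `sb_sha2_layer`
  (U5d in additive layer form).
-/
import Fermat.Agent.S55.SB.KummerGlobalDefs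
import Fermat.Agent.S55.SB.KummerGlobal
import Fermat.Agent.S55.SB.Sha2Layer
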