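import Fermat.Agent.S55.SB.LocalH3
import Fermat.Agent.S55.LG.QbarLevels
import Fermat.Agent.S55.Top.Dev

/-!
# S55 / row 311 (LOCAL-H3): the statement in the shape of hypothesis `h3` of `hN_of_local_h3`
(`Top/CdSpec.lean`) for the local system `locSysS S` of the frozen statement.
-/

set_option autoImplicit false
set_option linter.style.haveILetI false
set_option linter.unusedSectionVars false
set_option linter.unusedVariables false

namespace Fermat.Agent.S55

open ExtCitation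

section Glue

variable {p : ℕ} [Fact p.Prime]

/-- transport along an equality of level structures -/
theorem lh3_smH3_eq_zero_of_levels_eq {q : ℕ} [Fact q.Prime] {ζ : PadicAlgCl q}
    (hζ : IsPrimitiveRoot ζ p) (𝓛 : Levels (lbGal q)) (h𝓛 : 𝓛 = lbLevels q)
    (V : Subgroup (lbGal q)) (hV : 𝓛.IsOpen V) (hfix : ∀ σ ∈ V, σ ζ = ζ)
    (x : smH3 (𝓛.sub V) (1 : Representation (ZMod p) ↥V (ZMod p))) : x = 0 := by
  subst h𝓛
  obtain ⟨f, rfl⟩ := Submodule.mkQ_surjective _ x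
  exact (smH3π_eq_zero_iff _ _ f).2 (lb_smZ3_le_smB3 hζ V hV hfix f f.2)

/-- **Row 311**: `H³(V, 𝔽_p) = 0` (smooth cohomology) for every open subgroup `V` of the local
Galois group at `q ∈ S` on which the mod `p` cyclotomic character is trivial. -/
theorem lb_smH3_eq_zero (S : Finset Nat.Primes) (q : ↥S)
    (V : Subgroup (primeLocalGaloisGroup q.1)) (hV : ((locSysS S).lev q).IsOpen V)
    (hVchi : V ≤ ((cycloChar p).comp ((locSysS S).r q)).ker)
    (x : smH3 (((locSysS S).lev q).sub V) (trivRep (k := ZMod p) V)) : x = 0 := by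
  haveI : Fact ((q.1 : Nat.Primes) : ℕ).Prime := ⟨q.1.2⟩
  have hp : p.Prime := Fact.out
  obtain ⟨ζ₀, hζ₀⟩ := Fermat.Agent.S14.plumb_exists_primitiveRoot p
  have hζ : IsPrimitiveRoot (padicEmbedding ((q.1 : Nat.Primes) : ℕ) ζ₀) p :=
    hζ₀.map_of_injective (padicEmbedding ((q.1 : Nat.Primes) : ℕ)).injective
  let V' : Subgroup (lbGal ((q.1 : Nat.Primes) : ℕ)) := V
  have hfix : ∀ σ ∈ V', σ (padicEmbedding ((q.1 : Nat.Primes) : ℕ) ζ₀) =
      padicEmbedding ((q.1 : Nat.Primes) : ℕ) ζ₀ := by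
    intro σ hσ
    have h1 := lg_isMuRep_cycloChar_prime q.1 p ζ₀ hζ₀.pow_eq_one V' ⟨σ, hσ⟩ 1
    have h2 : cycloChar p (primeLocalToGlobal q.1 σ) = 1 := hVchi hσ
    have h3 : ((((chiRep (cycloChar p)).comp (primeLocalToGlobal q.1)).comp V'.subtype) ⟨σ, hσ⟩)
        (1 : ZMod p) = 1 := by
      show chiRep (cycloChar p) (primeLocalToGlobal q.1 σ) (1 : ZMod p) = 1
      rw [chiRep_apply, h2, Units.val_one, one_mul]
    have h4 : padicEmbedding ((q.1 : Nat.Primes) : ℕ) ζ₀ ^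
        (((((chiRep (cycloChar p)).comp (primeLocalToGlobal q.1)).comp V'.subtype) ⟨σ, hσ⟩)
          (1 : ZMod p)).val = padicEmbedding ((q.1 : Nat.Primes) : ℕ) ζ₀ := by
      rw [h3, ZMod.val_one'' hp.ne_one, pow_one]
    have h5 := h1.trans h4
    rw [ZMod.val_one'' hp.ne_one, pow_one] at h5
    exact h5
  exact lh3_smH3_eq_zero_of_levels_eq hζ _ (lg_locSysS_lev S q) V' hV hfix x

/-- Hypothesis `h3` of `hN_of_local_h3` for `D = locSysS S`, `χ = cycloChar p`, `k = ZMod p`. -/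
theorem lb_h3_locSysS (S : Finset Nat.Primes) :
    ∀ v : ↥S, ∀ Γ' : Subgroup (primeLocalGaloisGroup v.1), ((locSysS S).lev v).IsOpen Γ' →
      Γ' ≤ ((cycloChar p).comp ((locSysS S).r v)).ker →
      ∀ x : smH3 (((locSysS S).lev v).sub Γ') (trivRep (k := ZMod p) Γ'), x = 0 :=
  fun v Γ' hΓ' hχ x => lb_smH3_eq_zero S v Γ' hΓ' hχ x

end Glue

end Fermat.Agent.S55
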