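import Fermat.Agent.S55.SB.AsTrGlue
import Fermat.Agent.S55.SB.LocalH3Glue
import Fermat.Agent.S55.Global.RecipMuGen
import Fermat.Agent.S55.Global.Recip.RecipSylow
import Fermat.Agent.S55.Global.Recip.Support
import Fermat.Agent.S55.Top.CritB
import Fermat.Agent.S55.Top.CdC
import Fermat.Agent.S55.Bridge.Pair

/-!
# S55 / SB, leaf AS-tr: the trace on `H_c³(ℤ[1/S], μ_p)`

`sb_exists_tr`: there is a functional `tr` on `smHc3 (locSysS S) (chiRep (cycloChar p))` all of whose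
local traces `trLoc ∘ single_v` are nonzero (`inv = Σ_{q ∈ S} inv_q`, `inv_q` the local invariant
of the full local Galois group with coefficients `μ_p`; `inv` kills the global classes by the
reciprocity law `gl_reciprocity_mu_gen` over `ℚ`; `exists_tr_of_reciprocity`).

`sb_core_triv_hN`: the FIRST conjunct of `core_triv` (route B: `hN_of_local_h3` +
`lb_h3_locSysS`).

Auxiliary names have the prefix `sbtr`.
-/

set_option autoImplicit false
set_option linter.style.haveILetI false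
set_option linter.unusedSectionVars false

namespace Fermat.Agent.S55

open ExtCitation groupCohomology
open scoped NumberField
open NumberField IsDedekindDomain

section Cocycle

variable {p : ℕ} [Fact p.Prime] (M : IntermediateField ℚ (AlgebraicClosure ℚ))
  [FiniteDimensional ℚ ↥M] [IsGalois ℚ ↥M]

noncomputable local instance sbtr_numberField' : NumberField ↥M := sb_numberField inferInstance
noncomputable local instance sbtr_algebra' : Algebra ↥sbtrB ↥M := sbAlgebra bot_le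
local instance sbtr_isScalarTower' : IsScalarTower ℚ ↥sbtrB ↥M := sb_isScalarTower_bot bot_le
local instance sbtr_isGalois' : IsGalois ↥sbtrB ↥M := sb_isGalois_of_isGalois bot_le

/-- the action of `G_ℚ` on `μ_p ⊆ Mˣ` through the cyclotomic character -/
theorem sbtr_smul_root (ζ₀ : AlgebraicClosure ℚ) (hζ₀ : ζ₀ ^ p = 1)
    (ζM : (↥M)ˣ) (hζM : (((ζM : (↥M)ˣ) : ↥M) : AlgebraicClosure ℚ) = ζ₀)
    (σ : ↥sbtrB.fixingSubgroup) (x : ZMod p) :
    sbRes (bot_le : sbtrB ≤ M) (sbtr_isGalois M).to_normal σ (((ζM : (↥M)ˣ) : ↥M) ^ x.val) =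
      ((ζM : (↥M)ˣ) : ↥M) ^
        ((((chiRep (cycloChar p)).comp sbtrB.fixingSubgroup.subtype) σ) x).val := by
  apply Subtype.ext
  rw [sbRes_apply]
  push_cast
  rw [hζM, map_pow, sb_cycloChar_spec (σ : GQ) hζ₀]
  have h2 : ((((chiRep (cycloChar p)).comp sbtrB.fixingSubgroup.subtype) σ) x) =
      ((cycloChar p (σ : GQ) : (ZMod p)ˣ) : ZMod p) * x := by
    simp [chiRep_apply]
  rw [h2, ZMod.val_mul, ← pow_eq_pow_mod _ hζ₀, pow_mul]

local instance sbtr_fact (q : Nat.Primes) : Fact ((q : ℕ)).Prime := ⟨q.2⟩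

/-- the place of the base field induced by a `q`-adic embedding only depends on `q` -/
theorem sbtr_lgPlace_base_eq (q' q : ℕ) [Fact q'.Prime] [Fact q.Prime] (hq : q' = q)
    (i' : ↥sbtrB →+* PadicAlgCl q') (i : ↥sbtrB →+* PadicAlgCl q) :
    lgPlace q' i' = lgPlace q i := by
  subst hq
  rw [sbtr_base_emb_eq q' i' i]

/-- RECIPROCITY over `ℚ` in the form used below: if the invariants of a `μ_p`-valued `2`-cocycle
of an `S`-unramified layer `M / ℚ` at the embeddings `sbtrEmb q M`, `q ∈ S`, are `F q / p`, then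
`Σ_q F q = 0`. -/
theorem sbtr_sum_eq_zero (hp2 : p ≠ 2) (S : Finset Nat.Primes) (hM : M.IsUnramifiedOutside S)
    (c : (↥M ≃ₐ[↥sbtrB] ↥M) × (↥M ≃ₐ[↥sbtrB] ↥M) → (↥M)ˣ) (hc : IsMulCocycle₂ c)
    (hμ : GlMuValued p c) (F : ↥S → ZMod p)
    (hF : ∀ q : ↥S, geInv (K := ↥sbtrB) ((q.1 : Nat.Primes) : ℕ)
      (sbtrEmb ((q.1 : Nat.Primes) : ℕ) M) c = lbtPhi p (F q)) :
    ∑ q, F q = 0 := by
  classical
  obtain ⟨𝔧⟩ := geChoice_nonempty ↥sbtrB ↥M
  have hur : GlUnramOutside S ↥sbtrB ↥M := sb_glUnramOutside S bot_le hM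
  obtain ⟨hout, hsum⟩ := gl_reciprocity_mu_gen hp2 S ↥sbtrB ↥M hur c hc hμ 𝔧
  let w : ↥S → HeightOneSpectrum (𝓞 ↥sbtrB) := fun q =>
    lgPlace ((q.1 : Nat.Primes) : ℕ)
      ((sbtrEmb ((q.1 : Nat.Primes) : ℕ) M).comp (algebraMap ↥sbtrB ↥M))
  have hw : ∀ q, gePrime ↥sbtrB (w q) = ((q.1 : Nat.Primes) : ℕ) := fun q => gePrime_lgPlace _ _
  have hinj : Function.Injective w := by
    intro q q' h
    have h1 : ((q.1 : Nat.Primes) : ℕ) = ((q'.1 : Nat.Primes) : ℕ) :=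
      (hw q).symm.trans ((congrArg (gePrime ↥sbtrB) h).trans (hw q'))
    exact Subtype.ext (Subtype.ext h1)
  have hval : ∀ q, geInv (gePrime ↥sbtrB (w q)) (𝔧.emb (w q)) c = lbtPhi p (F q) := fun q => by
    rw [← gers_geInv_eq_choice 𝔧 ((q.1 : Nat.Primes) : ℕ) (sbtrEmb _ M) hc (w q) rfl]
    exact hF q
  have hsupp : Function.support (fun v : HeightOneSpectrum (𝓞 ↥sbtrB) =>
      geInv (gePrime ↥sbtrB v) (𝔧.emb v) c) ⊆ ↑(Finset.univ.image w) := by
    intro v hv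
    by_contra hnot
    apply hv
    apply hout v
    rintro ⟨q, hqS, hqv⟩
    apply hnot
    have hq' : gePrime ↥sbtrB v = ((q : Nat.Primes) : ℕ) := gePrime_eq_of_mem v q.2 hqv
    rw [Finset.coe_image, Finset.coe_univ, Set.image_univ, Set.mem_range]
    refine ⟨⟨q, hqS⟩, ?_⟩
    rw [← 𝔧.place_eq v]
    exact (sbtr_lgPlace_base_eq _ _ hq' _ _).symm
  rw [finsum_eq_sum_of_support_subset _ hsupp,
    Finset.sum_image (fun _ _ _ _ h => hinj h)] at hsum
  have h0 : lbtPhiHom p (∑ q, F q) = 0 := by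
    rw [map_sum, ← hsum]
    exact Finset.sum_congr rfl fun q _ => (hval q).symm
  exact (lbtPhi_eq_zero_iff p _).1 h0

end Cocycle

section Main

variable {p : ℕ} [Fact p.Prime]

noncomputable local instance sbtr_numberField'' (M : IntermediateField ℚ (AlgebraicClosure ℚ))
    [FiniteDimensional ℚ ↥M] : NumberField ↥M := sb_numberField inferInstance
noncomputable local instance sbtr_algebra'' (M : IntermediateField ℚ (AlgebraicClosure ℚ)) :
    Algebra ↥sbtrB ↥M := sbAlgebra bot_le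
local instance sbtr_isScalarTower'' (M : IntermediateField ℚ (AlgebraicClosure ℚ)) :
    IsScalarTower ℚ ↥sbtrB ↥M := sb_isScalarTower_bot bot_le
local instance sbtr_isGalois'' (M : IntermediateField ℚ (AlgebraicClosure ℚ)) [IsGalois ℚ ↥M] :
    IsGalois ↥sbtrB ↥M := sb_isGalois_of_isGalois bot_le

variable (p) in
/-- the local invariant at `q ∈ S` on `H²(Gal(ℚ̄_q/ℚ_q), μ_p)` in the language of `locSysS S` -/
noncomputable def sbtrInvS (S : Finset Nat.Primes) (ζ₀ : AlgebraicClosure ℚ) (q : ↥S) :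
    smH2 ((locSysS S).lev q) ((locSysS S).rep (chiRep (cycloChar p)) q) →ₗ[ZMod p] ZMod p :=
  sbtrInvLev ((q.1 : Nat.Primes) : ℕ) p (padicEmbedding ((q.1 : Nat.Primes) : ℕ) ζ₀)
    ((locSysS S).lev q) (lg_locSysS_lev S q)
    ((chiRep (cycloChar p)).comp (localGaloisToGlobal ((q.1 : Nat.Primes) : ℕ)))

theorem sbtrInvS_surjective (S : Finset Nat.Primes) (ζ₀ : AlgebraicClosure ℚ)
    (hζ₀ : IsPrimitiveRoot ζ₀ p) (q : ↥S) : Function.Surjective (sbtrInvS p S ζ₀ q) :=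
  sbtrInvLev_surjective _ _ _
    (hζ₀.map_of_injective (padicEmbedding ((q.1 : Nat.Primes) : ℕ)).injective)
    (lg_isMuRep_cycloChar ((q.1 : Nat.Primes) : ℕ) p ζ₀ hζ₀.pow_eq_one ⊤)

/-- RECIPROCITY: the sum of the local invariants kills the global classes -/
theorem sbtr_hrec (hp2 : p ≠ 2) (S : Finset Nat.Primes) (hpS : pPrime p ∈ S)
    (ζ₀ : AlgebraicClosure ℚ) (hζ₀ : IsPrimitiveRoot ζ₀ p)
    (x : smH2 (levelsS S) (chiRep (cycloChar p))) :
    ∑ q : ↥S, sbtrInvS p S ζ₀ q (locP2 (locSysS S) (ρ := chiRep (cycloChar p)) x q) = 0 := by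
  obtain ⟨⟨a, ha⟩, rfl⟩ := Submodule.mkQ_surjective _ x
  have ha1 : dd2 (chiRep (cycloChar p)) a = 0 := ((mem_smZ2 _ _ a).1 ha).1
  -- restriction to the subgroup `⊥.fixingSubgroup` and factorisation through a layer
  have hf := (smZ2res (chiRep (cycloChar p))
    (Levels.continuous_comap (levelsS S) sbtrB.fixingSubgroup.subtype) ⟨a, ha⟩).2
  obtain ⟨U, ⟨F, hF, rfl⟩, hUker⟩ := cycloChar_smooth (p := p) S hpS
  obtain ⟨M, h, hFM, hM, hgal, hg, a', ha'⟩ := sb_exists_factor₂ S sbtrB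
    (sbtr_isUnramifiedOutside_bot S)
    (res2 (ZMod p) sbtrB.fixingSubgroup.subtype a) hf.2 F hF
  haveI : FiniteDimensional ℚ ↥M := hM.1
  haveI := hgal
  have hζmem : ζ₀ ∈ M := hFM (sb_root_mem hUker hζ₀.pow_eq_one)
  have hp : p.Prime := Fact.out
  have hζne : (⟨ζ₀, hζmem⟩ : ↥M) ≠ 0 := fun h0 =>
    hζ₀.ne_zero hp.ne_zero (congrArg Subtype.val h0)
  have hζMp : (Units.mk0 (⟨ζ₀, hζmem⟩ : ↥M) hζne) ^ p = 1 := by
    apply Units.ext
    apply Subtype.ext
    show ζ₀ ^ p = 1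
    exact hζ₀.pow_eq_one
  have hdd : dd2 ((chiRep (cycloChar p)).comp sbtrB.fixingSubgroup.subtype)
      (fun s : ↥sbtrB.fixingSubgroup × ↥sbtrB.fixingSubgroup =>
        a' (sbRes (bot_le : sbtrB ≤ M) (sbtr_isGalois'' M).to_normal s.1,
          sbRes (bot_le : sbtrB ≤ M) (sbtr_isGalois'' M).to_normal s.2)) = 0 := by
    have h1 : (fun s : ↥sbtrB.fixingSubgroup × ↥sbtrB.fixingSubgroup =>
        a' (sbRes (bot_le : sbtrB ≤ M) (sbtr_isGalois'' M).to_normal s.1,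
          sbRes (bot_le : sbtrB ≤ M) (sbtr_isGalois'' M).to_normal s.2)) =
        res2 (ZMod p) sbtrB.fixingSubgroup.subtype a := funext fun s => (ha' s).symm
    rw [h1, dd2_res, ha1, map_zero]
  have hc : IsMulCocycle₂ (lbMulCochain (Units.mk0 (⟨ζ₀, hζmem⟩ : ↥M) hζne) a') :=
    lbinv_isMulCocycle₂ (sbRes (bot_le : sbtrB ≤ M) (sbtr_isGalois'' M).to_normal) _
      ((chiRep (cycloChar p)).comp sbtrB.fixingSubgroup.subtype)
      (sbRes_surjective _ _) hζMp
      (sbtr_smul_root M ζ₀ hζ₀.pow_eq_one _ rfl) a' hdd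
  have hμ : GlMuValued p (lbMulCochain (Units.mk0 (⟨ζ₀, hζmem⟩ : ↥M) hζne) a') := by
    intro s
    show ((Units.mk0 (⟨ζ₀, hζmem⟩ : ↥M) hζne) ^ (a' s).val) ^ p = 1
    rw [← pow_mul, mul_comm, pow_mul, hζMp, one_pow]
  refine sbtr_sum_eq_zero M hp2 S hM _ hc hμ _ (fun q => ?_)
  -- the local dictionary at `q`
  have hfun : res2 (ZMod p) ((locSysS S).r q) a =
      (fun s : lbGal ((q.1 : Nat.Primes) : ℕ) × lbGal ((q.1 : Nat.Primes) : ℕ) =>
        a' (sbRes (bot_le : sbtrB ≤ M) (sbtr_isGalois'' M).to_normal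
            ⟨localGaloisToGlobal ((q.1 : Nat.Primes) : ℕ) s.1, sbtr_mem_fixingSubgroup_bot _⟩,
          sbRes (bot_le : sbtrB ≤ M) (sbtr_isGalois'' M).to_normal
            ⟨localGaloisToGlobal ((q.1 : Nat.Primes) : ℕ) s.2, sbtr_mem_fixingSubgroup_bot _⟩)) :=
    funext fun s => ha' (⟨localGaloisToGlobal ((q.1 : Nat.Primes) : ℕ) s.1,
        sbtr_mem_fixingSubgroup_bot _⟩,
      ⟨localGaloisToGlobal ((q.1 : Nat.Primes) : ℕ) s.2, sbtr_mem_fixingSubgroup_bot _⟩)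
  have hmem := (smZ2res (chiRep (cycloChar p)) ((locSysS S).cont q) ⟨a, ha⟩).2
  have ha'' : (fun s : lbGal ((q.1 : Nat.Primes) : ℕ) × lbGal ((q.1 : Nat.Primes) : ℕ) =>
        a' (sbRes (bot_le : sbtrB ≤ M) (sbtr_isGalois'' M).to_normal
            ⟨localGaloisToGlobal ((q.1 : Nat.Primes) : ℕ) s.1, sbtr_mem_fixingSubgroup_bot _⟩,
          sbRes (bot_le : sbtrB ≤ M) (sbtr_isGalois'' M).to_normal
            ⟨localGaloisToGlobal ((q.1 : Nat.Primes) : ℕ) s.2, sbtr_mem_fixingSubgroup_bot _⟩)) ∈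
      smZ2 ((locSysS S).lev q)
        ((chiRep (cycloChar p)).comp (localGaloisToGlobal ((q.1 : Nat.Primes) : ℕ))) := by
    rw [← hfun]
    exact hmem
  rw [sbtr_geInv_eq_lev ((q.1 : Nat.Primes) : ℕ) M ((locSysS S).lev q) (lg_locSysS_lev S q) ζ₀ hζ₀
    (Units.mk0 (⟨ζ₀, hζmem⟩ : ↥M) hζne) rfl a' ha'']
  congr 2
  have hR : locP2 (locSysS S) (ρ := chiRep (cycloChar p))
      (Submodule.mkQ _ (⟨a, ha⟩ : ↥(smZ2 (levelsS S) (chiRep (cycloChar p))))) q =
      smH2π ((locSysS S).lev q) ((chiRep (cycloChar p)).comp ((locSysS S).r q))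
        (smZ2res (chiRep (cycloChar p)) ((locSysS S).cont q) ⟨a, ha⟩) := rfl
  refine Eq.trans ?_ hR.symm
  congr 1
  exact Subtype.ext hfun.symm

set_option maxSynthPendingDepth 3 in
/-- **AS-tr**: a trace functional on `H_c³(ℤ[1/S], μ_p)` all of whose local traces are nonzero. -/
theorem sb_exists_tr (hp2 : p ≠ 2) (S : Finset Nat.Primes) (hpS : pPrime p ∈ S) :
    ∃ tr : smHc3 (locSysS S) (chiRep (cycloChar p)) →ₗ[ZMod p] ZMod p,
      ∀ v, ∃ z : ∀ v, smH2 ((locSysS S).lev v) ((locSysS S).rep (chiRep (cycloChar p)) v),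
        (∀ v', v' ≠ v → z v' = 0) ∧ trLoc (locSysS S) tr z ≠ 0 := by
  classical
  obtain ⟨ζ₀, hζ₀⟩ := Fermat.Agent.S14.plumb_exists_primitiveRoot p
  let inv : (∀ v, smH2 ((locSysS S).lev v) ((locSysS S).rep (chiRep (cycloChar p)) v))
      →ₗ[ZMod p] ZMod p :=
    ∑ q : ↥S, (sbtrInvS p S ζ₀ q).comp (LinearMap.proj q)
  have hinv : ∀ b, inv b = ∑ q : ↥S, sbtrInvS p S ζ₀ q (b q) := fun b => by
    simp only [inv, LinearMap.sum_apply, LinearMap.comp_apply, LinearMap.proj_apply]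
  obtain ⟨tr, htr⟩ := exists_tr_of_reciprocity (locSysS S)
    (dev_chiRep_isSmooth (levelsS S) (cycloChar p) (cycloChar_smooth S hpS)) inv
    (fun x => by rw [hinv]; exact sbtr_hrec hp2 S hpS ζ₀ hζ₀ x)
  refine ⟨tr, fun v => ?_⟩
  obtain ⟨zv, hzv⟩ := sbtrInvS_surjective S ζ₀ hζ₀ v 1
  refine ⟨Function.update
    (0 : ∀ w, smH2 ((locSysS S).lev w) ((locSysS S).rep (chiRep (cycloChar p)) w)) v zv,
    fun v' hv' => by rw [Function.update_of_ne hv', Pi.zero_apply], ?_⟩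
  rw [trLoc, LinearMap.comp_apply, htr, hinv, Finset.sum_eq_single v, Function.update_self, hzv]
  · exact one_ne_zero
  · intro w _ hw
    rw [Function.update_of_ne hw, Pi.zero_apply, map_zero]
  · intro h
    exact absurd (Finset.mem_univ v) h

set_option maxSynthPendingDepth 3 in
/-- the FIRST conjunct of `core_triv` (`CoreSpec.lean`): a trace `tr` for which `pair02` is left
non-degenerate on all base pairs (route B: `cd ≤ 2` of the local groups). -/
theorem sb_core_triv_hN (hp2 : p ≠ 2) (S : Finset Nat.Primes) (hpS : pPrime p ∈ S) :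
    ∃ tr : smHc3 (locSysS S) (chiRep (cycloChar p)) →ₗ[ZMod p] ZMod p,
      ∀ H : Subgroup GQ, (levelsS S).IsOpen H → H ≤ (cycloChar p).ker →
        ∀ P : PairingData (levelsS S) (indRep H (trivRep (k := ZMod p) H))
          (indRep H (trivRep (k := ZMod p) H)) (chiRep (cycloChar p))
          (basePairing (cycloChar p) H),
        ∀ b : ∀ v, ↥(smH0 ((locSysS S).rep (indRep H (trivRep (k := ZMod p) H)) v)),
          (∀ c, pair02 (locSysS S) P tr b c = 0) → b = 0 := by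
  obtain ⟨tr, hlam⟩ := sb_exists_tr hp2 S hpS
  exact ⟨tr, hN_of_local_h3 (locSysS S) (cycloChar p) p (cycloChar_smooth S hpS) tr
    (lb_h3_locSysS S) hlam⟩

end Main

end Fermat.Agent.S55
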