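import Fermat.Agent.S55.SB.AsTrTop
import Fermat.Agent.S55.SB.Unram
import Fermat.Agent.S55.SB.Root
import Fermat.Agent.S55.LG.QbarLevels
import Fermat.Agent.S55.Global.Recip.Defs
import Fermat.Agent.S55.LG.Dense
import Fermat.Agent.S55.LocalBridgeTools

/-!
# S55 / SB, leaf AS-tr, part 2: global-to-local dictionary over the base field `ℚ`

`B = ⊥ : IntermediateField ℚ ℚ̄` (the base field `ℚ` in the language of the SB layer), `M / B` a
finite Galois layer, `j = lgEmbQbar q M : M → PadicAlgCl q` the embedding induced by the Prelude's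
`padicEmbedding q`.  Then `K_j = lgField q (j ∘ algebraMap B M)` is `ℚ_q` (its fixing subgroup is
everything), and restriction of automorphisms is compatible:
`geRes (lgEmb q j) (lbRes σ) = sbRes (localGaloisToGlobal q σ)`.

Auxiliary names have the prefix `sbtr`.
-/

set_option autoImplicit false
set_option linter.style.haveILetI false
set_option linter.unusedSectionVars false

namespace Fermat.Agent.S55

open ExtCitation

section Base

/-- the base field `ℚ` as a subfield of `ℚ̄` -/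
noncomputable abbrev sbtrB : IntermediateField ℚ (AlgebraicClosure ℚ) := ⊥

/-- every automorphism fixes the base field -/
theorem sbtr_mem_fixingSubgroup_bot (g : GQ) : g ∈ sbtrB.fixingSubgroup := by
  rw [IntermediateField.fixingSubgroup_bot]
  exact Subgroup.mem_top g

theorem sbtr_isUnramifiedOutside_bot (S : Finset Nat.Primes) : sbtrB.IsUnramifiedOutside S :=
  IntermediateField.isUnramifiedOutside_bot S

noncomputable instance sbtr_numberField_bot : NumberField ↥sbtrB :=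
  sb_numberField inferInstance

end Base

section Local

variable (q : ℕ) [Fact q.Prime]

/-- a `q`-adic embedding of the base field has image in `ℚ_q` -/
theorem sbtr_lgField_base_le (i : ↥sbtrB →+* PadicAlgCl q) : lgField q i ≤ ⊥ := by
  rw [lgField, IntermediateField.adjoin_le_iff]
  rintro _ ⟨y, rfl⟩
  obtain ⟨r, hr⟩ := IntermediateField.mem_bot.1 y.2
  have hy : y = algebraMap ℚ ↥sbtrB r := Subtype.ext hr.symm
  rw [hy, eq_ratCast, map_ratCast]
  exact IntermediateField.mem_bot.2 ⟨(r : ℚ_[q]), by rw [map_ratCast]⟩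

/-- hence every element of the local Galois group fixes it -/
theorem sbtr_mem_fixingSubgroup_base (i : ↥sbtrB →+* PadicAlgCl q) (σ : lbGal q) :
    σ ∈ (lgField q i).fixingSubgroup := by
  rw [IntermediateField.mem_fixingSubgroup_iff]
  intro x hx
  obtain ⟨c, rfl⟩ := IntermediateField.mem_bot.1 (sbtr_lgField_base_le q i hx)
  exact σ.commutes c

/-- two `q`-adic embeddings of the base field agree -/
theorem sbtr_base_emb_eq (i i' : ↥sbtrB →+* PadicAlgCl q) : i = i' := by
  ext y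
  obtain ⟨r, hr⟩ := IntermediateField.mem_bot.1 y.2
  have hy : y = algebraMap ℚ ↥sbtrB r := Subtype.ext hr.symm
  rw [hy, eq_ratCast, map_ratCast, map_ratCast]

end Local

section Layer

variable (q : ℕ) [Fact q.Prime] (M : IntermediateField ℚ (AlgebraicClosure ℚ))
  [FiniteDimensional ℚ ↥M] [IsGalois ℚ ↥M]

/-- `M` is a number field -/
noncomputable local instance sbtr_numberField : NumberField ↥M := sb_numberField inferInstance

/-- `M` as an algebra over the base field -/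
noncomputable local instance sbtr_algebra : Algebra ↥sbtrB ↥M := sbAlgebra bot_le

local instance sbtr_isScalarTower : IsScalarTower ℚ ↥sbtrB ↥M := sb_isScalarTower_bot bot_le

local instance sbtr_isGalois : IsGalois ↥sbtrB ↥M := sb_isGalois_of_isGalois bot_le

/-- the `q`-adic embedding of `M` induced by `padicEmbedding q` -/
noncomputable abbrev sbtrEmb : ↥M →+* PadicAlgCl q := lgEmbQbar q M

theorem sbtr_local_isGalois :
    letI := lbAlgebra (lgField_comp_le (K := ↥sbtrB) q (sbtrEmb q M))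
    IsGalois ↥(lgField q ((sbtrEmb q M).comp (algebraMap ↥sbtrB ↥M))) ↥(lgField q (sbtrEmb q M)) :=
  lg_isGalois q (sbtrEmb q M)

/-- restriction of local automorphisms to the global layer = restriction of the image in `G_ℚ` -/
theorem sbtr_geRes_lbRes (σ : lbGal q) :
    geRes (K := ↥sbtrB) (lgEmb q (sbtrEmb q M))
      (lbRes (lgField_comp_le (K := ↥sbtrB) q (sbtrEmb q M)) (sbtr_local_isGalois q M).to_normal
        ⟨σ, sbtr_mem_fixingSubgroup_base q _ σ⟩) =
    sbRes (bot_le : sbtrB ≤ M) (sbtr_isGalois M).to_normal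
      ⟨localGaloisToGlobal q σ, sbtr_mem_fixingSubgroup_bot _⟩ := by
  apply geRes_eq_of_spec
  intro x
  apply Subtype.ext
  rw [lbRes_apply]
  show padicEmbedding q ((sbRes (bot_le : sbtrB ≤ M) (sbtr_isGalois M).to_normal
      ⟨localGaloisToGlobal q σ, sbtr_mem_fixingSubgroup_bot _⟩ x : ↥M) : AlgebraicClosure ℚ) =
    σ (padicEmbedding q (x : AlgebraicClosure ℚ))
  rw [sbRes_apply, padicEmbedding_localGaloisToGlobal]

variable {p : ℕ} [Fact p.Prime]

/-- localisation of the multiplicative cochain `ζ^a'` -/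
theorem sbtr_geLocLG_mulCochain (ζM : (↥M)ˣ)
    (a' : (↥M ≃ₐ[↥sbtrB] ↥M) × (↥M ≃ₐ[↥sbtrB] ↥M) → ZMod p) :
    geLocLG (K := ↥sbtrB) q (sbtrEmb q M) (lbMulCochain ζM a') =
      lbMulCochain (Units.map ((lgEmb q (sbtrEmb q M) : ↥M →+* _) : ↥M →* _) ζM)
        (fun s => a' (geRes (K := ↥sbtrB) (lgEmb q (sbtrEmb q M)) s.1,
          geRes (K := ↥sbtrB) (lgEmb q (sbtrEmb q M)) s.2)) := by
  funext s
  show Units.map _ (ζM ^ _) = (Units.map _ ζM) ^ _
  rw [map_pow]

/-- GL-c over `ℚ`: the invariant `geInv` of the multiplicative cocycle `ζ^a'` of the layer `M / ℚ`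
at the embedding induced by `padicEmbedding q` is the smooth local invariant of the restriction to
the local Galois group of the smooth cochain `a' ∘ sbRes`. -/
theorem sbtr_geInv_eq (ζ₀ : AlgebraicClosure ℚ) (hζ₀ : IsPrimitiveRoot ζ₀ p)
    (ζM : (↥M)ˣ) (hζM : (((ζM : (↥M)ˣ) : ↥M) : AlgebraicClosure ℚ) = ζ₀)
    (a' : (↥M ≃ₐ[↥sbtrB] ↥M) × (↥M ≃ₐ[↥sbtrB] ↥M) → ZMod p)
    (ha : (fun s : lbGal q × lbGal q =>
        a' (sbRes (bot_le : sbtrB ≤ M) (sbtr_isGalois M).to_normal
            ⟨localGaloisToGlobal q s.1, sbtr_mem_fixingSubgroup_bot _⟩,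
          sbRes (bot_le : sbtrB ≤ M) (sbtr_isGalois M).to_normal
            ⟨localGaloisToGlobal q s.2, sbtr_mem_fixingSubgroup_bot _⟩)) ∈
      smZ2 (lbLevels q) ((chiRep (cycloChar p)).comp (localGaloisToGlobal q))) :
    geInv (K := ↥sbtrB) q (sbtrEmb q M) (lbMulCochain ζM a') =
      (((((sbtrInvTop q p (padicEmbedding q ζ₀)
        ((chiRep (cycloChar p)).comp (localGaloisToGlobal q))
        (smH2π (lbLevels q) ((chiRep (cycloChar p)).comp (localGaloisToGlobal q))
          ⟨_, ha⟩)).val : ℕ) : ℚ) / (p : ℚ) : ℚ)) := by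
  have hζ : IsPrimitiveRoot (padicEmbedding q ζ₀) p :=
    hζ₀.map_of_injective (padicEmbedding q).injective
  have hfun : (fun s : lbGal q × lbGal q =>
      (fun t : (↥(lgField q (sbtrEmb q M)) ≃ₐ[↥(lgField q
          ((sbtrEmb q M).comp (algebraMap ↥sbtrB ↥M)))] ↥(lgField q (sbtrEmb q M))) ×
          (↥(lgField q (sbtrEmb q M)) ≃ₐ[↥(lgField q
          ((sbtrEmb q M).comp (algebraMap ↥sbtrB ↥M)))] ↥(lgField q (sbtrEmb q M))) =>
        a' (geRes (K := ↥sbtrB) (lgEmb q (sbtrEmb q M)) t.1,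
          geRes (K := ↥sbtrB) (lgEmb q (sbtrEmb q M)) t.2))
      (lbRes (lgField_comp_le (K := ↥sbtrB) q (sbtrEmb q M))
          (sbtr_local_isGalois q M).to_normal ⟨s.1, sbtr_mem_fixingSubgroup_base q _ s.1⟩,
        lbRes (lgField_comp_le (K := ↥sbtrB) q (sbtrEmb q M))
          (sbtr_local_isGalois q M).to_normal ⟨s.2, sbtr_mem_fixingSubgroup_base q _ s.2⟩)) =
      (fun s : lbGal q × lbGal q =>
        a' (sbRes (bot_le : sbtrB ≤ M) (sbtr_isGalois M).to_normal
            ⟨localGaloisToGlobal q s.1, sbtr_mem_fixingSubgroup_bot _⟩,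
          sbRes (bot_le : sbtrB ≤ M) (sbtr_isGalois M).to_normal
            ⟨localGaloisToGlobal q s.2, sbtr_mem_fixingSubgroup_bot _⟩)) := by
    funext s
    show a' (_, _) = a' (_, _)
    rw [sbtr_geRes_lbRes q M s.1, sbtr_geRes_lbRes q M s.2]
  have hmk := sbtrInvTop_mk (ρ := (chiRep (cycloChar p)).comp (localGaloisToGlobal q)) hζ
    (lgField_comp_le (K := ↥sbtrB) q (sbtrEmb q M)) (sbtr_local_isGalois q M)
    (sbtr_mem_fixingSubgroup_base q _)
    (Units.map ((lgEmb q (sbtrEmb q M) : ↥M →+* _) : ↥M →* _) ζM)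
    (by
      show padicEmbedding q (((ζM : (↥M)ˣ) : ↥M) : AlgebraicClosure ℚ) = padicEmbedding q ζ₀
      rw [hζM])
    (lg_isMuRep_cycloChar q p ζ₀ hζ₀.pow_eq_one _)
    (fun t => a' (geRes (K := ↥sbtrB) (lgEmb q (sbtrEmb q M)) t.1,
          geRes (K := ↥sbtrB) (lgEmb q (sbtrEmb q M)) t.2))
    (by rw [hfun]; exact ha)
  rw [geInv, sbtr_geLocLG_mulCochain]
  refine hmk.trans ?_
  congr 6
  exact Subtype.ext hfun

section Lev

variable (p) (ζ : PadicAlgCl q)

/-- `sbtrInvTop` for a level structure which is propositionally `lbLevels q` -/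
noncomputable def sbtrInvLev (𝓛 : Levels (lbGal q)) (h𝓛 : 𝓛 = lbLevels q)
    (ρ : Representation (ZMod p) (lbGal q) (ZMod p)) : smH2 𝓛 ρ →ₗ[ZMod p] ZMod p := by
  subst h𝓛
  exact sbtrInvTop q p ζ ρ

variable {q p ζ}

omit [FiniteDimensional ℚ ↥M] [IsGalois ℚ ↥M] in
theorem sbtrInvLev_surjective (𝓛 : Levels (lbGal q)) (h𝓛 : 𝓛 = lbLevels q)
    (ρ : Representation (ZMod p) (lbGal q) (ZMod p)) (hζ : IsPrimitiveRoot ζ p)
    (hρ : IsMuRep ζ ⊤ (ρ.comp (⊤ : Subgroup (lbGal q)).subtype)) :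
    Function.Surjective (sbtrInvLev q p ζ 𝓛 h𝓛 ρ) := by
  subst h𝓛
  exact sbtrInvTop_surjective ρ hζ hρ

variable (q) in
/-- GL-c over `ℚ`, for a level structure propositionally equal to `lbLevels q` -/
theorem sbtr_geInv_eq_lev
    (𝓛 : Levels (lbGal q)) (h𝓛 : 𝓛 = lbLevels q)
    (ζ₀ : AlgebraicClosure ℚ) (hζ₀ : IsPrimitiveRoot ζ₀ p)
    (ζM : (↥M)ˣ) (hζM : (((ζM : (↥M)ˣ) : ↥M) : AlgebraicClosure ℚ) = ζ₀)
    (a' : (↥M ≃ₐ[↥sbtrB] ↥M) × (↥M ≃ₐ[↥sbtrB] ↥M) → ZMod p)
    (ha : (fun s : lbGal q × lbGal q =>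
        a' (sbRes (bot_le : sbtrB ≤ M) (sbtr_isGalois M).to_normal
            ⟨localGaloisToGlobal q s.1, sbtr_mem_fixingSubgroup_bot _⟩,
          sbRes (bot_le : sbtrB ≤ M) (sbtr_isGalois M).to_normal
            ⟨localGaloisToGlobal q s.2, sbtr_mem_fixingSubgroup_bot _⟩)) ∈
      smZ2 𝓛 ((chiRep (cycloChar p)).comp (localGaloisToGlobal q))) :
    geInv (K := ↥sbtrB) q (sbtrEmb q M) (lbMulCochain ζM a') =
      lbtPhi p (sbtrInvLev q p (padicEmbedding q ζ₀) 𝓛 h𝓛
        ((chiRep (cycloChar p)).comp (localGaloisToGlobal q))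
        (smH2π 𝓛 ((chiRep (cycloChar p)).comp (localGaloisToGlobal q)) ⟨_, ha⟩)) := by
  subst h𝓛
  exact sbtr_geInv_eq q M ζ₀ hζ₀ ζM hζM a' ha

end Lev

end Layer

end Fermat.Agent.S55
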