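import Fermat.Agent.S55.LocalBridgeInvBij
import Fermat.Agent.S55.Top.Smooth

/-!
# S55 / SB, leaf AS-tr, part 1: the local invariant on smooth `H²` of the FULL local Galois group

`lbInv q p ζ V ρ` (helper22's LocalBridge) lives on smooth cohomology of SUBGROUPS `V ≤ lbGal q`.
Here: restriction of smooth `H²` of a group `G` to a subgroup `V` (`sbtrRes`), its surjectivity for
`V = ⊤`, and the invariant `sbtrInvTop q p ζ ρ : smH2 (lbLevels q) ρ →ₗ ZMod p` of the whole local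
group with its finite-level characterisation (`sbtrInvTop_mk`, from `lbInv_mk`) and surjectivity.

Auxiliary names have the prefix `sbtr`.
-/

set_option autoImplicit false
set_option linter.style.haveILetI false
set_option linter.unusedSectionVars false

namespace Fermat.Agent.S55

section ResSub

variable {k : Type*} [CommRing k] {G : Type*} [Group G] (𝓛 : Levels G)
  {A : Type*} [AddCommGroup A] [Module k A] (ρ : Representation k G A) (V : Subgroup G)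

/-- restriction of smooth `H²` to a subgroup -/
noncomputable def sbtrRes : smH2 𝓛 ρ →ₗ[k] smH2 (𝓛.sub V) (ρ.comp V.subtype) :=
  smH2res ρ (Levels.continuous_comap 𝓛 V.subtype)

theorem sbtrRes_mk (f : ↥(smZ2 𝓛 ρ)) :
    sbtrRes 𝓛 ρ V (smH2π 𝓛 ρ f) =
      smH2π (𝓛.sub V) (ρ.comp V.subtype)
        (smZ2res ρ (Levels.continuous_comap 𝓛 V.subtype) f) := rfl

/-- for `V = ⊤` the restriction is onto -/
theorem sbtrRes_surjective (hV : V = ⊤) : Function.Surjective (sbtrRes 𝓛 ρ V) := by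
  subst hV
  intro y
  obtain ⟨⟨f, hf⟩, rfl⟩ := Submodule.mkQ_surjective _ y
  obtain ⟨hf1, U', ⟨U, hU, rfl⟩, hf2⟩ := (mem_smZ2 _ _ f).1 hf
  let F : G × G → A := fun s => f (⟨s.1, Subgroup.mem_top _⟩, ⟨s.2, Subgroup.mem_top _⟩)
  have hFres : res2 k (⊤ : Subgroup G).subtype F = f := by
    funext s
    rfl
  have hF : F ∈ smZ2 𝓛 ρ := by
    refine (mem_smZ2 _ _ F).2 ⟨?_, U, hU, fun g g' s s' hs hs' => ?_⟩
    · funext s
      have h1 := congrFun hf1 (⟨s.1, Subgroup.mem_top _⟩, ⟨s.2.1, Subgroup.mem_top _⟩,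
        ⟨s.2.2, Subgroup.mem_top _⟩)
      obtain ⟨s1, s2, s3⟩ := s
      rw [dd2_apply] at h1 ⊢
      exact h1
    · exact hf2 ⟨g, Subgroup.mem_top _⟩ ⟨g', Subgroup.mem_top _⟩ ⟨s, Subgroup.mem_top _⟩
        ⟨s', Subgroup.mem_top _⟩ hs hs'
  refine ⟨smH2π 𝓛 ρ ⟨F, hF⟩, ?_⟩
  rw [sbtrRes_mk]
  congr 1

end ResSub

section InvTop

variable (q : ℕ) [Fact q.Prime] (p : ℕ) [Fact p.Prime] (ζ : PadicAlgCl q)
  (ρ : Representation (ZMod p) (lbGal q) (ZMod p))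

/-- the local invariant on smooth `H²(Gal(ℚ̄_q/ℚ_q), μ_p)` (full local group) -/
noncomputable def sbtrInvTop : smH2 (lbLevels q) ρ →ₗ[ZMod p] ZMod p :=
  (lbInv q p ζ ⊤ (ρ.comp (⊤ : Subgroup (lbGal q)).subtype)).comp (sbtrRes (lbLevels q) ρ ⊤)

variable {q p ζ}

/-- `sbtrInvTop` may be computed on any subgroup equal to `⊤` -/
theorem sbtrInvTop_eq (V : Subgroup (lbGal q)) (hV : V = ⊤) (x : smH2 (lbLevels q) ρ) :
    sbtrInvTop q p ζ ρ x = lbInv q p ζ V (ρ.comp V.subtype) (sbtrRes (lbLevels q) ρ V x) := by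
  subst hV
  rfl

theorem sbtrInvTop_surjective (hζ : IsPrimitiveRoot ζ p)
    (hρ : IsMuRep ζ ⊤ (ρ.comp (⊤ : Subgroup (lbGal q)).subtype)) :
    Function.Surjective (sbtrInvTop q p ζ ρ) := by
  have hopen : (lbLevels q).IsOpen (⊤ : Subgroup (lbGal q)) := by
    obtain ⟨U, hU⟩ := (lbLevels q).exists_level
    exact ⟨U, hU, le_top⟩
  exact (lbInv_surjective hζ ⊤ hopen _ hρ).comp (sbtrRes_surjective (lbLevels q) ρ ⊤ rfl)

/-- the defining property of `sbtrInvTop` at a finite layer `M / E`, `E = ℚ_q` -/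
theorem sbtrInvTop_mk (hζ : IsPrimitiveRoot ζ p)
    {E M : IntermediateField ℚ_[q] (PadicAlgCl q)} (h : E ≤ M)
    [FiniteDimensional ℚ_[q] E] [FiniteDimensional ℚ_[q] M]
    (hg : letI := lbAlgebra h; IsGalois ↥E ↥M)
    (hE : ∀ σ : lbGal q, σ ∈ E.fixingSubgroup)
    (ζM : (↥M)ˣ) (hζM : ((ζM : ↥M) : PadicAlgCl q) = ζ)
    (hρ : IsMuRep ζ E.fixingSubgroup (ρ.comp E.fixingSubgroup.subtype))
    (c' : (letI := lbAlgebra h; (↥M ≃ₐ[↥E] ↥M) × (↥M ≃ₐ[↥E] ↥M)) → ZMod p)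
    (hc : (fun s : lbGal q × lbGal q =>
        c' (lbRes h hg.to_normal ⟨s.1, hE s.1⟩, lbRes h hg.to_normal ⟨s.2, hE s.2⟩)) ∈
      smZ2 (lbLevels q) ρ) :
    letI := lbAlgebra h
    haveI := lb_isScalarTower_bot h
    localInv q ↥E ↥M (lbMulCochain ζM c') =
      (((((sbtrInvTop q p ζ ρ (smH2π (lbLevels q) ρ ⟨_, hc⟩)).val : ℕ) : ℚ) / (p : ℚ) : ℚ)) := by
  have hV : E.fixingSubgroup = ⊤ := eq_top_iff.2 fun σ _ => hE σ
  rw [sbtrInvTop_eq ρ E.fixingSubgroup hV, sbtrRes_mk]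
  have hc' : (fun s : ↥E.fixingSubgroup × ↥E.fixingSubgroup =>
        c' (lbRes h hg.to_normal s.1, lbRes h hg.to_normal s.2)) ∈
      smZ2 ((lbLevels q).sub E.fixingSubgroup) (ρ.comp E.fixingSubgroup.subtype) :=
    (smZ2res ρ (Levels.continuous_comap (lbLevels q) E.fixingSubgroup.subtype) ⟨_, hc⟩).2
  exact lbInv_mk hζ h hg ζM hζM (ρ.comp E.fixingSubgroup.subtype) hρ c' hc'

end InvTop

end Fermat.Agent.S55
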