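/-
S55 / SMOOTH BRIDGE (SB): FIELD `c1` OF `CoreCrit` (helper29's `Top/CoreCritSpec.lean`) from the
finite-level statement U4 (`SbU4`, = `gl_h3_mu_vanish` of helper14's `Global/CoreFinSpec.lean`):
`H³(G_S, Ind_H 𝔽_p) = H³(H, 𝔽_p) = 0` (Shapiro, helper18) hence `j³ = 0` (`jc3_eq_zero_of_res3`).
-/
import Fermat.Agent.S55.SB.AsC1
import Fermat.Agent.S55.SM.ShapiroIso
import Fermat.Agent.S55.SM.IndFunctor
import Fermat.Agent.S55.Top.CoreCritSpec

set_option autoImplicit false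

namespace Fermat.Agent.S55

open ExtCitation

variable {p : ℕ} [Fact p.Prime]

/-- every smooth `3`-cocycle of `GQ` with coefficients in `Ind_H 𝔽_p` is a smooth coboundary -/
theorem sb_smZ3_ind_le_smB3 (S : Finset Nat.Primes) (hU4 : SbU4 p S) (H : Subgroup GQ)
    (hH : (levelsS S).IsOpen H) (hχ : H ≤ (cycloChar p).ker)
    (a : GQ × GQ × GQ → ↥(indSpace H (trivRep (k := ZMod p) H)))
    (ha : a ∈ smZ3 (levelsS S) (indRep H (trivRep (k := ZMod p) H))) :
    a ∈ smB3 (levelsS S) (indRep H (trivRep (k := ZMod p) H)) := by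
  rw [← smH3π_eq_zero_iff (levelsS S) (indRep H (trivRep (k := ZMod p) H)) ⟨a, ha⟩]
  apply smShapiro3Hom_injective (levelsS S) (trivRep (k := ZMod p) H) hH
  rw [smShapiro3Hom_mk, map_zero, smH3π_eq_zero_iff]
  exact sb_c1 S hU4 H hH hχ _ (shZ3 (levelsS S) H (trivRep (k := ZMod p) H) ⟨a, ha⟩).2

/-- **FIELD `c1` of `CoreCrit`** for `D = locSysS S`, `χ = cycloChar p`. -/
theorem sb_coreCrit_c1 (S : Finset Nat.Primes) (hU4 : SbU4 p S) (H : Subgroup GQ)
    (hH : (levelsS S).IsOpen H) (hχ : H ≤ (cycloChar p).ker)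
    (x : smHc3 (locSysS S) (indRep H (trivRep (k := ZMod p) H))) :
    jc3 (locSysS S) (ρ := indRep H (trivRep (k := ZMod p) H)) x = 0 := by
  have hsm : IsSmoothRep (levelsS S) (indRep H (trivRep (k := ZMod p) H)) := by
    apply smind_indRep_isSmooth hH
    intro v
    obtain ⟨U, hU⟩ := ((levelsS S).sub H).exists_level
    exact ⟨U, hU, fun s _ => rfl⟩
  exact jc3_eq_zero_of_res3 (locSysS S) hsm
    (fun a ha _ => sb_smZ3_ind_le_smB3 S hU4 H hH hχ a ha) x

end Fermat.Agent.S55
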