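import Fermat.Agent.S55.SB.LocalH3Fin
import Fermat.Agent.S55.LocalBridgeGalois3
import Fermat.Agent.S55.SB.Cochain

/-!
# S55 / row 311 (LOCAL-H3), smooth form

`H³(V, 𝔽_p) = 0` for the smooth cohomology of every open subgroup `V` of `Gal(ℚ̄_q/ℚ_q)` fixing the
`p`-th roots of unity (`lb_smZ3_le_smB3`), from the finite-level statement `lh3_mul_layer`.

Pattern = helper13's `SB/AsC1.lean` (global case): `V = E.fixingSubgroup` (`lb_isOpen_iff`),
`ζ ∈ E`, factor the smooth cocycle through a finite Galois layer `M/E` (`lb_exists_factor₃`), `ζ^f'`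
is a multiplicative cocycle (`SB/Cochain`), apply `lh3_mul_layer`, read off the additive cochain
(`sb_exists_eq_sbMul`) and pull it back to `V` (`lb_isLC₂_lbRes`).
-/

set_option autoImplicit false
set_option linter.style.haveILetI false
set_option linter.unusedSectionVars false
set_option linter.unusedVariables false

namespace Fermat.Agent.S55

open groupCohomology IntermediateField

/-- Shortcut instances (instance search on subtypes `↥M` of intermediate fields is slow). -/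
local instance (priority := high) lh3bMDMA (K L : Type) [Field K] [Field L] [Algebra K L] :
    MulDistribMulAction (L ≃ₐ[K] L) Lˣ := inferInstance

local instance (priority := high) lh3bSMulUnits (K L : Type) [Field K] [Field L] [Algebra K L] :
    SMul (L ≃ₐ[K] L) Lˣ := inferInstance

section Abstract

variable {p : ℕ} [Fact p.Prime] {K F : Type} [Field K] [Field F] [Algebra K F]

/-- Galois automorphisms fix the units coming from the base field. -/
theorem lh3_smul_map_algebraMap (ζ : Kˣ) (g : F ≃ₐ[K] F) :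
    g • Units.map (algebraMap K F : K →* F) ζ = Units.map (algebraMap K F : K →* F) ζ := by
  apply Units.ext
  rw [AlgEquiv.smul_units_def]
  exact g.commutes (ζ : K)

theorem lh3_isPrimitiveRoot_map {ζ : Kˣ} (hζ : IsPrimitiveRoot ζ p) :
    IsPrimitiveRoot (Units.map (algebraMap K F : K →* F) ζ) p := by
  apply IsPrimitiveRoot.coe_units_iff.1
  have h1 : IsPrimitiveRoot ((ζ : Kˣ) : K) p := IsPrimitiveRoot.coe_units_iff.2 hζ
  exact h1.map_of_injective (algebraMap K F).injective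

/-- `ζ^f'` is a multiplicative `3`-cocycle if `f'` is an additive one (trivial action). -/
theorem lh3_isMulCocycle₃_of_dd3 {ζ : Kˣ} (hζ : IsPrimitiveRoot ζ p)
    (f' : (F ≃ₐ[K] F) × (F ≃ₐ[K] F) × (F ≃ₐ[K] F) → ZMod p)
    (hf' : dd3 (1 : Representation (ZMod p) (F ≃ₐ[K] F) (ZMod p)) f' = 0) :
    IsMulCocycle₃ (sbMul₃ (Units.map (algebraMap K F : K →* F) ζ) f') := by
  have hζ' := lh3_isPrimitiveRoot_map (F := F) hζ
  exact (isMulCocycle₃_sbMul₃_iff (sb_primitiveRoot_pow_eq_one hζ') (sb_primitiveRoot_ne_one hζ')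
    (lh3_smul_map_algebraMap ζ) f').2 hf'

theorem lh3_glMuValued_sbMul₃ {ζ : Kˣ} (hζ : IsPrimitiveRoot ζ p)
    (f' : (F ≃ₐ[K] F) × (F ≃ₐ[K] F) × (F ≃ₐ[K] F) → ZMod p) :
    GlMuValued p (sbMul₃ (Units.map (algebraMap K F : K →* F) ζ) f') :=
  sb_glMuValued_pow (lh3_isPrimitiveRoot_map (F := F) hζ) f'

variable {F' : Type} [Field F'] [Algebra F F'] [Algebra K F'] [IsScalarTower K F F'] [Normal K F]

/-- the finite-level output in additive form -/
theorem lh3_abstract {ζ : Kˣ} (hζ : IsPrimitiveRoot ζ p)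
    (f' : (F ≃ₐ[K] F) × (F ≃ₐ[K] F) × (F ≃ₐ[K] F) → ZMod p)
    (e : (F' ≃ₐ[K] F') × (F' ≃ₐ[K] F') → F'ˣ) (hμ : GlMuValued p e)
    (he : glD2 e = glInfl₃ K F F' (sbMul₃ (Units.map (algebraMap K F : K →* F) ζ) f')) :
    ∃ c : (F' ≃ₐ[K] F') × (F' ≃ₐ[K] F') → ZMod p,
      dd2 (1 : Representation (ZMod p) (F' ≃ₐ[K] F') (ZMod p)) c =
        fun s => f' (AlgEquiv.restrictNormalHom F s.1, AlgEquiv.restrictNormalHom F s.2.1,
          AlgEquiv.restrictNormalHom F s.2.2) := by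
  have hζ' : IsPrimitiveRoot (Units.map (algebraMap K F' : K →* F') ζ) p :=
    lh3_isPrimitiveRoot_map (F := F') hζ
  obtain ⟨c, hc⟩ := sb_exists_eq_sbMul hζ' e hμ
  refine ⟨c, ?_⟩
  have he' : e = sbMul₂ (Units.map (algebraMap K F' : K →* F') ζ) c := funext hc
  rw [he', glD2_sbMul₂ (sb_primitiveRoot_pow_eq_one hζ') (lh3_smul_map_algebraMap ζ)] at he
  funext s
  have h1 := congrFun he s
  apply sb_pow_val_injective (sb_primitiveRoot_pow_eq_one hζ') (sb_primitiveRoot_ne_one hζ')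
  rw [show (Units.map (algebraMap K F' : K →* F') ζ) ^
      (dd2 (1 : Representation (ZMod p) (F' ≃ₐ[K] F') (ZMod p)) c s).val =
      sbMul₃ (Units.map (algebraMap K F' : K →* F') ζ)
        (dd2 (1 : Representation (ZMod p) (F' ≃ₐ[K] F') (ZMod p)) c) s from rfl, h1]
  simp only [glInfl₃, pullCochain₃, sbMul₃, map_pow]
  congr 1
  apply Units.ext
  simp only [Units.coe_map, MonoidHom.coe_coe]
  exact (IsScalarTower.algebraMap_apply K F F' (ζ : K)).symm

end Abstract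

section Res

variable {q : ℕ} [Fact q.Prime] {E M M' : IntermediateField ℚ_[q] (PadicAlgCl q)}

/-- inflation: `lbRes` to the small layer is the restriction of `lbRes` to the big layer -/
theorem lh3_restrictNormalHom_lbRes (h : E ≤ M) (hM : M ≤ M')
    (hn : letI := lbAlgebra h; Normal ↥E ↥M)
    (hn' : letI := lbAlgebra (h.trans hM); Normal ↥E ↥M') (σ : ↥E.fixingSubgroup) :
    letI := lbAlgebra h
    letI := lbAlgebra hM
    letI := lbAlgebra (h.trans hM)
    haveI : IsScalarTower ↥E ↥M ↥M' := IsScalarTower.of_algebraMap_eq (fun _ => rfl)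
    haveI := hn
    AlgEquiv.restrictNormalHom (F := ↥E) (K₁ := ↥M') ↥M (lbRes (h.trans hM) hn' σ) =
      lbRes h hn σ := by
  letI := lbAlgebra h
  letI := lbAlgebra hM
  letI := lbAlgebra (h.trans hM)
  haveI : IsScalarTower ↥E ↥M ↥M' := IsScalarTower.of_algebraMap_eq (fun _ => rfl)
  haveI := hn
  ext x
  have h1 := AlgEquiv.restrictNormal_commutes (lbRes (h.trans hM) hn' σ) ↥M x
  have h2 := lbRes_apply (h.trans hM) hn' σ (algebraMap ↥M ↥M' x)
  have h3 := lbRes_apply h hn σ x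
  rw [← h1] at h2
  exact h2.trans h3.symm

end Res

section Smooth

variable {q : ℕ} [Fact q.Prime] {p : ℕ} [Fact p.Prime]

/-- layer form: an additive `3`-cocycle `f'` on a finite Galois layer `M/E` (with `ζ_p ∈ E`) becomes
a coboundary on a bigger layer `M'/E`. -/
theorem lh3_layer {E M : IntermediateField ℚ_[q] (PadicAlgCl q)} (h : E ≤ M)
    [FiniteDimensional ℚ_[q] M] (hg : letI := lbAlgebra h; IsGalois ↥E ↥M)
    {ζ : PadicAlgCl q} (hζ : IsPrimitiveRoot ζ p) (hζE : ζ ∈ E)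
    (f' : (letI := lbAlgebra h; (↥M ≃ₐ[↥E] ↥M) × (↥M ≃ₐ[↥E] ↥M) × (↥M ≃ₐ[↥E] ↥M)) → ZMod p)
    (hf' : letI := lbAlgebra h
      dd3 (1 : Representation (ZMod p) (↥M ≃ₐ[↥E] ↥M) (ZMod p)) f' = 0) :
    ∃ (M' : IntermediateField ℚ_[q] (PadicAlgCl q)) (hMM' : M ≤ M')
      (_ : FiniteDimensional ℚ_[q] M')
      (_ : letI := lbAlgebra (h.trans hMM'); IsGalois ↥E ↥M'),
      letI := lbAlgebra h
      letI := lbAlgebra hMM'
      letI := lbAlgebra (h.trans hMM')
      haveI : IsScalarTower ↥E ↥M ↥M' := IsScalarTower.of_algebraMap_eq (fun _ => rfl)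
      haveI := hg
      ∃ c : (↥M' ≃ₐ[↥E] ↥M') × (↥M' ≃ₐ[↥E] ↥M') → ZMod p,
        dd2 (1 : Representation (ZMod p) (↥M' ≃ₐ[↥E] ↥M') (ZMod p)) c =
          fun s => f' (AlgEquiv.restrictNormalHom ↥M s.1, AlgEquiv.restrictNormalHom ↥M s.2.1,
            AlgEquiv.restrictNormalHom ↥M s.2.2) := by
  letI := lbAlgebra h
  haveI := hg
  have h0 : ζ ≠ 0 := hζ.ne_zero (Fact.out : p.Prime).ne_zero
  -- the root of unity as a unit of `E`
  let ζE : (↥E)ˣ := Units.mk0 ⟨ζ, hζE⟩ (fun h' => h0 (congrArg Subtype.val h'))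
  have hζE' : IsPrimitiveRoot ζE p := by
    apply IsPrimitiveRoot.coe_units_iff.1
    exact IsPrimitiveRoot.of_map_of_injective (f := E.val) (by exact hζ) E.val.injective
  obtain ⟨M', hMM', hfd', hg', e, heμ, he⟩ := lh3_mul_layer p h hg
    (sbMul₃ (Units.map (algebraMap ↥E ↥M : ↥E →* ↥M) ζE) f')
    (lh3_isMulCocycle₃_of_dd3 hζE' f' hf') (lh3_glMuValued_sbMul₃ hζE' f')
  refine ⟨M', hMM', hfd', hg', ?_⟩
  letI := lbAlgebra hMM'
  letI := lbAlgebra (h.trans hMM')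
  haveI : IsScalarTower ↥E ↥M ↥M' := IsScalarTower.of_algebraMap_eq (fun _ => rfl)
  exact lh3_abstract hζE' f' e heμ he

/-- **LOCAL `H³(𝔽_p) = 0`, smooth form**: for an open subgroup `V` of `Gal(ℚ̄_q/ℚ_q)` fixing a
primitive `p`-th root of unity, every smooth `3`-cocycle of `V` with values in `ZMod p` (trivial
action) is a smooth coboundary. -/
theorem lb_smZ3_le_smB3 {ζ : PadicAlgCl q} (hζ : IsPrimitiveRoot ζ p) (V : Subgroup (lbGal q))
    (hV : (lbLevels q).IsOpen V) (hfix : ∀ σ ∈ V, σ ζ = ζ)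
    (f : ↥V × ↥V × ↥V → ZMod p)
    (hf : f ∈ smZ3 ((lbLevels q).sub V) (1 : Representation (ZMod p) ↥V (ZMod p))) :
    f ∈ smB3 ((lbLevels q).sub V) (1 : Representation (ZMod p) ↥V (ZMod p)) := by
  obtain ⟨E, hE, rfl⟩ := (lb_isOpen_iff q V).1 hV
  have hζE : ζ ∈ E := by
    rw [← InfiniteGalois.fixedField_fixingSubgroup E, IntermediateField.mem_fixedField_iff]
    exact hfix
  obtain ⟨hf0, hfLC⟩ := (mem_smZ3 _ _ f).1 hf
  obtain ⟨M, h, -, hfd, hg, f', hff'⟩ :=
    lb_exists_factor₃ E f hfLC (⊥ : IntermediateField ℚ_[q] (PadicAlgCl q))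
  letI := lbAlgebra h
  haveI := hfd
  have hf' : dd3 (1 : Representation (ZMod p) (↥M ≃ₐ[↥E] ↥M) (ZMod p)) f' = 0 := by
    funext ⟨a₁, a₂, a₃, a₄⟩
    obtain ⟨g₁, rfl⟩ := lbRes_surjective h hg.to_normal a₁
    obtain ⟨g₂, rfl⟩ := lbRes_surjective h hg.to_normal a₂
    obtain ⟨g₃, rfl⟩ := lbRes_surjective h hg.to_normal a₃
    obtain ⟨g₄, rfl⟩ := lbRes_surjective h hg.to_normal a₄
    have h1 := congrFun hf0 (g₁, g₂, g₃, g₄)
    simp only [dd3_apply, MonoidHom.one_apply, Module.End.one_apply, Pi.zero_apply] at h1 ⊢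
    rw [← map_mul, ← map_mul, ← map_mul, ← hff' (g₂, g₃, g₄), ← hff' (g₁ * g₂, g₃, g₄),
      ← hff' (g₁, g₂ * g₃, g₄), ← hff' (g₁, g₂, g₃ * g₄), ← hff' (g₁, g₂, g₃)]
    exact h1
  obtain ⟨M', hMM', hfd', hg', c, hc⟩ := lh3_layer h hg hζ hζE f' hf'
  haveI := hfd'
  rw [mem_smB3]
  refine ⟨fun s => c (lbRes (h.trans hMM') hg'.to_normal s.1,
    lbRes (h.trans hMM') hg'.to_normal s.2),
    lb_isLC₂_lbRes (h.trans hMM') hg'.to_normal c, ?_⟩
  funext ⟨g₁, g₂, g₃⟩
  have h1 := congrFun hc (lbRes (h.trans hMM') hg'.to_normal g₁,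
    lbRes (h.trans hMM') hg'.to_normal g₂, lbRes (h.trans hMM') hg'.to_normal g₃)
  simp only [dd2_apply, MonoidHom.one_apply, Module.End.one_apply, map_mul] at h1 ⊢
  rw [h1, hff' (g₁, g₂, g₃)]
  have h2 := lh3_restrictNormalHom_lbRes h hMM' hg.to_normal hg'.to_normal
  rw [h2 g₁, h2 g₂, h2 g₃]

end Smooth

end Fermat.Agent.S55
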