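import Fermat.Agent.S55.LocalTate
import Fermat.Agent.S55.LocalBridgeInvBij
import Fermat.Agent.S55.Global.Infl

/-!
# S55 / row 311 (LOCAL-H3), finite level

`E ≤ M ≤ Ω = PadicAlgCl q` finite over `ℚ_q`, `M/E` Galois, `f` a `μ_p`-valued multiplicative
`3`-cocycle of `Gal(M/E)` with values in `Mˣ`.  Then there is a bigger finite Galois layer `M'/E`
and a `μ_p`-valued `2`-cochain `e` of `Gal(M'/E)` with `d² e = infl f`
(`lh3_mul_layer`: the local analogue of `gl_h3_mu_vanish`).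

Route: local Tate `H³(Gal(M/E), Mˣ) = 0` (`lf_isMulCoboundary₃`) gives `f = d² c`; `c ^ p` is a
`2`-cocycle; on a layer `M₁` of degree divisible by `[M:E] p` pick a cocycle `c₁` with
`p • inv c₁ = inv (c ^ p)` (`localInv_surjective`), so `infl (c ^ p) / c₁ ^ p = d¹ g`; adjoin
`p`-th roots `t σ` of the `g σ` (layer `M₂`); `e := infl c / (infl c₁ * d¹ t)`.
-/

set_option autoImplicit false
set_option linter.style.haveILetI false
set_option linter.unusedSectionVars false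
set_option linter.unusedVariables false

namespace Fermat.Agent.S55

open groupCohomology IntermediateField

/-- Shortcut instances (instance search on subtypes `↥M` of intermediate fields is slow). -/
local instance (priority := high) lh3MDMA (K L : Type) [Field K] [Field L] [Algebra K L] :
    MulDistribMulAction (L ≃ₐ[K] L) Lˣ := inferInstance

local instance (priority := high) lh3SMulUnits (K L : Type) [Field K] [Field L] [Algebra K L] :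
    SMul (L ≃ₐ[K] L) Lˣ := inferInstance

section Layer

variable {q : ℕ} [Fact q.Prime]

/-- A finite Galois layer `M₁/E` above `M` (and above a given finite `M₀`) whose degree is
divisible by `[M:E] * p`. -/
theorem lh3_exists_layer_dvd (p : ℕ) [Fact p.Prime]
    {E M : IntermediateField ℚ_[q] (PadicAlgCl q)} (h : E ≤ M)
    [FiniteDimensional ℚ_[q] M] (M₀ : IntermediateField ℚ_[q] (PadicAlgCl q))
    [FiniteDimensional ℚ_[q] M₀] :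
    ∃ (M₁ : IntermediateField ℚ_[q] (PadicAlgCl q)) (h₁ : M ≤ M₁), M₀ ≤ M₁ ∧
      FiniteDimensional ℚ_[q] M₁ ∧
      (letI := lbAlgebra (h.trans h₁); IsGalois ↥E ↥M₁) ∧
      (letI := lbAlgebra h; letI := lbAlgebra (h.trans h₁);
        Module.finrank ↥E ↥M * p ∣ Module.finrank ↥E ↥M₁) := by
  haveI : FiniteDimensional ℚ_[q] E := lb_finiteDimensional_of_le h
  obtain ⟨M₂, h₂, -, hfd₂, -, hdvd₂⟩ := lbb_exists_layer_dvd (p := p) M (1 : PadicAlgCl q)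
  haveI := hfd₂
  haveI : FiniteDimensional ℚ_[q] ↥(M₂ ⊔ M₀) := IntermediateField.finiteDimensional_sup _ _
  obtain ⟨M₁, hE₁, hM₂₁, hfd₁, hg₁, -⟩ :=
    lb_exists_layer E _ (lb_isLevel_ker (le_refl E)) (M₂ ⊔ M₀)
  have h₂₁ : M₂ ≤ M₁ := le_sup_left.trans hM₂₁
  refine ⟨M₁, h₂.trans h₂₁, le_sup_right.trans hM₂₁, hfd₁, hg₁, ?_⟩
  letI := lbAlgebra h
  letI := lbAlgebra h₂
  letI := lbAlgebra h₂₁
  letI := lbAlgebra (h₂.trans h₂₁)
  letI := lbAlgebra (h.trans (h₂.trans h₂₁))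
  haveI : IsScalarTower ↥E ↥M ↥M₁ := IsScalarTower.of_algebraMap_eq (fun _ => rfl)
  haveI : IsScalarTower ↥M ↥M₂ ↥M₁ := IsScalarTower.of_algebraMap_eq (fun _ => rfl)
  rw [← Module.finrank_mul_finrank ↥E ↥M ↥M₁, ← Module.finrank_mul_finrank ↥M ↥M₂ ↥M₁]
  exact mul_dvd_mul_left _ (Dvd.dvd.mul_right hdvd₂ _)

end Layer

section Div

/-- `ℚ/ℤ` is divisible: `p`-th parts with controlled order. -/
theorem lh3_exists_div (p : ℕ) (hp : 0 < p) (n : ℕ) (r : AddCircle (1 : ℚ)) (hr : n • r = 0) :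
    ∃ r' : AddCircle (1 : ℚ), p • r' = r ∧ (n * p) • r' = 0 := by
  obtain ⟨x, rfl⟩ := QuotientAddGroup.mk_surjective r
  have hp0 : (p : ℚ) ≠ 0 := by positivity
  have h1 : p • (((x / p : ℚ)) : AddCircle (1 : ℚ)) = ((x : ℚ) : AddCircle (1 : ℚ)) := by
    rw [← AddCircle.coe_nsmul]
    congr 1
    rw [nsmul_eq_mul]
    field_simp
  refine ⟨((x / p : ℚ) : AddCircle (1 : ℚ)), h1, ?_⟩
  rw [mul_smul, h1]
  exact hr

theorem lh3_div_mul_div_cancel {X : Type*} [CommGroup X] (a b : X) : a / (b * (a / b)) = 1 := by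
  rw [mul_div_cancel, div_self']

end Div

section Main

variable {q : ℕ} [Fact q.Prime]

set_option maxHeartbeats 1600000 in
/-- LOCAL `H³(μ_p)`-VANISHING AT FINITE LEVEL. -/
theorem lh3_mul_layer (p : ℕ) [Fact p.Prime]
    {E M : IntermediateField ℚ_[q] (PadicAlgCl q)} (h : E ≤ M) [FiniteDimensional ℚ_[q] M]
    (hg : letI := lbAlgebra h; IsGalois ↥E ↥M)
    (f : (letI := lbAlgebra h; (↥M ≃ₐ[↥E] ↥M) × (↥M ≃ₐ[↥E] ↥M) × (↥M ≃ₐ[↥E] ↥M)) → (↥M)ˣ)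
    (hf : letI := lbAlgebra h; IsMulCocycle₃ f) (hμ : GlMuValued p f) :
    ∃ (M' : IntermediateField ℚ_[q] (PadicAlgCl q)) (h' : M ≤ M')
      (_ : FiniteDimensional ℚ_[q] M')
      (_ : letI := lbAlgebra (h.trans h'); IsGalois ↥E ↥M'),
      letI := lbAlgebra h
      letI := lbAlgebra h'
      letI := lbAlgebra (h.trans h')
      haveI : IsScalarTower ↥E ↥M ↥M' := IsScalarTower.of_algebraMap_eq (fun _ => rfl)
      haveI := hg
      ∃ e : (↥M' ≃ₐ[↥E] ↥M') × (↥M' ≃ₐ[↥E] ↥M') → (↥M')ˣ,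
        GlMuValued p e ∧ glD2 e = glInfl₃ ↥E ↥M ↥M' f := by
  have hp : p.Prime := Fact.out
  letI := lbAlgebra h
  haveI := hg
  haveI : FiniteDimensional ℚ_[q] E := lb_finiteDimensional_of_le h
  haveI := lb_isScalarTower_bot h
  -- Step 1: local Tate
  obtain ⟨c, hc⟩ := (isMulCoboundary₃_iff_glD2 f).1 (lf_isMulCoboundary₃ q ↥E ↥M f hf)
  -- Step 2: `c ^ p` is a cocycle
  have hb : IsMulCocycle₂ (c ^ p) := by
    rw [isMulCocycle₂_iff_glD2, glD2_pow, hc]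
    funext s
    exact hμ s
  -- Step 3: a `p`-th part of the invariant and a layer carrying it
  obtain ⟨r', hr'1, hr'2⟩ := lh3_exists_div p hp.pos (Module.finrank ↥E ↥M)
    (localInv q ↥E ↥M (c ^ p)) (localInv_nsmul q ↥E ↥M hb)
  obtain ⟨M₁, h₁, -, hfd₁, hg₁, hdvd⟩ := lh3_exists_layer_dvd p h (⊥ : IntermediateField ℚ_[q] (PadicAlgCl q))
  letI := lbAlgebra h₁
  letI := lbAlgebra (h.trans h₁)
  haveI := hfd₁
  haveI := hg₁
  haveI : IsScalarTower ↥E ↥M ↥M₁ := IsScalarTower.of_algebraMap_eq (fun _ => rfl)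
  haveI := lb_isScalarTower_bot (h.trans h₁)
  have hr'3 : Module.finrank ↥E ↥M₁ • r' = 0 := by
    obtain ⟨k, hk⟩ := hdvd
    rw [hk, mul_comm, mul_smul, hr'2, smul_zero]
  obtain ⟨c₁, hc₁, hinv₁⟩ := localInv_surjective q ↥E ↥M₁ r' hr'3
  -- Step 4: `infl (c ^ p) / c₁ ^ p` is a coboundary
  have hinfl : localInv q ↥E ↥M₁ (glInfl₂ ↥E ↥M ↥M₁ (c ^ p)) = localInv q ↥E ↥M (c ^ p) := by
    rw [glInfl₂_eq_lfBC, localInv_baseChange q ↥E ↥M ↥E ↥M₁ hb, Module.finrank_self, one_smul]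
  have hcoc₁p : IsMulCocycle₂ (c₁ ^ p) := lta_isMulCocycle₂_pow hc₁ p
  have hcocinfl : IsMulCocycle₂ (glInfl₂ ↥E ↥M ↥M₁ (c ^ p)) :=
    glInfl₂_isMulCocycle₂ ↥E ↥M ↥M₁ _ hb
  have hcob : IsMulCoboundary₂ (glInfl₂ ↥E ↥M ↥M₁ (c ^ p) / c₁ ^ p) :=
    lt_isMulCoboundary₂_div_of_localInv_eq q ↥E ↥M₁ hcocinfl hcoc₁p
      (by rw [hinfl, lt_localInv_pow q ↥E ↥M₁ hc₁, hinv₁, hr'1])
  obtain ⟨g, hg⟩ := (isMulCoboundary₂_iff_glD1 _).1 hcob
  -- Step 5: adjoin `p`-th roots of the values of `g`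
  haveI : FiniteDimensional ↥E ↥M₁ := FiniteDimensional.right ℚ_[q] ↥E ↥M₁
  let t₀ : (↥M₁ ≃ₐ[↥E] ↥M₁) → PadicAlgCl q :=
    fun σ => lbRoot p (((g σ : (↥M₁)ˣ) : ↥M₁) : PadicAlgCl q)
  have ht₀ : ∀ σ, t₀ σ ^ p = (((g σ : (↥M₁)ˣ) : ↥M₁) : PadicAlgCl q) := fun σ => lbRoot_pow _
  haveI : Finite ↥(Set.range t₀) := (Set.finite_range t₀).to_subtype
  haveI : FiniteDimensional ℚ_[q] ↥(IntermediateField.adjoin ℚ_[q] (Set.range t₀)) :=
    IntermediateField.finiteDimensional_adjoin (fun x _ => Algebra.IsIntegral.isIntegral x)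
  haveI : FiniteDimensional ℚ_[q] ↥(M₁ ⊔ IntermediateField.adjoin ℚ_[q] (Set.range t₀)) :=
    IntermediateField.finiteDimensional_sup _ _
  obtain ⟨M₂, hE₂, hM₀₂, hfd₂, hg₂, -⟩ := lb_exists_layer E _ (lb_isLevel_ker (le_refl E))
    (M₁ ⊔ IntermediateField.adjoin ℚ_[q] (Set.range t₀))
  have h₂ : M₁ ≤ M₂ := le_sup_left.trans hM₀₂
  have ht₀mem : ∀ σ, t₀ σ ∈ M₂ := fun σ =>
    hM₀₂ ((le_sup_right : IntermediateField.adjoin ℚ_[q] (Set.range t₀) ≤ _)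
      (IntermediateField.subset_adjoin _ _ ⟨σ, rfl⟩))
  letI := lbAlgebra h₂
  letI := lbAlgebra (h₁.trans h₂)
  letI := lbAlgebra (h.trans (h₁.trans h₂))
  haveI := hfd₂
  haveI : IsGalois ↥E ↥M₂ := hg₂
  haveI : IsScalarTower ↥E ↥M₁ ↥M₂ := IsScalarTower.of_algebraMap_eq (fun _ => rfl)
  haveI : IsScalarTower ↥E ↥M ↥M₂ := IsScalarTower.of_algebraMap_eq (fun _ => rfl)
  haveI : IsScalarTower ↥M ↥M₁ ↥M₂ := IsScalarTower.of_algebraMap_eq (fun _ => rfl)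
  refine ⟨M₂, h₁.trans h₂, hfd₂, hg₂, ?_⟩
  -- the `1`-cochain of roots
  have ht₀ne : ∀ σ, (⟨t₀ σ, ht₀mem σ⟩ : ↥M₂) ≠ 0 := by
    intro σ h0
    have h1 : t₀ σ = 0 := congrArg Subtype.val h0
    have h2 := ht₀ σ
    rw [h1, zero_pow hp.ne_zero] at h2
    have h3 : ((g σ : (↥M₁)ˣ) : ↥M₁) = 0 := Subtype.ext h2.symm
    exact (g σ).ne_zero h3
  let t : (↥M₂ ≃ₐ[↥E] ↥M₂) → (↥M₂)ˣ := fun τ =>
    Units.mk0 ⟨t₀ (AlgEquiv.restrictNormalHom ↥M₁ τ), ht₀mem _⟩ (ht₀ne _)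
  have ht : t ^ p = glInfl₁ ↥E ↥M₁ ↥M₂ g := by
    funext τ
    apply Units.ext
    apply Subtype.ext
    rw [Pi.pow_apply, Units.val_pow_eq_pow_val, SubmonoidClass.coe_pow, glInfl₁_apply]
    exact ht₀ _
  refine ⟨glInfl₂ ↥E ↥M₁ ↥M₂ (glInfl₂ ↥E ↥M ↥M₁ c) / (glInfl₂ ↥E ↥M₁ ↥M₂ c₁ * glD1 t), ?_, ?_⟩
  · -- `e ^ p = 1`
    have h1 : (glInfl₂ ↥E ↥M₁ ↥M₂ (glInfl₂ ↥E ↥M ↥M₁ c) / (glInfl₂ ↥E ↥M₁ ↥M₂ c₁ * glD1 t)) ^ p
        = 1 := by
      rw [div_pow, mul_pow, ← glInfl₂_pow, ← glInfl₂_pow, ← glInfl₂_pow, ← glD1_pow, ht,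
        ← glInfl₂_glD1, hg, glInfl₂_div]
      exact lh3_div_mul_div_cancel _ _
    intro s
    have := congrFun h1 s
    simpa using this
  · -- `d² e = infl f`
    have hc₁' : glD2 (glInfl₂ ↥E ↥M₁ ↥M₂ c₁) = 1 :=
      (isMulCocycle₂_iff_glD2 _).1 (glInfl₂_isMulCocycle₂ ↥E ↥M₁ ↥M₂ c₁ hc₁)
    rw [glD2_div, glD2_mul, hc₁', glD2_glD1, one_mul, div_one, ← glInfl₃_glD2, ← glInfl₃_glD2, hc]
    exact glInfl₃_trans ↥E ↥M ↥M₁ ↥M₂ f

end Main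

end Fermat.Agent.S55
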